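/-
S56 block (Lq), arithmetic part: the fixed field of the inertia group `li P K` is unramified over `lf P K`
(`K`-general version of `S36R/K0/BlockL.lean`).
-/
import Fermat.Agent.S36R.K0.BlockL

set_option autoImplicit false

namespace Fermat.Agent.S56.Lq

open Fermat.Agent.PT.Local

variable (P : Plc) (K : Fld) [FiniteDimensional ℚ K]

/-- an element fixed by the inertia group lies in a finite unramified extension of `lf P K`. -/
theorem exists_mem_lf_unr {x : Qb} (hx : ∀ τ ∈ li P K, τ x = x) :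
    ∃ m : ℕ, 0 < m ∧ x ∈ lf P (unr P K m) := by
  obtain ⟨φ, hφ, hF⟩ := exists_frob P K
  obtain ⟨m, hm, hmx⟩ := Val_exists_pow_fix φ x
  refine ⟨m, hm, (mem_lf_iff P _ x).2 fun g hg => ?_⟩
  have hfd : FiniteDimensional ℚ (IntermediateField.adjoin ℚ {x}) :=
    IntermediateField.adjoin.finiteDimensional (Algebra.IsAlgebraic.isAlgebraic x).isIntegral
  have hfd2 : FiniteDimensional ℚ (IntermediateField.adjoin ℚ {x} ⊔ unr P K m : Fld) :=
    IntermediateField.finiteDimensional_sup _ _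
  have hg0 : g ∈ lg P K := lg_anti P (le_unr P K m) hg
  obtain ⟨j, τ, hτ, u, hu, rfl⟩ := frob_gen P K hφ hF (IntermediateField.adjoin ℚ {x} ⊔ unr P K m) hg0
  have hu1 : u ∈ lg P (unr P K m) := lg_anti P (le_sup_right.trans le_sup_right) hu
  have hux : u x = x := by
    have h1 : u ∈ lg P (IntermediateField.adjoin ℚ {x}) :=
      lg_anti P (le_sup_left.trans le_sup_right) hu
    exact ((mem_lg_iff P _ u).1 h1).2 x (IntermediateField.mem_adjoin_simple_self ℚ x)
  have hτ1 : τ ∈ lg P (unr P K m) := li_le_unr P K m hτ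
  have hτx : τ x = x := hx τ hτ
  have hφj : φ ^ j ∈ lg P (unr P K m) := by
    have h1 := (lg P (unr P K m)).mul_mem ((lg P (unr P K m)).mul_mem hg
      ((lg P (unr P K m)).inv_mem hu1)) ((lg P (unr P K m)).inv_mem hτ1)
    have h2 : φ ^ j * τ * u * u⁻¹ * τ⁻¹ = φ ^ j := by group
    rwa [h2] at h1
  obtain ⟨c, rfl⟩ := (Unram_pow_mem_iff P K hm hφ hF j).1 hφj
  have hpow : ∀ c : ℕ, (φ ^ (m * c)) x = x := by
    intro c
    induction c with
    | zero => simp
    | succ c ih => rw [Nat.mul_succ, pow_add, AlgEquiv.mul_apply, hmx, ih]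
  rw [AlgEquiv.mul_apply, AlgEquiv.mul_apply, hux, hτx, hpow]

/-- **(TF)** the value group of the fixed field of `li P K` is generated by `v π`. -/
theorem v_eq_zpow_of_fixed {π : Qb} (hπ : IsUnif P K π) {x : Qb} (hx0 : x ≠ 0)
    (hx : ∀ τ ∈ li P K, τ x = x) : ∃ n : ℤ, P.v x = P.v π ^ n := by
  obtain ⟨m, hm, hxm⟩ := exists_mem_lf_unr P K hx
  exact (isUnif_unr P K hm hπ).2.2 x hxm hx0

end Fermat.Agent.S56.Lq
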