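/-
S56 block (Lq), arithmetic part, leaf T-kap: the Kummer function `kapR p β τ = log_ζ (τ β / β)`.
`ζ = zetaP p` (`PT/B/Galois.lean`), `g ζ = ζ ^ cycloChar p g` (`galois_zetaP_aux`).
-/
import Fermat.Agent.PT.B.Galois
import Fermat.Agent.PT.Local.Basic

set_option autoImplicit false

open ExtCitation

namespace Fermat.Agent.S56.Lq

open Fermat.Agent.PT
open Fermat.Agent.PT.Local (Qb Plc li lg lf IsUnif Fld)

variable (p : ℕ) [Fact p.Prime]

/-- `kapR p β τ = a` if `τ β = ζ ^ a β` (junk value if `τ β / β ∉ μ_p`). -/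
noncomputable def kapR (β : Qb) (τ : GQ) : ZMod p :=
  Function.invFun (fun a : ZMod p => ((zetaP p : Qbarˣ) : Qbar) ^ a.val) (τ β / β)

variable {p}

theorem TameKap_prim : IsPrimitiveRoot ((zetaP p : Qbarˣ) : Qbar) p :=
  IsPrimitiveRoot.coe_units_iff.mpr (zetaP_spec p)

theorem TameKap_ne_zero : ((zetaP p : Qbarˣ) : Qbar) ≠ 0 := (zetaP p).ne_zero

theorem TameKap_inj :
    Function.Injective (fun a : ZMod p => ((zetaP p : Qbarˣ) : Qbar) ^ a.val) := by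
  have : NeZero p := ⟨(Fact.out : p.Prime).ne_zero⟩
  intro a b hab
  exact ZMod.val_injective p (TameKap_prim.pow_inj (ZMod.val_lt a) (ZMod.val_lt b) hab)

/-- `ζ ^ (n mod p) = ζ ^ n`, `n : ℤ`. -/
theorem TameKap_zpow_val (n : ℤ) :
    ((zetaP p : Qbarˣ) : Qbar) ^ ((n : ZMod p)).val = ((zetaP p : Qbarˣ) : Qbar) ^ n := by
  have : NeZero p := ⟨(Fact.out : p.Prime).ne_zero⟩
  have h1 : (((n : ZMod p).val : ℕ) : ℤ) = n % p := ZMod.val_intCast n
  rw [← zpow_natCast, h1]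
  conv_rhs => rw [← Int.mul_ediv_add_emod n p, zpow_add₀ TameKap_ne_zero, zpow_mul, zpow_natCast,
    TameKap_prim.pow_eq_one, one_zpow, one_mul]

theorem TameKap_cast_val (a : ZMod p) : (((a.val : ℕ) : ℤ) : ZMod p) = a := by
  have : NeZero p := ⟨(Fact.out : p.Prime).ne_zero⟩
  rw [Int.cast_natCast, ZMod.natCast_zmod_val]

theorem TameKap_pow_add (a b : ZMod p) :
    ((zetaP p : Qbarˣ) : Qbar) ^ (a + b).val =
      ((zetaP p : Qbarˣ) : Qbar) ^ a.val * ((zetaP p : Qbarˣ) : Qbar) ^ b.val := by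
  have h : a + b = (((a.val : ℤ) + (b.val : ℤ) : ℤ) : ZMod p) := by
    rw [Int.cast_add, TameKap_cast_val, TameKap_cast_val]
  rw [h, TameKap_zpow_val, zpow_add₀ TameKap_ne_zero, zpow_natCast, zpow_natCast]

theorem TameKap_pow_intCast_mul (n : ℤ) (a : ZMod p) :
    ((zetaP p : Qbarˣ) : Qbar) ^ ((n : ZMod p) * a).val =
      (((zetaP p : Qbarˣ) : Qbar) ^ a.val) ^ n := by
  have h : (n : ZMod p) * a = (((a.val : ℤ) * n : ℤ) : ZMod p) := by
    rw [Int.cast_mul, TameKap_cast_val, mul_comm]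
  rw [h, TameKap_zpow_val, zpow_mul, zpow_natCast]

theorem TameKap_pow_mul (a b : ZMod p) :
    ((zetaP p : Qbarˣ) : Qbar) ^ (a * b).val =
      (((zetaP p : Qbarˣ) : Qbar) ^ a.val) ^ b.val := by
  have h := TameKap_pow_intCast_mul (p := p) (b.val : ℤ) a
  rw [TameKap_cast_val, zpow_natCast, mul_comm] at h
  exact h

theorem TameKap_galois (g : GQ) :
    g ((zetaP p : Qbarˣ) : Qbar) = ((zetaP p : Qbarˣ) : Qbar) ^ ((cycloChar p g : ZMod p)).val := by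
  have h := congrArg (fun t : Qbarˣ => (t : Qbar))
    (galois_zetaP_aux p g (zetaP p) (zetaP_spec p).pow_eq_one)
  simpa using h

/-- (`(τ β / β) ^ p = 1`, `IsPrimitiveRoot.eq_pow_of_pow_eq_one`, `Function.invFun_eq`.) -/
theorem kapR_spec {β : Qb} (hβ : β ≠ 0) {τ : GQ} (hτ : τ (β ^ p) = β ^ p) :
    τ β = ((zetaP p : Qbarˣ) : Qbar) ^ (kapR p β τ).val * β := by
  have : NeZero p := ⟨(Fact.out : p.Prime).ne_zero⟩
  have h1 : (τ β / β) ^ p = 1 := by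
    rw [div_pow, ← map_pow, hτ, div_self (pow_ne_zero p hβ)]
  obtain ⟨i, hi, hiz⟩ := TameKap_prim.eq_pow_of_pow_eq_one h1
  have h2 : ∃ a : ZMod p, (fun a : ZMod p => ((zetaP p : Qbarˣ) : Qbar) ^ a.val) a = τ β / β :=
    ⟨(i : ZMod p), by
      show ((zetaP p : Qbarˣ) : Qbar) ^ ((i : ZMod p)).val = τ β / β
      rw [ZMod.val_cast_of_lt hi, hiz]⟩
  have h3 : ((zetaP p : Qbarˣ) : Qbar) ^ (kapR p β τ).val = τ β / β := Function.invFun_eq h2
  rw [h3, div_mul_cancel₀ _ hβ]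

/-- (`IsPrimitiveRoot.pow_inj`, `ZMod.val_lt`.) -/
theorem kapR_eq_of {β : Qb} (hβ : β ≠ 0) {τ : GQ} {a : ZMod p}
    (h : τ β = ((zetaP p : Qbarˣ) : Qbar) ^ a.val * β) : kapR p β τ = a := by
  have h1 : τ β / β = (fun a : ZMod p => ((zetaP p : Qbarˣ) : Qbar) ^ a.val) a := by
    rw [h, mul_div_assoc, div_self hβ, mul_one]
  unfold kapR
  rw [h1]
  exact Function.leftInverse_invFun TameKap_inj a

theorem kapR_eq_zero_iff {β : Qb} (hβ : β ≠ 0) {τ : GQ} (hτ : τ (β ^ p) = β ^ p) :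
    kapR p β τ = 0 ↔ τ β = β := by
  constructor
  · intro h
    have h1 := kapR_spec hβ hτ
    rwa [h, ZMod.val_zero, pow_zero, one_mul] at h1
  · intro h
    exact kapR_eq_of hβ (by rw [ZMod.val_zero, pow_zero, one_mul, h])

/-- the cocycle relation: `(σ τ) β = σ (ζ^b β) = ζ^(χ(σ) b) ζ^a β`. -/
theorem kapR_mul {β : Qb} (hβ : β ≠ 0) {σ τ : GQ} (hσ : σ (β ^ p) = β ^ p)
    (hτ : τ (β ^ p) = β ^ p) :
    kapR p β (σ * τ) = kapR p β σ + (cycloChar p σ : ZMod p) * kapR p β τ := by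
  apply kapR_eq_of hβ
  have h1 : (σ * τ) β = σ (τ β) := rfl
  rw [h1, kapR_spec hβ hτ, map_mul, map_pow, TameKap_galois, kapR_spec hβ hσ, TameKap_pow_add,
    TameKap_pow_mul]
  ring

/-- `kapR p β` is right invariant under a level (`exists_level_fixing β`). -/
theorem kapR_smooth (β : Qb) : ∃ U ∈ Lall, ∀ g u : GQ, u ∈ U → kapR p β (g * u) = kapR p β g := by
  obtain ⟨U, hU, h⟩ := exists_level_fixing β
  refine ⟨U, hU, fun g u hu => ?_⟩
  have h1 : (g * u) β = g β := by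
    show g (u β) = g β
    rw [h u hu]
  unfold kapR
  rw [h1]

/-- `kapR` of a power: `τ (β ^ n) = ζ ^ (n a) β ^ n` (`n : ℤ`). -/
theorem apply_zpow_eq {β : Qb} (hβ : β ≠ 0) {τ : GQ} (hτ : τ (β ^ p) = β ^ p) (n : ℤ) :
    τ (β ^ n) = ((zetaP p : Qbarˣ) : Qbar) ^ ((n : ZMod p) * kapR p β τ).val * β ^ n := by
  rw [map_zpow₀, kapR_spec hβ hτ, mul_zpow, TameKap_pow_intCast_mul]

end Fermat.Agent.S56.Lq
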