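/-
S56 block (Lq), arithmetic part, leaf T-gen: `Hom_cont(I_K, 𝔽_p)` is generated by the Kummer character of a uniformiser (`ℓ ≠ p`).
-/
import Fermat.Agent.S56.Lq.TameFix
import Fermat.Agent.S56.Lq.TameKap
import Fermat.Agent.PT.B.Kummer
import Fermat.Agent.PT.Coh.DictV
import Fermat.Agent.PT.Hens.Kummer
import Fermat.Agent.PT.R.Dec

set_option autoImplicit false

open ExtCitation

namespace Fermat.Agent.S56.Lq

open Fermat.Agent.PT
open Fermat.Agent.PT.Local (Qb Plc li lg lf IsUnif Fld)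

variable {p : ℕ} [Fact p.Prime] (P : Plc) (K : Fld) [FiniteDimensional ℚ K]

/-- inertia at `ℓ ≠ p` acts trivially on `μ_p` (`Ine_le_G1_of_ne`). -/
theorem cycloChar_eq_one_of_mem_ine (hℓ : P.ℓ ≠ p) {τ : GQ} (hτ : τ ∈ P.ine) :
    cycloChar p τ = 1 := by
  exact Ine_le_G1_of_ne P.A P.prime hℓ P.liesOver hτ

/-- a place lies over at most one prime. -/
theorem TameGen_not_liesOver (hℓ : P.ℓ ≠ p) : ¬ P.A.LiesOverPrime p := by
  intro h'
  have hp : p.Prime := Fact.out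
  have hcop : Nat.Coprime P.ℓ p := (Nat.coprime_primes P.prime hp).2 hℓ
  have h1 : P.A.valuation ((P.ℓ : ℕ) : Qbar) < 1 :=
    (ValuationSubring.mem_nonunits_iff P.A).1 P.liesOver
  have h2 : P.A.valuation ((p : ℕ) : Qbar) < 1 := (ValuationSubring.mem_nonunits_iff P.A).1 h'
  have hint : ∀ a : ℤ, P.A.valuation (a : Qbar) ≤ 1 := fun a =>
    (P.A.valuation_le_one_iff _).2 (intCast_mem P.A a)
  have hb : ((P.ℓ : ℕ) : ℤ) * Nat.gcdA P.ℓ p + ((p : ℕ) : ℤ) * Nat.gcdB P.ℓ p = 1 := by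
    have := Nat.gcd_eq_gcd_ab P.ℓ p
    rw [hcop.gcd_eq_one] at this
    exact_mod_cast this.symm
  have hb' : ((P.ℓ : ℕ) : Qbar) * ((Nat.gcdA P.ℓ p : ℤ) : Qbar)
      + ((p : ℕ) : Qbar) * ((Nat.gcdB P.ℓ p : ℤ) : Qbar) = 1 := by
    exact_mod_cast congrArg (Int.cast : ℤ → Qbar) hb
  have h3 : P.A.valuation (1 : Qbar) < 1 := by
    rw [← hb']
    refine lt_of_le_of_lt (P.A.valuation.map_add _ _) (max_lt ?_ ?_)
    · rw [map_mul]
      exact mul_lt_one_of_lt_of_le h1 (hint _)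
    · rw [map_mul]
      exact mul_lt_one_of_lt_of_le h2 (hint _)
  rw [map_one] at h3
  exact lt_irrefl _ h3

/-- **(TK)**  Let `c` be a smooth homomorphism `li P K → 𝔽_p`.
1. `cycRep p τ = 1` on `li P K`, so `c` is a cocycle for `cycRep p`: `exists_Z1_of_inh` gives `f ∈ Z1 Lall (li P K) (cycRep p)` with
   `f 1 τ = c τ`.
2. `(kummerQbar p).exists_kum` gives `b : Additive Qbarˣ` fixed by `li P K` with `f - kum b ∈ B1`; by `mem_B1_iff` (trivial action) the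
   difference vanishes at `(1, τ)`, so `c τ = kum b 1 τ`, and `ι_kum_one`: `ζ ^ (c τ) = τ γ / γ`, `γ = s b`, `γ ^ p = b`.
3. `v_eq_zpow_of_fixed`: `v b = v π ^ n`.  `δ := γ / β ^ n` has `δ ^ p = b / π ^ n`, a unit fixed by `τ`;
   `apply_eq_of_mem_Ine_of_pow_unit` gives `τ δ = δ`.  So `τ γ / γ = τ (β ^ n) / β ^ n = ζ ^ (n κ(τ))` (`apply_zpow_eq`): `i = n`. -/
theorem tame_gen (hℓ : P.ℓ ≠ p) {π β : Qb} (hπ : IsUnif P K π) (hβ : β ^ p = π)
    (c : GQ → ZMod p) (hs : SmoothOn1 Lall (li P K) c)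
    (hc : ∀ σ ∈ li P K, ∀ τ ∈ li P K, c (σ * τ) = c σ + c τ) :
    ∃ i : ZMod p, ∀ τ ∈ li P K, c τ = i * kapR p β τ := by
  have hp : p.Prime := Fact.out
  have hine : ∀ τ ∈ li P K, τ ∈ P.ine := fun τ hτ => ((Local.mem_li_iff P K τ).1 hτ).1
  have hcyc : ∀ τ ∈ li P K, ∀ a : ZMod p, cycRep p τ a = a := by
    intro τ hτ a
    rw [cycRep_apply, cycloChar_eq_one_of_mem_ine P hℓ (hine τ hτ)]
    simp
  have hsm : IsSmoothRep Lall (cycRep p) := by
    obtain ⟨U, hU, hle⟩ := G1_isOpen p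
    intro a
    refine ⟨U, hU, fun u hu => ?_⟩
    have h1 : cycloChar p u = 1 := hle hu
    rw [cycRep_apply, h1]
    simp
  obtain ⟨f, hf, hfc⟩ := exists_Z1_of_inh hsm hs
    (fun v hv w hw => by rw [hc v hv w hw, hcyc v hv, add_comm])
  obtain ⟨b, hb, hfb⟩ := (kummerQbar p).exists_kum hf
  have hZ : f - (kummerQbar p).kum b ∈ Z1 Lall (li P K) (cycRep p) :=
    sub_mem hf ((kummerQbar p).kum_mem_Z1 hb)
  obtain ⟨a, ha⟩ := (mem_B1_iff hZ).1 hfb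
  have hck : ∀ τ ∈ li P K, c τ = (kummerQbar p).kum b 1 τ := by
    intro τ hτ
    have h1 := ha τ hτ
    rw [hcyc τ hτ, sub_self, Pi.sub_apply, Pi.sub_apply, sub_eq_zero, hfc τ hτ] at h1
    exact h1
  set γu : Qbarˣ := Additive.toMul ((kummerQbar p).s b) with hγu
  set Bu : Qbarˣ := Additive.toMul b with hBu
  have hγp : (γu : Qbar) ^ p = (Bu : Qbar) := by
    have h2 : γu ^ p = Bu := congrArg Additive.toMul ((kummerQbar p).p_smul_s b)
    rw [← Units.val_pow_eq_pow_val, h2]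
  have hBfix : ∀ τ ∈ li P K, τ (Bu : Qbar) = Bu := by
    intro τ hτ
    exact congrArg (fun x => ((Additive.toMul x : Qbarˣ) : Qbar)) (hb τ hτ)
  have hγ : ∀ τ ∈ li P K, τ (γu : Qbar) = ((zetaP p : Qbarˣ) : Qbar) ^ (c τ).val * γu := by
    intro τ hτ
    have h1 := (kummerQbar p).ι_kum_one (hb τ hτ)
    rw [← hck τ hτ, iotaP_apply] at h1
    have h2 := congrArg (fun x => ((Additive.toMul x : Qbarˣ) : Qbar)) h1
    simp only [toMul_ofMul, toMul_sub, Units.val_pow_eq_pow_val, Units.val_div_eq_div_val] at h2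
    have h3 : ((Additive.toMul (multRep τ ((kummerQbar p).s b)) : Qbarˣ) : Qbar)
        = τ (γu : Qbar) := rfl
    rw [h3] at h2
    rw [h2, div_mul_cancel₀ _ (Units.ne_zero γu)]
  have hπ0 : π ≠ 0 := hπ.ne_zero
  have hβ0 : β ≠ 0 := by
    rintro rfl
    rw [zero_pow hp.ne_zero] at hβ
    exact hπ0 hβ.symm
  have hπfix : ∀ τ ∈ li P K, τ π = π := fun τ hτ =>
    (Local.mem_lf_iff P K π).1 hπ.1 τ (Local.li_le_lg P K hτ)
  obtain ⟨n, hn⟩ := v_eq_zpow_of_fixed P K hπ (Units.ne_zero Bu) hBfix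
  refine ⟨(n : ZMod p), fun τ hτ => ?_⟩
  set δ : Qbar := (γu : Qbar) / β ^ n with hδ
  have hδp : δ ^ p = (Bu : Qbar) / π ^ n := by
    rw [hδ, div_pow, hγp, ← zpow_natCast (β ^ n) p, ← zpow_mul, mul_comm, zpow_mul,
      zpow_natCast, hβ]
  have hvδ : P.A.valuation (δ ^ p) = 1 := by
    rw [hδp, map_div₀, map_zpow₀]
    have h1 : P.A.valuation (Bu : Qbar) = P.A.valuation π ^ n := hn
    rw [h1]
    exact div_self (zpow_ne_zero _ ((Valuation.ne_zero_iff _).2 hπ0))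
  have hδfix : τ (δ ^ p) = δ ^ p := by
    rw [hδp, map_div₀, map_zpow₀, hBfix τ hτ, hπfix τ hτ]
  have hτδ : τ δ = δ :=
    apply_eq_of_mem_Ine_of_pow_unit (TameGen_not_liesOver P hℓ) (hine τ hτ) hvδ hδfix
  have hγδ : (γu : Qbar) = δ * β ^ n := by
    rw [hδ, div_mul_cancel₀ _ (zpow_ne_zero _ hβ0)]
  have hτβ : τ (β ^ p) = β ^ p := by rw [hβ, hπfix τ hτ]
  have h4 : τ (γu : Qbar) =
      ((zetaP p : Qbarˣ) : Qbar) ^ ((n : ZMod p) * kapR p β τ).val * γu := by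
    conv_lhs => rw [hγδ]
    rw [map_mul, hτδ, apply_zpow_eq hβ0 hτβ n, hγδ]
    ring
  rw [← kapR_eq_of (Units.ne_zero γu) (hγ τ hτ), kapR_eq_of (Units.ne_zero γu) h4]

end Fermat.Agent.S56.Lq
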