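/-
S56 block (Lq), ABSTRACT PART 2: tame inertia (`v ∤ p`).
`IsTame Λ I χ κ τ₀` axiomatises what is needed of the inertia group `I ⊴ Γ = D_v`, `v ≠ p`:
* `κ : Γ → 𝔽_p` is the Kummer cocycle of a uniformiser (`κ (d e) = κ d + χ d κ e`, `χ` = mod `p` cyclotomic character),
* `Hom_cont(I, 𝔽_p) = 𝔽_p κ`, `κ τ₀ = 1`  (`univ`),
* `Hom_cont(I₁, 𝔽_p)`, `I₁ = I ∩ ker κ`, is detected by the value at `τ₀ ^ p` (`step`).
-/
import Fermat.Agent.S56.Lq.AbsUr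

set_option autoImplicit false

namespace Fermat.Agent.S56.Lq

open Fermat.Agent.PT

variable {p : ℕ} [Fact p.Prime] {Γ A : Type*} [Group Γ] [AddCommGroup A] [Module (ZMod p) A]

/-- the tame structure of an inertia group at `v ∤ p`. -/
structure IsTame (Λ : LevelSystem Γ) (I : Subgroup Γ) (χ : Γ →* (ZMod p)ˣ) (κ : Γ → ZMod p)
    (τ₀ : Γ) : Prop where
  mem : τ₀ ∈ I
  one : κ τ₀ = 1
  chi : ∀ τ ∈ I, χ τ = 1
  coc : ∀ d e : Γ, κ (d * e) = κ d + (χ d : ZMod p) * κ e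
  smooth : Inh.LC1 Λ κ
  univ : ∀ c : Γ → ZMod p, Inh.LC1 Λ c → (∀ σ ∈ I, ∀ τ ∈ I, c (σ * τ) = c σ + c τ) →
    ∀ τ ∈ I, c τ = κ τ * c τ₀
  step : ∀ c : Γ → ZMod p, Inh.LC1 Λ c →
    (∀ σ ∈ I, ∀ τ ∈ I, κ σ = 0 → κ τ = 0 → c (σ * τ) = c σ + c τ) → c (τ₀ ^ p) = 0 →
    ∀ τ ∈ I, κ τ = 0 → c τ = 0

namespace IsTame

variable {Λ : LevelSystem Γ} {I : Subgroup Γ} {χ : Γ →* (ZMod p)ˣ} {κ : Γ → ZMod p} {τ₀ : Γ}

theorem add (h : IsTame Λ I χ κ τ₀) {σ τ : Γ} (hσ : σ ∈ I) : κ (σ * τ) = κ σ + κ τ := by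
  rw [h.coc, h.chi σ hσ, Units.val_one, one_mul]

theorem kap_one (h : IsTame Λ I χ κ τ₀) : κ 1 = 0 := by
  have := h.add (σ := 1) (τ := 1) I.one_mem
  rw [mul_one] at this
  exact left_eq_add.mp this

/-- `κ (τ₀ ^ j) = j`. -/
theorem kap_pow (h : IsTame Λ I χ κ τ₀) (j : ℕ) : κ (τ₀ ^ j) = j := by
  induction j with
  | zero => simpa using h.kap_one
  | succ j ih => rw [pow_succ, h.add (I.pow_mem h.mem j), ih, h.one]; push_cast; ring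

/-- `κ (d τ d⁻¹) = χ d κ τ`  (`coc` three times, `χ τ = 1`, `κ 1 = 0`). -/
theorem conj (h : IsTame Λ I χ κ τ₀) (d : Γ) {τ : Γ} (hτ : τ ∈ I) :
    κ (d * τ * d⁻¹) = (χ d : ZMod p) * κ τ := by
  have h1 := h.coc d d⁻¹
  rw [mul_inv_cancel, h.kap_one] at h1
  rw [h.coc (d * τ) d⁻¹, h.coc d τ, map_mul, h.chi τ hτ, mul_one]
  linear_combination -h1

/-- every `τ ∈ I` is `τ₀ ^ j * τ'` with `j = (κ τ).val`, `τ' ∈ I`, `κ τ' = 0`. -/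
theorem exists_eq_pow_mul (h : IsTame Λ I χ κ τ₀) {τ : Γ} (hτ : τ ∈ I) :
    ∃ τ' ∈ I, κ τ' = 0 ∧ τ = τ₀ ^ (κ τ).val * τ' := by
  have hpow : τ₀ ^ (κ τ).val ∈ I := I.pow_mem h.mem _
  have heq : τ = τ₀ ^ (κ τ).val * ((τ₀ ^ (κ τ).val)⁻¹ * τ) := by
    rw [mul_inv_cancel_left]
  refine ⟨(τ₀ ^ (κ τ).val)⁻¹ * τ, I.mul_mem (I.inv_mem hpow) hτ, ?_, heq⟩
  have h1 := h.add (τ := (τ₀ ^ (κ τ).val)⁻¹ * τ) hpow
  rw [← heq, h.kap_pow, ZMod.natCast_zmod_val] at h1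
  exact left_eq_add.mp h1

/-- vector valued version of `univ`: compose with the linear forms of `B`
(`Module.forall_dual_apply_eq_zero_iff (ZMod p)`). -/
theorem univ_vec (h : IsTame Λ I χ κ τ₀) {B : Type*} [AddCommGroup B] [Module (ZMod p) B]
    (c : Γ → B) (hs : Inh.LC1 Λ c) (hc : ∀ σ ∈ I, ∀ τ ∈ I, c (σ * τ) = c σ + c τ) {τ : Γ}
    (hτ : τ ∈ I) : c τ = κ τ • c τ₀ := by
  rw [← sub_eq_zero, ← Module.forall_dual_apply_eq_zero_iff (ZMod p)]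
  intro φ
  obtain ⟨U, hU, hUs⟩ := hs
  have h1 := h.univ (fun g => φ (c g)) ⟨U, hU, fun g s hs' => congrArg φ (hUs g s hs')⟩
    (fun σ hσ τ hτ => by rw [hc σ hσ τ hτ, map_add]) τ hτ
  rw [map_sub, map_smul, smul_eq_mul, sub_eq_zero]
  exact h1

/-- vector valued version of `step`. -/
theorem step_vec (h : IsTame Λ I χ κ τ₀) {B : Type*} [AddCommGroup B] [Module (ZMod p) B]
    (c : Γ → B) (hs : Inh.LC1 Λ c)
    (hc : ∀ σ ∈ I, ∀ τ ∈ I, κ σ = 0 → κ τ = 0 → c (σ * τ) = c σ + c τ) (h0 : c (τ₀ ^ p) = 0)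
    {τ : Γ} (hτ : τ ∈ I) (hκ : κ τ = 0) : c τ = 0 := by
  rw [← Module.forall_dual_apply_eq_zero_iff (ZMod p)]
  intro φ
  obtain ⟨U, hU, hUs⟩ := hs
  exact h.step (fun g => φ (c g)) ⟨U, hU, fun g s hs' => congrArg φ (hUs g s hs')⟩
    (fun σ hσ τ hτ h1 h2 => by rw [hc σ hσ τ hτ h1 h2, map_add])
    (by rw [h0, map_zero]) τ hτ hκ

end IsTame

/-- the `χ`-eigenspace `{a | d a = χ(d) a}` (`= H⁰(Γ, A(-1))`). -/
def eigOf (χ : Γ →* (ZMod p)ˣ) (ρ : Representation (ZMod p) Γ A) : Submodule (ZMod p) A where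
  carrier := {a | ∀ d, ρ d a = (χ d : ZMod p) • a}
  add_mem' := by
    intro a b ha hb d
    rw [map_add, ha d, hb d, smul_add]
  zero_mem' := fun d => by simp
  smul_mem' := by
    intro x a ha d
    rw [map_smul, ha d, smul_comm]

theorem mem_eigOf {χ : Γ →* (ZMod p)ˣ} {ρ : Representation (ZMod p) Γ A} {a : A} :
    a ∈ eigOf χ ρ ↔ ∀ d, ρ d a = (χ d : ZMod p) • a := Iff.rfl

end Fermat.Agent.S56.Lq
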