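/-
S56 block (Lq): LOCAL BOUNDS.  Bridge between the relative homogeneous model `H1 L D ρ` of `PT/Coh` and the
ordinary inhomogeneous model `Inh.H1 (L.induced D) (ρ.comp D.subtype)` for the group `↥D`.
All the abstract computations of block (Lq) are done in the inhomogeneous model of an abstract group `Γ` (`= ↥D`).
-/
import Fermat.Agent.PT.Coh.DictV

set_option autoImplicit false

namespace Fermat.Agent.S56.Lq

open Fermat.Agent.PT

variable {k G A : Type*} [CommRing k] [Group G] [AddCommGroup A] [Module k A]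
variable (L : LevelSystem G) (D : Subgroup G) (ρ : Representation k G A)

/-- the restriction of `ρ` to the group `↥D`. -/
abbrev resRep : Representation k D A := ρ.comp D.subtype

/-- `z ↦ (d ↦ z 1 d)` on cocycles. -/
def toInhZ : Z1 L D ρ →ₗ[k] Inh.Z1 (L.induced D) (resRep D ρ) where
  toFun z := ⟨fun d : D => (z : G → G → A) 1 d,
    Inh.mem_Z1.2 ⟨dictV_LC1 (inh1_smoothOn z.2.1), fun g h => inh1_cocycle z.2 g g.2 h⟩⟩
  map_add' _ _ := rfl
  map_smul' _ _ := rfl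

@[simp] theorem toInhZ_apply (z : Z1 L D ρ) (d : D) :
    (toInhZ L D ρ z : D → A) d = (z : G → G → A) 1 d := rfl

variable {L D ρ}

theorem toInhZ_surjective (hρ : IsSmoothRep L ρ) : Function.Surjective (toInhZ L D ρ) := by
  intro c
  obtain ⟨hs, hc⟩ := Inh.mem_Z1.1 c.2
  obtain ⟨f, hf, hfc⟩ := rel_surjective_Z1 (L := L) (ρ := ρ) (ι := D.subtype)
    (map_subtype_top D) (ofInh1_mem_Z1 (isSmoothRep_induced hρ D) c.2)
  refine ⟨⟨f, hf⟩, Subtype.ext (funext fun d => ?_)⟩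
  have := congrFun (congrFun hfc 1) d
  simpa using this

theorem toInhZ_mem_B1_iff (z : Z1 L D ρ) :
    (toInhZ L D ρ z : D → A) ∈ Inh.B1 (resRep D ρ) ↔ (z : G → G → A) ∈ B1 L D ρ := by
  rw [mem_B1_iff z.2, Inh.mem_B1]
  exact ⟨fun ⟨a, h⟩ => ⟨a, fun v hv => h ⟨v, hv⟩⟩, fun ⟨a, h⟩ => ⟨a, fun v => h v v.2⟩⟩

variable (L D ρ)

/-- the map induced by `toInhZ` on `H¹`. -/
def toInhH : H1 L D ρ →ₗ[k] Inh.H1 (L.induced D) (resRep D ρ) :=
  Submodule.mapQ _ _ (toInhZ L D ρ) (fun z hz => by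
    rw [Submodule.mem_comap, Submodule.mem_comap]
    exact (toInhZ_mem_B1_iff z).2 hz)

theorem toInhH_mk (z : Z1 L D ρ) :
    toInhH L D ρ (H1.mk L D ρ z) = Inh.H1mk (L.induced D) (resRep D ρ) (toInhZ L D ρ z) := rfl

theorem toInhH_bijective (hρ : IsSmoothRep L ρ) : Function.Bijective (toInhH L D ρ) := by
  constructor
  · rw [← LinearMap.ker_eq_bot, LinearMap.ker_eq_bot']
    intro x hx
    obtain ⟨z, rfl⟩ := H1.mk_surjective L D ρ x
    rw [toInhH_mk, Inh.H1mk_eq_zero_iff, toInhZ_mem_B1_iff] at hx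
    exact (H1.mk_eq_zero_iff L D ρ z).2 hx
  · intro y
    obtain ⟨c, rfl⟩ := Inh.H1mk_surjective y
    obtain ⟨z, rfl⟩ := toInhZ_surjective hρ c
    exact ⟨H1.mk L D ρ z, rfl⟩

/-- **The bridge.** -/
noncomputable def inhEquiv (hρ : IsSmoothRep L ρ) :
    H1 L D ρ ≃ₗ[k] Inh.H1 (L.induced D) (resRep D ρ) :=
  LinearEquiv.ofBijective (toInhH L D ρ) (toInhH_bijective L D ρ hρ)

theorem inhEquiv_mk (hρ : IsSmoothRep L ρ) (z : Z1 L D ρ) :
    inhEquiv L D ρ hρ (H1.mk L D ρ z) =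
      Inh.H1mk (L.induced D) (resRep D ρ) (toInhZ L D ρ z) := rfl

end Fermat.Agent.S56.Lq
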