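/-
S56 block (Lq): GLUE between the abstract inhomogeneous model (`AbsUr`, `AbsTame`, `AbsL1`) and the shapes of `S56/GW/Local.lean`
(`D = ⊤ ⊓ Dl v`, `GW.Lur ρ v = ker (resIne ρ v)`, `invOf (Dl v) ρ`, `GW.twInv ρ v`).
-/
import Fermat.Agent.S56.GW.Local
import Fermat.Agent.S56.Lq.Inh
import Fermat.Agent.S56.Lq.AbsTame
import Fermat.Agent.PT.LocDual.Main
import Fermat.Agent.PT.Local.Basic

set_option autoImplicit false

open ExtCitation Module

noncomputable section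

namespace Fermat.Agent.S56.Lq

open Fermat.Agent.PT
open Fermat.Agent.PT.Local (Plc)

variable {p : ℕ} [Fact p.Prime]
variable {A : Type} [AddCommGroup A] [Module (ZMod p) A]

/-- the place `primeLocalPlace v` as a `Plc`. -/
def plcV (v : Nat.Primes) : Plc := ⟨primeLocalPlace v, v, v.2, LocDual.primeLocalPlace_liesOver v⟩

/-- the decomposition group in the shape used by (GW). -/
abbrev Dv (v : Nat.Primes) : Subgroup GQ := ⊤ ⊓ Dl v

theorem Dv_eq (v : Nat.Primes) : Dv v = (plcV v).dec := top_inf_eq _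

/-- the inertia subgroup of the group `↥(Dv v)`. -/
abbrev Iv (v : Nat.Primes) : Subgroup (Dv v) := (plcV v).ine.subgroupOf (Dv v)

/-- the cyclotomic character of the group `↥(Dv v)`. -/
abbrev chiv (p : ℕ) [Fact p.Prime] (v : Nat.Primes) : Dv v →* (ZMod p)ˣ :=
  (cycloChar p).comp (Dv v).subtype

variable (ρ : Representation (ZMod p) GQ A) (v : Nat.Primes)

/-- explicit form on cocycles. -/
theorem mk_mem_Lur_iff (z : Z1 Lall (Dv v) ρ) :
    H1.mk Lall (Dv v) ρ z ∈ GW.Lur ρ v ↔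
      ∃ a : A, ∀ τ ∈ (plcV v).ine, (z : GQ → GQ → A) 1 τ = ρ τ a - a :=
  GW.mk_mem_Lur_iff ρ v z

/-- (`x = H1.mk z`; `resIne` is the identity on cocycles, `H1.mk_eq_zero_iff`, `PT.mem_B1_iff`, `mk_mem_LurI_iff`, `toInhH_mk`.) -/
theorem mem_Lur_iff (x : H1 Lall (Dv v) ρ) :
    x ∈ GW.Lur ρ v ↔ toInhH Lall (Dv v) ρ x ∈ LurI (Lall.induced (Dv v)) (Iv v) (resRep (Dv v) ρ) := by
  obtain ⟨z, rfl⟩ := H1.mk_surjective Lall (Dv v) ρ x
  rw [mk_mem_Lur_iff, toInhH_mk, mk_mem_LurI_iff]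
  have hle : (plcV v).ine ≤ Dv v := fun τ hτ =>
    ⟨Subgroup.mem_top _, Ine_le_Dec (primeLocalPlace v) hτ⟩
  constructor
  · rintro ⟨a, h⟩
    exact ⟨a, fun τ hτ => h τ hτ⟩
  · rintro ⟨a, h⟩
    exact ⟨a, fun τ hτ => h ⟨τ, hle hτ⟩ hτ⟩

theorem invOf_top_resRep : invOf (⊤ : Subgroup (Dv v)) (resRep (Dv v) ρ) = invOf (Dl v) ρ := by
  ext a
  rw [mem_invOf, mem_invOf]
  constructor
  · intro h d hd
    exact h ⟨d, ⟨Subgroup.mem_top _, hd⟩⟩ (Subgroup.mem_top _)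
  · intro h d _
    exact h d d.2.2

theorem eigOf_resRep : eigOf (chiv p v) (resRep (Dv v) ρ) = GW.twInv ρ v := by
  ext a
  rw [mem_eigOf, GW.mem_twInv]
  constructor
  · intro h d hd
    exact h ⟨d, ⟨Subgroup.mem_top _, hd⟩⟩
  · intro h d
    exact h d d.2.2

theorem Lur_eq_comap (hρ : IsSmoothRep Lall ρ) :
    GW.Lur ρ v = (LurI (Lall.induced (Dv v)) (Iv v) (resRep (Dv v) ρ)).comap
      (inhEquiv Lall (Dv v) ρ hρ : H1 Lall (Dv v) ρ →ₗ[ZMod p] _) := by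
  ext x
  rw [mem_Lur_iff]
  rfl

/-- transport of the dimension of `Lur` (`inhEquiv`, `mem_Lur_iff`: `GW.Lur ρ v = LurI.comap (inhEquiv ..)`,
`LinearEquiv.submoduleMap`/`LinearEquiv.ofSubmodule'`, `LinearEquiv.finrank_eq`, `Module.Finite.equiv`). -/
theorem finrank_Lur_eq_LurI (hρ : IsSmoothRep Lall ρ) :
    (Module.Finite (ZMod p) (LurI (Lall.induced (Dv v)) (Iv v) (resRep (Dv v) ρ)) →
      Module.Finite (ZMod p) (GW.Lur ρ v)) ∧
    finrank (ZMod p) (GW.Lur ρ v) =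
      finrank (ZMod p) (LurI (Lall.induced (Dv v)) (Iv v) (resRep (Dv v) ρ)) := by
  rw [Lur_eq_comap ρ v hρ]
  let e := LinearEquiv.ofSubmodule' (inhEquiv Lall (Dv v) ρ hρ)
    (LurI (Lall.induced (Dv v)) (Iv v) (resRep (Dv v) ρ))
  exact ⟨fun _ => Module.Finite.equiv e.symm, e.finrank_eq⟩

/-- transport of the dimension of `H¹ / Lur` (`Submodule.Quotient.equiv` along `inhEquiv`). -/
theorem finrank_quot_Lur_eq (hρ : IsSmoothRep Lall ρ) :
    (Module.Finite (ZMod p) (Inh.H1 (Lall.induced (Dv v)) (resRep (Dv v) ρ) ⧸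
        LurI (Lall.induced (Dv v)) (Iv v) (resRep (Dv v) ρ)) →
      Module.Finite (ZMod p) (H1 Lall (Dv v) ρ ⧸ GW.Lur ρ v)) ∧
    finrank (ZMod p) (H1 Lall (Dv v) ρ ⧸ GW.Lur ρ v) =
      finrank (ZMod p) (Inh.H1 (Lall.induced (Dv v)) (resRep (Dv v) ρ) ⧸
        LurI (Lall.induced (Dv v)) (Iv v) (resRep (Dv v) ρ)) := by
  have hmap : (GW.Lur ρ v).map (inhEquiv Lall (Dv v) ρ hρ : H1 Lall (Dv v) ρ →ₗ[ZMod p] _) =
      LurI (Lall.induced (Dv v)) (Iv v) (resRep (Dv v) ρ) := by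
    rw [Lur_eq_comap ρ v hρ]
    exact Submodule.map_comap_eq_of_surjective (inhEquiv Lall (Dv v) ρ hρ).surjective _
  let e := Submodule.Quotient.equiv (GW.Lur ρ v)
    (LurI (Lall.induced (Dv v)) (Iv v) (resRep (Dv v) ρ)) (inhEquiv Lall (Dv v) ρ hρ) hmap
  exact ⟨fun _ => Module.Finite.equiv e.symm, e.finrank_eq⟩

end Fermat.Agent.S56.Lq
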