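/-
S56 block (Lq), ABSTRACT PART 1: unramified classes.
`Γ` = a group with a level system `Λ` (think: a decomposition group `D_v`), `I ⊴ Γ` (inertia), `φ ∈ Γ` (Frobenius),
`Γ / I ≅ \hat ℤ` topologically generated by `φ` (`IsFrobGen`).  `ρ` a finite smooth `𝔽_p[Γ]`-module.
`LurI Λ I ρ ⊆ H¹(Γ, A)` = classes which die in `H¹(I, A)`;  **`dim LurI = dim H⁰(Γ, A)`**.
Inhomogeneous cocycles: `c (g * h) = ρ g (c h) + c g` (`Inh.mem_Z1`).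
-/
import Fermat.Agent.PT.Coh.Inh
import Fermat.Agent.PT.Coh.Dict

set_option autoImplicit false

namespace Fermat.Agent.S56.Lq

open Fermat.Agent.PT

variable {p : ℕ} [Fact p.Prime] {Γ A : Type*} [Group Γ] [AddCommGroup A] [Module (ZMod p) A]

/-- `Γ` is topologically generated by the normal subgroup `I` and `φ`, and `Γ / I ≅ \hat ℤ`. -/
structure IsFrobGen (Λ : LevelSystem Γ) (I : Subgroup Γ) (φ : Γ) : Prop where
  normal : I.Normal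
  /-- modulo any level every element is `φ ^ j * τ`, `τ ∈ I` -/
  gen : ∀ U ∈ Λ, ∀ d : Γ, ∃ j : ℕ, ∃ τ ∈ I, ∃ u ∈ U, d = φ ^ j * τ * u
  /-- the unramified character of order `m` -/
  cyc : ∀ m : ℕ, 0 < m → ∃ t : Γ → ZMod m, Inh.LC1 Λ t ∧ (∀ d e, t (d * e) = t d + t e) ∧
    (∀ τ ∈ I, t τ = 0) ∧ t φ = 1

variable (Λ : LevelSystem Γ) (I : Subgroup Γ) (ρ : Representation (ZMod p) Γ A)

/-- cocycles whose restriction to `I` is a coboundary. -/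
def ZurI : Submodule (ZMod p) (Inh.Z1 Λ ρ) where
  carrier := {c | ∃ a : A, ∀ τ ∈ I, (c : Γ → A) τ = ρ τ a - a}
  add_mem' := by
    rintro c c' ⟨a, ha⟩ ⟨a', ha'⟩
    refine ⟨a + a', fun τ hτ => ?_⟩
    show (c : Γ → A) τ + (c' : Γ → A) τ = _
    rw [ha τ hτ, ha' τ hτ, map_add]
    abel
  zero_mem' := ⟨0, fun τ _ => by simp⟩
  smul_mem' := by
    rintro x c ⟨a, ha⟩
    refine ⟨x • a, fun τ hτ => ?_⟩
    show x • (c : Γ → A) τ = _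
    rw [ha τ hτ, map_smul, smul_sub]

/-- cocycles vanishing on `I`. -/
def ZnrI : Submodule (ZMod p) (Inh.Z1 Λ ρ) where
  carrier := {c | ∀ τ ∈ I, (c : Γ → A) τ = 0}
  add_mem' := by
    intro c c' h h' τ hτ
    show (c : Γ → A) τ + (c' : Γ → A) τ = 0
    rw [h τ hτ, h' τ hτ, add_zero]
  zero_mem' := fun _ _ => rfl
  smul_mem' := by
    intro x c h τ hτ
    show x • (c : Γ → A) τ = 0
    rw [h τ hτ, smul_zero]

/-- **the unramified classes**: the kernel of `H¹(Γ, A) → H¹(I, A)`. -/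
def LurI : Submodule (ZMod p) (Inh.H1 Λ ρ) := (ZurI Λ I ρ).map (Inh.H1mk Λ ρ)

variable {Λ I ρ}

theorem mem_ZurI {c : Inh.Z1 Λ ρ} :
    c ∈ ZurI Λ I ρ ↔ ∃ a : A, ∀ τ ∈ I, (c : Γ → A) τ = ρ τ a - a := Iff.rfl

theorem mem_ZnrI {c : Inh.Z1 Λ ρ} : c ∈ ZnrI Λ I ρ ↔ ∀ τ ∈ I, (c : Γ → A) τ = 0 := Iff.rfl

/-- (easy: if `c - c' ∈ B1` and `c' ∈ ZurI` then `c ∈ ZurI`.) -/
theorem mk_mem_LurI_iff (c : Inh.Z1 Λ ρ) :
    Inh.H1mk Λ ρ c ∈ LurI Λ I ρ ↔ ∃ a : A, ∀ τ ∈ I, (c : Γ → A) τ = ρ τ a - a := by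
  constructor
  · rintro ⟨c', ⟨a, ha⟩, hc'⟩
    have h1 : Inh.H1mk Λ ρ (c - c') = 0 := by rw [map_sub, hc', sub_self]
    rw [Inh.H1mk_eq_zero_iff, Inh.mem_B1] at h1
    obtain ⟨b, hb⟩ := h1
    refine ⟨a + b, fun τ hτ => ?_⟩
    have h2 : (c : Γ → A) τ - (c' : Γ → A) τ = ρ τ b - b := hb τ
    rw [ha τ hτ] at h2
    rw [map_add, sub_eq_iff_eq_add.1 h2]
    abel
  · intro h
    exact Submodule.mem_map_of_mem h

/-! ### leaf U-a : cocycles vanishing on `I` -/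

/-- `τ d = d τ'` with `τ' = d⁻¹ τ d ∈ I`: `ρ τ (c d) + c τ = c (τ d) = c (d τ') = ρ d (c τ') + c d`. -/
theorem ZnrI_apply_mem (hn : I.Normal) {c : Inh.Z1 Λ ρ} (hc : c ∈ ZnrI Λ I ρ) (d : Γ) :
    (c : Γ → A) d ∈ invOf I ρ := by
  intro τ hτ
  have hZ := (Inh.mem_Z1.1 c.2).2
  have h1 := hZ τ d
  have h2 := hZ d (d⁻¹ * τ * d)
  have h3 : d⁻¹ * τ * d ∈ I := by
    have := hn.conj_mem τ hτ d⁻¹
    rwa [inv_inv] at this
  rw [hc τ hτ, add_zero] at h1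
  rw [hc _ h3, map_zero, zero_add] at h2
  have h4 : d * (d⁻¹ * τ * d) = τ * d := by group
  rw [h4] at h2
  rw [← h1, h2]

/-- `c (φ ^ j) = 0` by induction, `c (φ ^ j * τ * u) = c (φ ^ j)` for `τ ∈ I` and `u` in a level of `c`. -/
theorem ZnrI_eq_zero {φ : Γ} (h : IsFrobGen Λ I φ) {c : Inh.Z1 Λ ρ} (hc : c ∈ ZnrI Λ I ρ)
    (hφ : (c : Γ → A) φ = 0) : c = 0 := by
  obtain ⟨⟨U, hU, hLC⟩, hZ⟩ := Inh.mem_Z1.1 c.2
  have h1 : (c : Γ → A) 1 = 0 := by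
    have := hZ 1 1
    rw [mul_one, map_one, Module.End.one_apply] at this
    exact left_eq_add.1 this
  have hpow : ∀ j : ℕ, (c : Γ → A) (φ ^ j) = 0 := by
    intro j
    induction j with
    | zero => rw [pow_zero, h1]
    | succ j ih => rw [pow_succ, hZ, hφ, map_zero, ih, add_zero]
  apply Subtype.ext
  funext d
  obtain ⟨j, τ, hτ, u, hu, rfl⟩ := h.gen U hU d
  rw [hLC _ u hu, hZ, hc τ hτ, map_zero, hpow, add_zero]
  rfl

/-- `A^Γ = (A^I)^φ` (`gen` for a level fixing `a`). -/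
theorem mem_invOf_top_iff {φ : Γ} (h : IsFrobGen Λ I φ) (hρ : IsSmoothRep Λ ρ) (a : A) :
    a ∈ invOf ⊤ ρ ↔ a ∈ invOf I ρ ∧ ρ φ a = a := by
  constructor
  · intro ha
    exact ⟨fun τ _ => ha τ trivial, ha φ trivial⟩
  · rintro ⟨hI, hφ⟩ d -
    obtain ⟨U, hU, hUa⟩ := hρ a
    have hpow : ∀ j : ℕ, ρ (φ ^ j) a = a := by
      intro j
      induction j with
      | zero => rw [pow_zero, map_one, Module.End.one_apply]
      | succ j ih => rw [pow_succ, map_mul, Module.End.mul_apply, hφ, ih]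
    obtain ⟨j, τ, hτ, u, hu, rfl⟩ := h.gen U hU d
    rw [map_mul, map_mul, Module.End.mul_apply, Module.End.mul_apply, hUa u hu, hI τ hτ, hpow]

/-- every class of `LurI` is represented by a cocycle vanishing on `I` (subtract `d01 ρ a`). -/
theorem exists_ZnrI_of_mem_LurI (hρ : IsSmoothRep Λ ρ) {x : Inh.H1 Λ ρ} (hx : x ∈ LurI Λ I ρ) :
    ∃ c ∈ ZnrI Λ I ρ, Inh.H1mk Λ ρ c = x := by
  obtain ⟨c, ⟨a, ha⟩, rfl⟩ := hx
  have hd : Inh.d01 ρ a ∈ Inh.Z1 Λ ρ := by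
    rw [Inh.mem_Z1]
    obtain ⟨U, hU, hUa⟩ := hρ a
    refine ⟨⟨U, hU, fun g s hs => ?_⟩, fun g h => ?_⟩
    · rw [Inh.d01_apply, Inh.d01_apply, map_mul, Module.End.mul_apply, hUa s hs]
    · rw [Inh.d01_apply, Inh.d01_apply, Inh.d01_apply, map_mul, Module.End.mul_apply, map_sub]
      abel
  refine ⟨c - ⟨Inh.d01 ρ a, hd⟩, fun τ hτ => ?_, ?_⟩
  · show (c : Γ → A) τ - Inh.d01 ρ a τ = 0
    rw [ha τ hτ, Inh.d01_apply, sub_self]
  · have h0 : Inh.H1mk Λ ρ ⟨Inh.d01 ρ a, hd⟩ = 0 := by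
      rw [Inh.H1mk_eq_zero_iff, Inh.mem_B1]
      exact ⟨a, fun g => rfl⟩
    rw [map_sub, h0, sub_zero]

end Fermat.Agent.S56.Lq
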