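/-
S56 block (Lq), ABSTRACT PART 3 (leaf L3-abs): classes represented by cocycles with values in a submodule `A₀` on which
`Γ` acts through a character `θ` (think: `Γ = D_p`, `A = ad⁰`, `A₀ = Hom(V/L, L) ≅ k(1)`, `A₁` = upper triangular matrices).
-/
import Fermat.Agent.S56.Lq.AbsUr

set_option autoImplicit false

namespace Fermat.Agent.S56.Lq

open Fermat.Agent.PT

variable {p : ℕ} [Fact p.Prime] {Γ A : Type*} [Group Γ] [AddCommGroup A] [Module (ZMod p) A]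
variable (Λ : LevelSystem Γ) (ρ : Representation (ZMod p) Γ A)

/-- cocycles with values in `A₀`. -/
def ZvalI (A₀ : Submodule (ZMod p) A) : Submodule (ZMod p) (Inh.Z1 Λ ρ) where
  carrier := {c | ∀ d, (c : Γ → A) d ∈ A₀}
  add_mem' := fun h h' d => A₀.add_mem (h d) (h' d)
  zero_mem' := fun _ => A₀.zero_mem
  smul_mem' := fun x _ h d => A₀.smul_mem x (h d)

/-- classes represented by a cocycle with values in `A₀`. -/
def LvalI (A₀ : Submodule (ZMod p) A) : Submodule (ZMod p) (Inh.H1 Λ ρ) :=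
  (ZvalI Λ ρ A₀).map (Inh.H1mk Λ ρ)

variable {Λ ρ}

/-- `B¹(θ)` is the image of `𝔽_p`. -/
theorem finrank_Z1_le (θ : Representation (ZMod p) Γ (ZMod p))
    [Module.Finite (ZMod p) (Inh.H1 Λ θ)] :
    Module.Finite (ZMod p) (Inh.Z1 Λ θ) ∧
      Module.finrank (ZMod p) (Inh.Z1 Λ θ) ≤ Module.finrank (ZMod p) (Inh.H1 Λ θ) + 1 := by
  have hB : Module.Finite (ZMod p) (Inh.B1 θ) := Module.Finite.range (Inh.d01 θ)
  have hB1 : Module.finrank (ZMod p) (Inh.B1 θ) ≤ 1 := by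
    have h := LinearMap.finrank_range_le (Inh.d01 θ)
    rwa [Module.finrank_self] at h
  let f : ((Inh.B1 θ).comap (Inh.Z1 Λ θ).subtype) →ₗ[ZMod p] Inh.B1 θ :=
    ((Inh.Z1 Λ θ).subtype.comp ((Inh.B1 θ).comap (Inh.Z1 Λ θ).subtype).subtype).codRestrict
      (Inh.B1 θ) (fun c => c.2)
  have hf : Function.Injective f := by
    intro c c' h
    apply Subtype.ext
    apply Subtype.ext
    exact congrArg (fun x : Inh.B1 θ => (x : Γ → ZMod p)) h
  have hNfin : Module.Finite (ZMod p) ((Inh.B1 θ).comap (Inh.Z1 Λ θ).subtype) :=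
    Module.Finite.of_injective f hf
  have hN1 : Module.finrank (ZMod p) ((Inh.B1 θ).comap (Inh.Z1 Λ θ).subtype) ≤ 1 :=
    (LinearMap.finrank_le_finrank_of_injective hf).trans hB1
  have hZ : Module.Finite (ZMod p) (Inh.Z1 Λ θ) :=
    Module.Finite.of_submodule_quotient ((Inh.B1 θ).comap (Inh.Z1 Λ θ).subtype)
  refine ⟨hZ, ?_⟩
  have h : Module.finrank (ZMod p) (Inh.H1 Λ θ) +
      Module.finrank (ZMod p) ((Inh.B1 θ).comap (Inh.Z1 Λ θ).subtype) =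
        Module.finrank (ZMod p) (Inh.Z1 Λ θ) :=
    Submodule.finrank_quotient_add_finrank ((Inh.B1 θ).comap (Inh.Z1 Λ θ).subtype)
  omega

/-- a linear form on `A₀` turns cocycles with values in `A₀` into cocycles for `θ`. -/
def AbsVal_coord (θ : Representation (ZMod p) Γ (ZMod p)) (A₀ : Submodule (ZMod p) A)
    (h0 : ∀ d, ∀ a ∈ A₀, ρ d a = θ d 1 • a) (lam : A₀ →ₗ[ZMod p] ZMod p) :
    ZvalI Λ ρ A₀ →ₗ[ZMod p] Inh.Z1 Λ θ where
  toFun c := ⟨fun d => lam ⟨(c.1 : Γ → A) d, c.2 d⟩, by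
    obtain ⟨⟨U, hU, hLC⟩, hZ⟩ := Inh.mem_Z1.1 c.1.2
    refine Inh.mem_Z1.2 ⟨⟨U, hU, fun g s hs => ?_⟩, fun g h => ?_⟩
    · exact congrArg lam (Subtype.ext (hLC g s hs))
    · have e : (⟨(c.1 : Γ → A) (g * h), c.2 (g * h)⟩ : A₀) =
          θ g 1 • (⟨(c.1 : Γ → A) h, c.2 h⟩ : A₀) + ⟨(c.1 : Γ → A) g, c.2 g⟩ := by
        apply Subtype.ext
        show (c.1 : Γ → A) (g * h) = θ g 1 • (c.1 : Γ → A) h + (c.1 : Γ → A) g
        rw [hZ g h, h0 g _ (c.2 h)]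
      rw [e, map_add, map_smul]
      congr 1
      have e2 : θ g (lam ⟨(c.1 : Γ → A) h, c.2 h⟩) =
          θ g (lam ⟨(c.1 : Γ → A) h, c.2 h⟩ • (1 : ZMod p)) := by
        rw [smul_eq_mul, mul_one]
      rw [e2, map_smul, smul_eq_mul, smul_eq_mul, mul_comm]⟩
  map_add' c c' := by
    apply Subtype.ext
    funext d
    exact map_add lam ⟨(c.1 : Γ → A) d, c.2 d⟩ ⟨(c'.1 : Γ → A) d, c'.2 d⟩
  map_smul' x c := by
    apply Subtype.ext
    funext d
    exact map_smul lam x ⟨(c.1 : Γ → A) d, c.2 d⟩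

theorem AbsVal_coord_apply (θ : Representation (ZMod p) Γ (ZMod p)) (A₀ : Submodule (ZMod p) A)
    (h0 : ∀ d, ∀ a ∈ A₀, ρ d a = θ d 1 • a) (lam : A₀ →ₗ[ZMod p] ZMod p) (c : ZvalI Λ ρ A₀)
    (d : Γ) : (AbsVal_coord θ A₀ h0 lam c : Γ → ZMod p) d = lam ⟨(c.1 : Γ → A) d, c.2 d⟩ := rfl

theorem AbsVal_finrank_ZvalI_le [Module.Finite (ZMod p) A]
    (θ : Representation (ZMod p) Γ (ZMod p)) (A₀ : Submodule (ZMod p) A)
    (h0 : ∀ d, ∀ a ∈ A₀, ρ d a = θ d 1 • a) [Module.Finite (ZMod p) (Inh.Z1 Λ θ)] :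
    Module.Finite (ZMod p) (ZvalI Λ ρ A₀) ∧
      Module.finrank (ZMod p) (ZvalI Λ ρ A₀) ≤
        Module.finrank (ZMod p) (Inh.Z1 Λ θ) * Module.finrank (ZMod p) A₀ := by
  let b := Module.finBasis (ZMod p) A₀
  let Φ : ZvalI Λ ρ A₀ →ₗ[ZMod p] (Fin (Module.finrank (ZMod p) A₀) → Inh.Z1 Λ θ) :=
    LinearMap.pi fun i => AbsVal_coord θ A₀ h0 (b.coord i)
  have hΦ : Function.Injective Φ := by
    rw [injective_iff_map_eq_zero]
    intro c hc
    apply Subtype.ext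
    apply Subtype.ext
    funext d
    have h2 : (⟨(c.1 : Γ → A) d, c.2 d⟩ : A₀) = 0 := by
      apply b.ext_elem
      intro i
      have h3 : (AbsVal_coord θ A₀ h0 (b.coord i) c : Γ → ZMod p) d = 0 := by
        have h4 : AbsVal_coord θ A₀ h0 (b.coord i) c = 0 := congrFun hc i
        rw [h4]
        rfl
      rw [AbsVal_coord_apply, Module.Basis.coord_apply] at h3
      rw [h3, map_zero, Finsupp.zero_apply]
    exact congrArg Subtype.val h2
  refine ⟨Module.Finite.of_injective Φ hΦ, ?_⟩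
  have h := LinearMap.finrank_le_finrank_of_injective hΦ
  rw [Module.finrank_pi_fintype, Finset.sum_const, Finset.card_univ, Fintype.card_fin,
    smul_eq_mul, mul_comm] at h
  exact h

/-- the coboundaries of the elements of `A₁`. -/
def AbsVal_delta (hρ : IsSmoothRep Λ ρ) (A₀ A₁ : Submodule (ZMod p) A)
    (h1 : ∀ d, ∀ a ∈ A₁, ρ d a - a ∈ A₀) : A₁ →ₗ[ZMod p] ZvalI Λ ρ A₀ where
  toFun a := ⟨⟨Inh.d01 ρ a, by
    obtain ⟨U, hU, hfix⟩ := hρ (a : A)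
    refine Inh.mem_Z1.2 ⟨⟨U, hU, fun g s hs => ?_⟩, fun g h => ?_⟩
    · rw [Inh.d01_apply, Inh.d01_apply, map_mul, Module.End.mul_apply, hfix s hs]
    · rw [Inh.d01_apply, Inh.d01_apply, Inh.d01_apply, map_mul, Module.End.mul_apply, map_sub]
      abel⟩, fun d => h1 d a a.2⟩
  map_add' a a' := by
    apply Subtype.ext
    apply Subtype.ext
    exact map_add (Inh.d01 ρ) (a : A) (a' : A)
  map_smul' x a := by
    apply Subtype.ext
    apply Subtype.ext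
    exact map_smul (Inh.d01 ρ) x (a : A)

theorem AbsVal_delta_apply (hρ : IsSmoothRep Λ ρ) (A₀ A₁ : Submodule (ZMod p) A)
    (h1 : ∀ d, ∀ a ∈ A₁, ρ d a - a ∈ A₀) (a : A₁) (d : Γ) :
    ((AbsVal_delta hρ A₀ A₁ h1 a).1 : Γ → A) d = ρ d a - a := rfl

/-- **(L3-abs)**  `dim LvalI = dim ZvalI - dim (ZvalI ∩ B¹(ρ))`.
* `dim ZvalI ≤ dim A₀ * dim Z¹(θ)`: coordinates with respect to a basis `b` of `A₀`: `c ↦ (i ↦ (d ↦ b.repr ⟨c d, _⟩ i))` is an
  injective linear map `ZvalI → (ι → Z¹(θ))` (`h0` turns the cocycle relation for `ρ` into the one for `θ`).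
* `ZvalI ∩ B¹(ρ) ⊇ d01 ρ (A₁)` (`h1`), of dimension `dim A₁ - dim (A₁ ∩ A^Γ) ≥ dim A₁ - dim A^Γ`.
(`hρ`: the coboundaries must be level constant; the statement is false without it.) -/
theorem finrank_LvalI_le [Module.Finite (ZMod p) A] (θ : Representation (ZMod p) Γ (ZMod p))
    (A₀ A₁ : Submodule (ZMod p) A) (hρ : IsSmoothRep Λ ρ)
    (h0 : ∀ d, ∀ a ∈ A₀, ρ d a = θ d 1 • a)
    (h1 : ∀ d, ∀ a ∈ A₁, ρ d a - a ∈ A₀) [Module.Finite (ZMod p) (Inh.Z1 Λ θ)] :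
    Module.Finite (ZMod p) (LvalI Λ ρ A₀) ∧
      Module.finrank (ZMod p) (LvalI Λ ρ A₀) + Module.finrank (ZMod p) A₁ ≤
        Module.finrank (ZMod p) (Inh.Z1 Λ θ) * Module.finrank (ZMod p) A₀ +
          Module.finrank (ZMod p) (invOf (⊤ : Subgroup Γ) ρ) := by
  obtain ⟨hZfin, hZle⟩ := AbsVal_finrank_ZvalI_le (Λ := Λ) (ρ := ρ) θ A₀ h0
  have hLfin : Module.Finite (ZMod p) (LvalI Λ ρ A₀) := Module.Finite.map _ _
  refine ⟨hLfin, ?_⟩
  set g : ZvalI Λ ρ A₀ →ₗ[ZMod p] Inh.H1 Λ ρ := (Inh.H1mk Λ ρ).domRestrict (ZvalI Λ ρ A₀) with hg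
  set δ : A₁ →ₗ[ZMod p] ZvalI Λ ρ A₀ := AbsVal_delta hρ A₀ A₁ h1 with hδ
  have hrange : LinearMap.range g = LvalI Λ ρ A₀ := LinearMap.range_domRestrict _ _
  have e1 := LinearMap.finrank_range_add_finrank_ker g
  have e2 := LinearMap.finrank_range_add_finrank_ker δ
  rw [hrange] at e1
  have hle : LinearMap.range δ ≤ LinearMap.ker g := by
    rintro _ ⟨a, rfl⟩
    rw [LinearMap.mem_ker]
    show Inh.H1mk Λ ρ (δ a).1 = 0
    rw [Inh.H1mk_eq_zero_iff, Inh.mem_B1]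
    exact ⟨a, fun d => rfl⟩
  have e3 : Module.finrank (ZMod p) (LinearMap.range δ) ≤
      Module.finrank (ZMod p) (LinearMap.ker g) := Submodule.finrank_mono hle
  let j : LinearMap.ker δ →ₗ[ZMod p] invOf (⊤ : Subgroup Γ) ρ :=
    (A₁.subtype.comp (LinearMap.ker δ).subtype).codRestrict _ (by
      intro a d _
      have h2 : δ a.1 = 0 := a.2
      have h3 : ((δ a.1).1 : Γ → A) d = 0 := by
        rw [h2]
        rfl
      have h4 : ((δ a.1).1 : Γ → A) d = ρ d (a.1 : A) - (a.1 : A) :=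
        AbsVal_delta_apply hρ A₀ A₁ h1 a.1 d
      rw [h4] at h3
      exact sub_eq_zero.mp h3)
  have hj : Function.Injective j := by
    intro a a' h
    apply Subtype.ext
    apply Subtype.ext
    exact congrArg (fun x : invOf (⊤ : Subgroup Γ) ρ => (x : A)) h
  have e4 := LinearMap.finrank_le_finrank_of_injective hj
  omega

end Fermat.Agent.S56.Lq
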