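/-
S56 block (Lq), arithmetic part at `p`, leaf P-units: `ℚ_p^h × / p` is generated by `p` and `1 + p` (`p` odd).
`lf P ⊥` = henselisation of `ℚ` at `P ∣ p`.
-/
import Fermat.Agent.S36R.K0.BlockL
import Fermat.Agent.PT.Local.Dense
import Fermat.Agent.PT.Local.Hensel

set_option autoImplicit false

namespace Fermat.Agent.S56.Lq

open Fermat.Agent.PT.Local
open Fermat.Agent.S36R.K0L (isUnif_ell li_bot lg_bot)

theorem CycP1_one_add_pow (p : ℤ) (j : ℕ) : p ^ 2 ∣ (1 + p) ^ j - (1 + j * p) := by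
  induction j with
  | zero => simp
  | succ j ih =>
    obtain ⟨y, hy⟩ := ih
    refine ⟨(1 + p) * y + j, ?_⟩
    push_cast
    rw [pow_succ]
    linear_combination (1 + p) * hy

/-- pure group theory in `(ℤ/p²)ˣ` (order `p (p - 1)`): `a ^ (p - 1) ≡ 1 mod p`, so `a ^ (p - 1) = 1 + p x = (1 + p) ^ x` in `ℤ/p²`; with
`1 = p - (p - 1)`: `a = (a) ^ p * (a ^ (p - 1))⁻¹ = a ^ p * (1 + p) ^ (p - x mod p)…`.  Stated with integers. -/
theorem exists_int_decomp {p : ℕ} (hp : p.Prime) {a : ℤ} (ha : ¬ (p : ℤ) ∣ a) :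
    ∃ (j : ℕ) (t : ℤ), ¬ (p : ℤ) ∣ t ∧ ((p : ℤ) ^ 2) ∣ a - (1 + p) ^ j * t ^ p := by
  have hcop : IsCoprime a (p : ℤ) := by
    rw [isCoprime_comm]
    exact (Nat.prime_iff_prime_int.1 hp).coprime_iff_not_dvd.2 ha
  have h1 := Int.ModEq.pow_card_sub_one_eq_one hp hcop
  obtain ⟨x, hx⟩ := (Int.modEq_iff_dvd.1 h1.symm)
  -- hx : a ^ (p - 1) - 1 = p * x
  have hp0 : (0 : ℤ) < p := by exact_mod_cast hp.pos
  obtain ⟨j, hj⟩ : ∃ j : ℕ, (j : ℤ) = (-x) % p :=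
    ⟨((-x) % p).toNat, Int.toNat_of_nonneg (Int.emod_nonneg _ hp0.ne')⟩
  have hz : (j : ℤ) + x = -(p * ((-x) / p)) := by
    rw [hj, Int.emod_def]; ring
  obtain ⟨y, hy⟩ := CycP1_one_add_pow (p : ℤ) j
  refine ⟨j, a, ha, ?_⟩
  have hap : a ^ p = a * a ^ (p - 1) := by
    rw [← pow_succ', Nat.sub_add_cancel hp.pos]
  refine ⟨a * ((-x) / p - (j * x + y * (1 + p * x))), ?_⟩
  rw [hap]
  have e1 : a ^ (p - 1) = 1 + p * x := by linear_combination hx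
  have e2 : (1 + (p : ℤ)) ^ j = 1 + j * p + p ^ 2 * y := by linear_combination hy
  rw [e1, e2]
  linear_combination (-(a * p : ℤ)) * hz

theorem CycP1_v_int_lt_one (P : Plc) {a : ℤ} (h : (P.ℓ : ℤ) ∣ a) : P.v (a : Qb) < 1 := by
  obtain ⟨c, rfl⟩ := h
  push_cast
  rw [map_mul]
  calc P.v (P.ℓ : Qb) * P.v (c : Qb) ≤ P.v (P.ℓ : Qb) * 1 :=
        mul_le_mul_right (Fermat.Agent.S36R.K0L.v_int_le_one P c) _
    _ = P.v (P.ℓ : Qb) := mul_one _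
    _ < 1 := v_ell_lt_one P

/-- a unit of the henselisation is congruent mod `p²` to an integer prime to `p`
(`dense P ⊥ hu 2` gives a rational `y = m / n` with `v (u - y) ≤ v p ^ 2`; `v y = 1` forces `p ∤ m`, `p ∤ n`
(`v_natCast_eq_one`, `S36R.K0L.v_intCast_eq_one`); choose `n'` with `n n' ≡ 1 mod p²`, `a = m n'`). -/
theorem exists_int_close (P : Plc) {u : Qb} (hu : u ∈ lf P ⊥) (hu1 : P.v u = 1) :
    ∃ a : ℤ, ¬ (P.ℓ : ℤ) ∣ a ∧ P.v (u - (a : Qb)) ≤ P.v (P.ℓ : Qb) ^ 2 := by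
  obtain ⟨y, hy, hyu⟩ := dense P ⊥ hu 2
  obtain ⟨r, rfl⟩ := IntermediateField.mem_bot.1 hy
  have hlt : P.v (P.ℓ : Qb) ^ 2 < 1 := pow_lt_one₀ zero_le (v_ell_lt_one P) two_ne_zero
  have hvy : P.v (algebraMap ℚ Qb r) = 1 := by
    have e : algebraMap ℚ Qb r = u - (u - algebraMap ℚ Qb r) := by ring
    rw [e, Valuation.map_sub_eq_of_lt_left _ (by rw [hu1]; exact lt_of_le_of_lt hyu hlt), hu1]
  have hr : algebraMap ℚ Qb r = (r.num : Qb) / (r.den : Qb) := by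
    conv_lhs => rw [← Rat.num_div_den r]
    simp
  have hden0 : (r.den : Qb) ≠ 0 := by exact_mod_cast r.den_ne_zero
  have hden : ¬ (P.ℓ : ℤ) ∣ (r.den : ℤ) := by
    intro hd
    have hnum : ¬ (P.ℓ : ℤ) ∣ r.num := by
      intro hn
      have h2 : P.ℓ ∣ Nat.gcd r.num.natAbs r.den :=
        Nat.dvd_gcd (Int.natCast_dvd.1 hn) (Int.natCast_dvd_natCast.1 hd)
      rw [r.reduced] at h2
      exact P.prime.one_lt.ne' (Nat.dvd_one.1 h2)
    have h1 := CycP1_v_int_lt_one P hd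
    rw [hr, map_div₀, Fermat.Agent.S36R.K0L.v_intCast_eq_one P hnum,
      div_eq_one_iff_eq (by rw [Valuation.ne_zero_iff]; exact hden0)] at hvy
    rw [Int.cast_natCast, ← hvy] at h1
    exact lt_irrefl _ h1
  have hvden : P.v (r.den : Qb) = 1 := by
    have := Fermat.Agent.S36R.K0L.v_intCast_eq_one P hden
    rwa [Int.cast_natCast] at this
  have hnum : ¬ (P.ℓ : ℤ) ∣ r.num := by
    intro hn
    have h1 := CycP1_v_int_lt_one P hn
    rw [hr, map_div₀, hvden, div_one] at hvy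
    rw [hvy] at h1
    exact lt_irrefl _ h1
  have hprime : Prime (P.ℓ : ℤ) := Nat.prime_iff_prime_int.1 P.prime
  have hcop : IsCoprime (r.den : ℤ) ((P.ℓ : ℤ) ^ 2) :=
    (isCoprime_comm.1 (hprime.coprime_iff_not_dvd.2 hden)).pow_right
  obtain ⟨n', w, hw⟩ := hcop
  refine ⟨r.num * n', ?_, ?_⟩
  · intro hd
    rcases hprime.dvd_or_dvd hd with h1 | h1
    · exact hnum h1
    · have h2 : (P.ℓ : ℤ) ∣ 1 := by
        rw [← hw]
        exact dvd_add (Dvd.dvd.mul_right h1 _) (Dvd.dvd.mul_left (dvd_pow_self _ two_ne_zero) _)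
      exact hprime.not_isUnit (isUnit_of_dvd_one h2)
  · have e : u - ((r.num * n' : ℤ) : Qb) =
        (u - algebraMap ℚ Qb r) + (r.num : Qb) * (w : Qb) * (P.ℓ : Qb) ^ 2 / (r.den : Qb) := by
      have hw' : (n' : Qb) * (r.den : Qb) + (w : Qb) * (P.ℓ : Qb) ^ 2 = 1 := by exact_mod_cast hw
      rw [hr]
      push_cast
      field_simp
      linear_combination (-(r.num : Qb)) * hw'
    rw [e]
    refine (Valuation.map_add _ _ _).trans (max_le hyu ?_)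
    rw [map_div₀, hvden, div_one, map_mul, map_mul, map_pow,
      Fermat.Agent.S36R.K0L.v_intCast_eq_one P hnum, one_mul]
    calc P.v (w : Qb) * P.v (P.ℓ : Qb) ^ 2 ≤ 1 * P.v (P.ℓ : Qb) ^ 2 :=
          mul_le_mul_left (Fermat.Agent.S36R.K0L.v_int_le_one P w) _
      _ = _ := one_mul _

/-- **(K1)**  1. `isUnif_ell`: `v b = v p ^ i`, `u = b / p ^ i` is a unit of `lf P ⊥`.  2. `exists_int_close`, `exists_int_decomp`:
`x := u / ((1 + p) ^ j t ^ p)` satisfies `v (x - 1) ≤ v p ^ 2`.  3. `v p = v (1 - ζ) ^ (p - 1)` (`v_p_eq`) and `p - 1 ≥ 2`, `v (1 - ζ) < 1`, so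
`v p ^ 2 < v (1 - ζ) ^ p`; `exists_pth_root P (E := lg P ⊥)` gives `y ∈ lf P ⊥` with `y ^ p = x`.  `c = t y`. -/
theorem exists_decomp {p : ℕ} (hpp : p.Prime) (hp2 : p ≠ 2) (P : Plc) (hℓ : P.ℓ = p) {b : Qb}
    (hb : b ∈ lf P ⊥) (hb0 : b ≠ 0) :
    ∃ (i : ℤ) (j : ℕ) (c : Qb), c ∈ lf P ⊥ ∧ c ≠ 0 ∧
      b = (p : Qb) ^ i * (1 + (p : Qb)) ^ j * c ^ p := by
  subst hℓ
  have hℓ0 : (P.ℓ : Qb) ≠ 0 := by exact_mod_cast P.prime.ne_zero
  obtain ⟨i, hi⟩ := (isUnif_ell P).2.2 b hb hb0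
  obtain ⟨u, hudef⟩ : ∃ u : Qb, u = b / (P.ℓ : Qb) ^ i := ⟨_, rfl⟩
  have hu : u ∈ lf P ⊥ := by
    rw [hudef]; exact div_mem hb (zpow_mem (natCast_mem _ _) _)
  have hu1 : P.v u = 1 := by
    rw [hudef, map_div₀, map_zpow₀, hi]
    exact div_self (zpow_ne_zero _ (v_ell_ne_zero P))
  obtain ⟨a, ha, hau⟩ := exists_int_close P hu hu1
  obtain ⟨j, t, ht, c, hc⟩ := exists_int_decomp P.prime ha
  obtain ⟨w, hwdef⟩ : ∃ w : Qb, w = (1 + (P.ℓ : Qb)) ^ j * (t : Qb) ^ P.ℓ := ⟨_, rfl⟩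
  have hv1 : P.v (1 + (P.ℓ : Qb)) = 1 := by
    rw [Valuation.map_add_eq_of_lt_left _ (by rw [map_one]; exact v_ell_lt_one P), map_one]
  have hvt : P.v (t : Qb) = 1 := Fermat.Agent.S36R.K0L.v_intCast_eq_one P ht
  have hvw : P.v w = 1 := by
    rw [hwdef, map_mul, map_pow, map_pow, hv1, hvt, one_pow, one_pow, one_mul]
  have hw0 : w ≠ 0 := by
    rw [← Valuation.ne_zero_iff P.v, hvw]; exact one_ne_zero
  have hwmem : w ∈ lf P ⊥ := by
    rw [hwdef]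
    exact mul_mem (pow_mem (add_mem (one_mem _) (natCast_mem _ _)) _) (pow_mem (intCast_mem _ _) _)
  have huw : P.v (u - w) ≤ P.v (P.ℓ : Qb) ^ 2 := by
    have e : u - w = (u - (a : Qb)) + (P.ℓ : Qb) ^ 2 * (c : Qb) := by
      have hc' : (a : Qb) - (1 + (P.ℓ : Qb)) ^ j * (t : Qb) ^ P.ℓ = (P.ℓ : Qb) ^ 2 * (c : Qb) := by
        exact_mod_cast hc
      rw [hwdef]
      linear_combination hc'
    rw [e]
    refine (Valuation.map_add _ _ _).trans (max_le hau ?_)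
    rw [map_mul, map_pow]
    calc P.v (P.ℓ : Qb) ^ 2 * P.v (c : Qb) ≤ P.v (P.ℓ : Qb) ^ 2 * 1 :=
          mul_le_mul_right (Fermat.Agent.S36R.K0L.v_int_le_one P c) _
      _ = _ := mul_one _
  have hx1 : P.v (u / w - 1) ≤ P.v (P.ℓ : Qb) ^ 2 := by
    have e : u / w - 1 = (u - w) / w := by field_simp
    rw [e, map_div₀, hvw, div_one]
    exact huw
  have : NeZero P.ℓ := ⟨P.prime.ne_zero⟩
  obtain ⟨ζ, hζ⟩ := HasEnoughRootsOfUnity.exists_primitiveRoot Qb P.ℓ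
  have hvp := v_p_eq P P.prime hζ
  have hz0 : P.v (1 - ζ) ≠ 0 := by
    rw [Valuation.ne_zero_iff, sub_ne_zero]
    exact (hζ.ne_one P.prime.one_lt).symm
  have hz1 : P.v (1 - ζ) < 1 := by
    by_contra hcon
    have h1 : 1 ≤ P.v (1 - ζ) ^ (P.ℓ - 1) := one_le_pow₀ (not_lt.1 hcon)
    rw [← hvp] at h1
    exact absurd (v_ell_lt_one P) (not_lt.2 h1)
  have hlt : P.v (P.ℓ : Qb) ^ 2 < P.v (1 - ζ) ^ P.ℓ := by
    rw [hvp, ← pow_mul]
    apply pow_lt_pow_right_of_lt_one₀ (zero_lt_iff.2 hz0) hz1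
    have := P.prime.two_le
    omega
  obtain ⟨y, hy, hyx, -⟩ := exists_pth_root P (lg_le_dec P ⊥) P.prime hζ
    (x := u / w) (div_mem hu hwmem) (lt_of_le_of_lt hx1 hlt)
  have hu0 : u ≠ 0 := by
    rw [← Valuation.ne_zero_iff P.v, hu1]; exact one_ne_zero
  have hy0 : y ≠ 0 := by
    rintro rfl
    rw [zero_pow P.prime.ne_zero] at hyx
    exact div_ne_zero hu0 hw0 hyx.symm
  have ht0 : (t : Qb) ≠ 0 := by
    rw [← Valuation.ne_zero_iff P.v, hvt]; exact one_ne_zero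
  refine ⟨i, j, (t : Qb) * y, mul_mem (intCast_mem _ _) hy, mul_ne_zero ht0 hy0, ?_⟩
  rw [mul_pow, hyx, hwdef, hudef]
  have h1 : (1 + (P.ℓ : Qb)) ≠ 0 := by
    rw [← Valuation.ne_zero_iff P.v, hv1]; exact one_ne_zero
  have h2 : (P.ℓ : Qb) ^ i ≠ 0 := zpow_ne_zero _ hℓ0
  field_simp

end Fermat.Agent.S56.Lq
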