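/-
S56 block (Lq), arithmetic part at `p`, leaf P-H1: `dim H¹(D_p, μ_p) ≤ 2` (`p` odd), and `χ` is ramified at `p`.
-/
import Fermat.Agent.S56.Lq.CycP1
import Fermat.Agent.PT.B.Kummer
import Fermat.Agent.PT.B.Galois
import Fermat.Agent.PT.Local.SymDefs

set_option autoImplicit false

open ExtCitation

namespace Fermat.Agent.S56.Lq

open Fermat.Agent.PT
open Fermat.Agent.PT.Local (Qb Plc li lg lf IsUnif Fld uu)
open Fermat.Agent.S36R.K0L (isUnif_ell li_bot lg_bot)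

variable {p : ℕ} [Fact p.Prime]

/-- the fixed points of `D` in `Qbar^×`. -/
def CycP2_fix (D : Subgroup GQ) : AddSubgroup (Additive Qbarˣ) where
  carrier := {b | ∀ v ∈ D, multRep v b = b}
  zero_mem' := fun v _ => map_zero _
  add_mem' := fun {a b} ha hb v hv => by rw [map_add, ha v hv, hb v hv]
  neg_mem' := fun {a} ha v hv => by rw [map_neg, ha v hv]

/-- the Kummer map as a homomorphism. -/
noncomputable def CycP2_kap (D : Subgroup GQ) : CycP2_fix D →+ H1 Lall D (cycRep p) :=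
  AddMonoidHom.mk' (fun b => H1.mk Lall D (cycRep p) ⟨(kummerQbar p).kum b.1,
    (kummerQbar p).kum_mem_Z1 b.2⟩) (by
    intro a b
    rw [← map_add, ← sub_eq_zero, ← map_sub, H1.mk_eq_zero_iff]
    exact (kummerQbar p).kum_add a.2 b.2)

theorem CycP2_uu_mem {D : Subgroup GQ} {b : Qb} (hb : b ∈ IntermediateField.fixedField D) :
    uu b ∈ CycP2_fix D := by
  unfold uu
  split_ifs with h
  · exact multRep_fixed_iff.2 hb
  · exact (CycP2_fix D).zero_mem

theorem CycP2_uu_of_ne {b : Qb} (h : b ≠ 0) : uu b = Additive.ofMul (Units.mk0 b h) := by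
  unfold uu
  rw [dif_pos h]

/-- **(K2)**  `K := kummerQbar p`, `x₁ = [K.kum (uu p)]`, `x₂ = [K.kum (uu (1 + p))]` (`K.kum_mem_Z1`).  Every class is `[f]`;
`K.exists_kum` : `f - K.kum b ∈ B1` with `b` fixed by `D`, i.e. (`multRep_fixed_iff`, `lg_bot`) `b = ofMul b'`, `b' ∈ lf P ⊥`;
`exists_decomp` : `b = i • uu p + j • uu (1 + p) + p • uu c`; `K.kum_add`, `K.kum_neg` (induction for multiples) and `K.kum_mem_B1_iff` give
`[f] = i x₁ + j x₂`.  So `H¹ = span {x₁, x₂}` (`finrank_span_le_card` / `Module.Finite.span_of_finite`). -/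
theorem finrank_H1_cyc_le (hp2 : p ≠ 2) (P : Plc) (hℓ : P.ℓ = p) (D : Subgroup GQ)
    (hD : D = P.dec) :
    Module.Finite (ZMod p) (H1 Lall D (cycRep p)) ∧
      Module.finrank (ZMod p) (H1 Lall D (cycRep p)) ≤ 2 := by
  classical
  have hpp : p.Prime := Fact.out
  have hlf : ∀ x : Qb, x ∈ lf P ⊥ ↔ x ∈ IntermediateField.fixedField D := by
    intro x
    rw [hD, ← lg_bot P]; rfl
  have hp0 : (p : Qb) ≠ 0 := by exact_mod_cast hpp.ne_zero
  have hp1 : (1 + (p : Qb)) ≠ 0 := by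
    have : ((1 + p : ℕ) : Qb) ≠ 0 := by exact_mod_cast (by omega : 1 + p ≠ 0)
    simpa using this
  have hm1 : (p : Qb) ∈ IntermediateField.fixedField D := natCast_mem _ _
  have hm2 : (1 + (p : Qb)) ∈ IntermediateField.fixedField D := add_mem (one_mem _) (natCast_mem _ _)
  set x₁ : H1 Lall D (cycRep p) := CycP2_kap D ⟨uu (p : Qb), CycP2_uu_mem hm1⟩ with hx₁
  set x₂ : H1 Lall D (cycRep p) := CycP2_kap D ⟨uu (1 + (p : Qb)), CycP2_uu_mem hm2⟩ with hx₂
  have hspan : Submodule.span (ZMod p) (({x₁, x₂} : Finset (H1 Lall D (cycRep p))) :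
      Set (H1 Lall D (cycRep p))) = ⊤ := by
    rw [eq_top_iff]
    intro x _
    obtain ⟨f, rfl⟩ := H1.mk_surjective Lall D (cycRep p) x
    obtain ⟨b, hb, hfb⟩ := (kummerQbar p).exists_kum f.2
    have e1 : H1.mk Lall D (cycRep p) f = CycP2_kap D ⟨b, hb⟩ := by
      rw [← sub_eq_zero]
      change H1.mk Lall D (cycRep p) f - H1.mk Lall D (cycRep p) _ = 0
      rw [← map_sub, H1.mk_eq_zero_iff]
      exact hfb
    have hb' : ((Additive.toMul b : Qbarˣ) : Qb) ∈ lf P ⊥ := by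
      rw [hlf]
      exact multRep_fixed_iff.1 hb
    obtain ⟨i, j, c, hc, hc0, hdec⟩ := exists_decomp hpp hp2 P hℓ hb' (Units.ne_zero _)
    have hcm : uu c ∈ CycP2_fix D := CycP2_uu_mem ((hlf c).1 hc)
    have e2 : (⟨b, hb⟩ : CycP2_fix D) = i • ⟨uu (p : Qb), CycP2_uu_mem hm1⟩ +
        j • ⟨uu (1 + (p : Qb)), CycP2_uu_mem hm2⟩ + p • ⟨uu c, hcm⟩ := by
      apply Subtype.ext
      apply Additive.toMul.injective
      apply Units.ext
      simp only [AddSubgroup.coe_add, AddSubgroup.coe_zsmul, AddSubgroup.coe_nsmul,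
        CycP2_uu_of_ne hp0, CycP2_uu_of_ne hp1, CycP2_uu_of_ne hc0, toMul_add, toMul_zsmul,
        toMul_nsmul, toMul_ofMul, Units.val_mul, Units.val_zpow_eq_zpow_val,
        Units.val_pow_eq_pow_val, Units.val_mk0]
      exact hdec
    rw [e1, e2, map_add, map_add, map_zsmul, map_nsmul, map_nsmul, ← hx₁, ← hx₂]
    have e3 : p • CycP2_kap (p := p) D ⟨uu c, hcm⟩ = 0 := by
      rw [← Nat.cast_smul_eq_nsmul (ZMod p), ZMod.natCast_self, zero_smul]
    rw [e3, add_zero, ← Int.cast_smul_eq_zsmul (ZMod p), ← Nat.cast_smul_eq_nsmul (ZMod p)]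
    refine add_mem (Submodule.smul_mem _ _ (Submodule.subset_span ?_))
      (Submodule.smul_mem _ _ (Submodule.subset_span ?_))
    · simp
    · simp
  refine ⟨⟨⟨_, hspan⟩⟩, ?_⟩
  rw [← finrank_top, ← hspan]
  exact (finrank_span_finset_le_card _).trans Finset.card_le_two

/-- the cyclotomic character is ramified at `p ≠ 2`: otherwise `1 - ζ` is fixed by `P.ine`, `v (1 - ζ) = v p ^ n`
(`S36R.K0L.exists_zpow`), `v p = v (1 - ζ) ^ (p - 1)` (`Local.v_p_eq`), so `n (p - 1) = 1` (`Local.v_zpow_injective`).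
(`g ζ = ζ ^ cycloChar p g` : `galois_zetaP_aux`.) -/
theorem exists_ine_cycloChar_ne_one (hp2 : p ≠ 2) (P : Plc) (hℓ : P.ℓ = p) :
    ∃ σ ∈ P.ine, cycloChar p σ ≠ 1 := by
  by_contra hcon
  push Not at hcon
  have hpp : p.Prime := Fact.out
  have : Fact (1 < p) := ⟨hpp.one_lt⟩
  have hζ : IsPrimitiveRoot ((zetaP p : Qbarˣ) : Qb) p :=
    IsPrimitiveRoot.coe_units_iff.mpr (zetaP_spec p)
  have hfix : ∀ σ ∈ P.ine, σ ((zetaP p : Qbarˣ) : Qb) = ((zetaP p : Qbarˣ) : Qb) := by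
    intro σ hσ
    have h1 := galois_zetaP_aux p σ _ (zetaP_spec p).pow_eq_one
    rw [hcon σ hσ, Units.val_one, ZMod.val_one, pow_one] at h1
    exact congrArg Units.val h1
  have hmem : (1 - ((zetaP p : Qbarˣ) : Qb)) ∈ Fermat.Agent.S36R.K0L.K0 P := by
    rw [Fermat.Agent.S36R.K0L.mem_K0_iff]
    intro σ hσ
    rw [map_sub, map_one, hfix σ hσ]
  have hne : (1 - ((zetaP p : Qbarˣ) : Qb)) ≠ 0 := by
    rw [sub_ne_zero]
    exact (hζ.ne_one hpp.one_lt).symm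
  obtain ⟨n, hn⟩ := Fermat.Agent.S36R.K0L.exists_zpow P hmem hne
  have hvp := Fermat.Agent.PT.Local.v_p_eq P hpp hζ
  rw [hn, ← hℓ, ← zpow_natCast, ← zpow_mul] at hvp
  have h1 : (1 : ℤ) = n * ((P.ℓ - 1 : ℕ) : ℤ) := by
    apply Fermat.Agent.PT.Local.v_zpow_injective P (π := (P.ℓ : Qb))
      (by exact_mod_cast P.prime.ne_zero) (Fermat.Agent.PT.Local.v_ell_lt_one P)
    rw [zpow_one]
    exact hvp
  have h2 : ((P.ℓ - 1 : ℕ) : ℤ) ∣ 1 := ⟨n, by rw [h1]; ring⟩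
  have h3 : P.ℓ - 1 = 1 := by
    have := Int.natCast_dvd_natCast.1 (by simpa using h2 : ((P.ℓ - 1 : ℕ) : ℤ) ∣ ((1 : ℕ) : ℤ))
    exact Nat.dvd_one.1 this
  apply hp2
  rw [← hℓ]
  have := P.prime.two_le
  omega

end Fermat.Agent.S56.Lq
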