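/-
S56 block (Lq), strict ordinary condition at `p`: definitions.
`SOBody r P p c` is the body of `C.SOAt r c p` at the place `P`;  `SOLine r P p v` = the part which only concerns `r` and the line `k v`.
`A0 p v = Hom(k²/kv, kv) ⊆ A1 p v = {X | X v ∈ k v} ⊆ ad⁰`.
-/
import Fermat.Agent.S56.B.Ad0
import Fermat.Agent.PT.Gal.Setup

set_option autoImplicit false

open ExtCitation Module Matrix

noncomputable section

namespace Fermat.Agent.S56.Lq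

open Fermat.Agent.PT
open Fermat.Agent.S53 (G M2)
open Fermat.Agent.S56.C (ad rm)
open Fermat.Agent.S56.B (Ad0 adFp mem_Ad0 coe_adFp)

variable {k : Type} [Field k]

section defs

variable (r : G →* GL (Fin 2) k) (P : ValuationSubring (AlgebraicClosure ℚ)) (p : ℕ)

/-- `r|D_P = (χ z, *; 0, z)` in a basis starting with `v`, `z` unramified. -/
def SOLine (v : Fin 2 → k) : Prop :=
  v ≠ 0 ∧
    (∀ σ ∈ P.decompositionSubgroup ℚ, ∃ x z : k, rm r σ *ᵥ v = x • v ∧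
      (∀ w : Fin 2 → k, ∃ y : k, rm r σ *ᵥ w - z • w = y • v) ∧
      ∀ a : ℕ, (∀ μ : AlgebraicClosure ℚ, μ ^ p = 1 → σ μ = μ ^ a) → x = (a : k) * z) ∧
    (∀ σ ∈ P.inertiaSubgroupIn ℚ, ∀ w : Fin 2 → k, ∃ y : k, rm r σ *ᵥ w - w = y • v)

/-- the body of `C.SOAt` at the place `P`. -/
def SOBody (c : G → M2 k) : Prop :=
  ∃ (v : Fin 2 → k) (X : M2 k), v ≠ 0 ∧
    (∀ σ ∈ P.decompositionSubgroup ℚ, ∃ x z : k, rm r σ *ᵥ v = x • v ∧
      (∀ w : Fin 2 → k, ∃ y : k, rm r σ *ᵥ w - z • w = y • v) ∧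
      ∀ a : ℕ, (∀ μ : AlgebraicClosure ℚ, μ ^ p = 1 → σ μ = μ ^ a) → x = (a : k) * z) ∧
    (∀ σ ∈ P.inertiaSubgroupIn ℚ, ∀ w : Fin 2 → k, ∃ y : k, rm r σ *ᵥ w - w = y • v) ∧
    ∀ σ ∈ P.decompositionSubgroup ℚ,
      (c σ + (ad (r σ) X - X)) *ᵥ v = 0 ∧
        ∀ w : Fin 2 → k, ∃ y : k, (c σ + (ad (r σ) X - X)) *ᵥ w = y • v

theorem sOAt_iff (c : G → M2 k) :
    C.SOAt r c p ↔ ∀ P : ValuationSubring (AlgebraicClosure ℚ), P.LiesOverPrime p → SOBody r P p c :=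
  Iff.rfl

end defs

/-- `Hom(k²/kv, kv)` as a `k`-subspace of `ad⁰`. -/
def A0k (v : Fin 2 → k) : Submodule k (Ad0 k) where
  carrier := {X | (X : M2 k) *ᵥ v = 0 ∧ ∀ w : Fin 2 → k, ∃ y : k, (X : M2 k) *ᵥ w = y • v}
  add_mem' := by
    rintro X Y ⟨h1, h2⟩ ⟨h1', h2'⟩
    refine ⟨by rw [Submodule.coe_add, Matrix.add_mulVec, h1, h1', add_zero], fun w => ?_⟩
    obtain ⟨y, hy⟩ := h2 w
    obtain ⟨y', hy'⟩ := h2' w
    exact ⟨y + y', by rw [Submodule.coe_add, Matrix.add_mulVec, hy, hy', add_smul]⟩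
  zero_mem' := ⟨by simp, fun w => ⟨0, by simp⟩⟩
  smul_mem' := by
    rintro a X ⟨h1, h2⟩
    refine ⟨by rw [Submodule.coe_smul, Matrix.smul_mulVec, h1, smul_zero], fun w => ?_⟩
    obtain ⟨y, hy⟩ := h2 w
    exact ⟨a * y, by rw [Submodule.coe_smul, Matrix.smul_mulVec, hy, smul_smul]⟩

/-- `{X ∈ ad⁰ | X v ∈ k v}`. -/
def A1k (v : Fin 2 → k) : Submodule k (Ad0 k) where
  carrier := {X | ∃ y : k, (X : M2 k) *ᵥ v = y • v}
  add_mem' := by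
    rintro X Y ⟨y, hy⟩ ⟨y', hy'⟩
    exact ⟨y + y', by rw [Submodule.coe_add, Matrix.add_mulVec, hy, hy', add_smul]⟩
  zero_mem' := ⟨0, by simp⟩
  smul_mem' := by
    rintro a X ⟨y, hy⟩
    exact ⟨a * y, by rw [Submodule.coe_smul, Matrix.smul_mulVec, hy, smul_smul]⟩

variable (p : ℕ) [Algebra (ZMod p) k]

/-- `A0k` over `ZMod p`. -/
def A0 (v : Fin 2 → k) : Submodule (ZMod p) (Ad0 k) := (A0k v).restrictScalars (ZMod p)

/-- `A1k` over `ZMod p`. -/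
def A1 (v : Fin 2 → k) : Submodule (ZMod p) (Ad0 k) := (A1k v).restrictScalars (ZMod p)

variable {p}

theorem mem_A0 {v : Fin 2 → k} {X : Ad0 k} :
    X ∈ A0 p v ↔ (X : M2 k) *ᵥ v = 0 ∧ ∀ w : Fin 2 → k, ∃ y : k, (X : M2 k) *ᵥ w = y • v := Iff.rfl

theorem mem_A1 {v : Fin 2 → k} {X : Ad0 k} : X ∈ A1 p v ↔ ∃ y : k, (X : M2 k) *ᵥ v = y • v := Iff.rfl

end Fermat.Agent.S56.Lq
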