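/-
S56 block (Lq), strict ordinary condition at `p`, leaf SO-line: the line `k v` is unique.
-/
import Fermat.Agent.S56.Lq.SODefs
import Fermat.Agent.S56.Lq.CycP2

set_option autoImplicit false

open ExtCitation Module Matrix

noncomputable section

namespace Fermat.Agent.S56.Lq

open Fermat.Agent.PT
open Fermat.Agent.PT.Local (Plc)
open Fermat.Agent.S53 (G M2)
open Fermat.Agent.S56.C (ad rm)

variable {p : ℕ} [Fact p.Prime] {k : Type} [Field k]

/-- `σ μ = μ ^ (χ σ).val` on `μ_p` (`galois_zetaP_aux` for the unit `μ`; `μ ≠ 0`). -/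
theorem apply_root_eq_pow (σ : GQ) {μ : Qbar} (hμ : μ ^ p = 1) :
    σ μ = μ ^ ((cycloChar p σ : (ZMod p)ˣ) : ZMod p).val := by
  have hp : p.Prime := Fact.out
  have h0 : μ ≠ 0 := by
    rintro rfl
    rw [zero_pow hp.ne_zero] at hμ
    exact zero_ne_one hμ
  have h1 := galois_zetaP_aux p σ (Units.mk0 μ h0) (Units.ext (by simpa using hμ))
  have h2 := congrArg Units.val h1
  simpa using h2

theorem SOLine_mulVec_eq_zero (r : G →* GL (Fin 2) k) (σ : G) {u : Fin 2 → k}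
    (hu : rm r σ *ᵥ u = 0) : u = 0 := by
  have h1 : ((r σ)⁻¹ : GL (Fin 2) k).1 *ᵥ (rm r σ *ᵥ u) = u := by
    rw [Matrix.mulVec_mulVec]
    show (((r σ)⁻¹ * r σ : GL (Fin 2) k) : M2 k) *ᵥ u = u
    simp
  rw [← h1, hu, Matrix.mulVec_zero]

/-- `k² ≠ k v`. -/
theorem SOLine_not_all_mem (v : Fin 2 → k) (h : ∀ w : Fin 2 → k, ∃ y : k, w = y • v) : False := by
  obtain ⟨s, hs⟩ := h ![1, 0]
  obtain ⟨t, ht⟩ := h ![0, 1]
  have s0 := congrFun hs 0
  have s1 := congrFun hs 1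
  have t1 := congrFun ht 1
  simp only [Matrix.cons_val_zero, Matrix.cons_val_one, Pi.smul_apply, smul_eq_mul] at s0 s1 t1
  have hs0 : s ≠ 0 := by
    rintro rfl
    simp at s0
  have hv1 : v 1 = 0 := by
    rcases mul_eq_zero.1 s1.symm with h | h
    · exact absurd h hs0
    · exact h
  rw [hv1, mul_zero] at t1
  exact one_ne_zero t1

/-- the eigenvalues of `r σ`, `σ ∈ D_P`: `x = χ(σ) z`. -/
theorem SOLine.exists_eig {r : G →* GL (Fin 2) k} {P : ValuationSubring (AlgebraicClosure ℚ)}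
    {v : Fin 2 → k} (h : SOLine r P p v) {σ : G} (hσ : σ ∈ P.decompositionSubgroup ℚ) :
    ∃ z : k, z ≠ 0 ∧ rm r σ *ᵥ v = ((((cycloChar p σ : (ZMod p)ˣ) : ZMod p).val : k) * z) • v ∧
      ∀ w : Fin 2 → k, ∃ y : k, rm r σ *ᵥ w - z • w = y • v := by
  obtain ⟨x, z, h1, h2, h3⟩ := h.2.1 σ hσ
  have hx := h3 _ (fun μ hμ => apply_root_eq_pow σ hμ)
  refine ⟨z, ?_, by rw [h1, hx], h2⟩
  rintro rfl
  rw [hx, mul_zero, zero_smul] at h1
  exact h.1 (SOLine_mulVec_eq_zero r σ h1)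

/-- on inertia the unramified eigenvalue is `1`. -/
theorem SOLine.mulVec_of_mem_ine {r : G →* GL (Fin 2) k} {P : ValuationSubring (AlgebraicClosure ℚ)}
    {v : Fin 2 → k} (h : SOLine r P p v) {σ : G} (hσ : σ ∈ P.decompositionSubgroup ℚ)
    (hσ' : σ ∈ P.inertiaSubgroupIn ℚ) :
    rm r σ *ᵥ v = ((((cycloChar p σ : (ZMod p)ˣ) : ZMod p).val : k)) • v := by
  obtain ⟨z, -, h1, h2⟩ := h.exists_eig hσ
  have hz : z = 1 := by
    by_contra hz
    refine SOLine_not_all_mem v fun w => ?_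
    obtain ⟨y, hy⟩ := h2 w
    obtain ⟨y', hy'⟩ := h.2.2 σ hσ' w
    have h3 : (z - 1) • w = (y' - y) • v := by
      rw [sub_smul, sub_smul, one_smul, ← hy, ← hy']
      abel
    refine ⟨(z - 1)⁻¹ * (y' - y), ?_⟩
    rw [mul_smul, ← h3, smul_smul, inv_mul_cancel₀ (sub_ne_zero.2 hz), one_smul]
  rw [h1, hz, mul_one]

/-- **(SO-line)**  Take `σ ∈ I_P` with `χ σ ≠ 1` (`exists_ine_cycloChar_ne_one`), `a = ((χ σ).val : k) ≠ 1` (`CharP k p`).
From `h`: `r σ w - w ∈ k v` and `r σ w - z w ∈ k v` for all `w`, so `(z - 1) w ∈ k v` for all `w`, `z = 1` (`k² ≠ k v`); `r σ v = a v`.  Same for `v'`: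
`r σ v' = a v'`.  But `r σ v' - v' = (a - 1) v' ∈ k v`, so `v' ∈ k v`. -/
theorem SOLine.unique [CharP k p] (hp2 : p ≠ 2) (P : Plc) (hℓ : P.ℓ = p) {r : G →* GL (Fin 2) k}
    {v v' : Fin 2 → k} (h : SOLine r P.A p v) (h' : SOLine r P.A p v') : ∃ t : k, v' = t • v := by
  obtain ⟨σ, hσ, hne⟩ := exists_ine_cycloChar_ne_one hp2 P hℓ
  have hσd : σ ∈ P.A.decompositionSubgroup ℚ := Local.ine_le_dec P hσ
  set a : k := (((cycloChar p σ : (ZMod p)ˣ) : ZMod p).val : k) with ha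
  have ha1 : a ≠ 1 := by
    intro h1
    apply hne
    have h2 : ((((cycloChar p σ : (ZMod p)ˣ) : ZMod p).val : ℕ) : k) = ((1 : ℕ) : k) := by
      rw [Nat.cast_one]
      exact h1
    rw [CharP.natCast_eq_natCast k p, ← ZMod.natCast_eq_natCast_iff, ZMod.natCast_zmod_val,
      Nat.cast_one] at h2
    exact Units.ext h2
  have h1 := h'.mulVec_of_mem_ine hσd hσ
  obtain ⟨y, hy⟩ := h.2.2 σ hσ v'
  rw [h1] at hy
  have h3 : (a - 1) • v' = y • v := by rw [sub_smul, one_smul, hy]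
  refine ⟨(a - 1)⁻¹ * y, ?_⟩
  rw [mul_smul, ← h3, smul_smul, inv_mul_cancel₀ (sub_ne_zero.2 ha1), one_smul]

end Fermat.Agent.S56.Lq
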