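/-
S56 block (Lq), strict ordinary condition at `p`, leaf SO-sub: the subspaces `A0 ⊆ A1 ⊆ ad⁰` attached to the line `k v`.

HINT.  Complete `v` to a basis: there is `u : GL (Fin 2) k` with `u *ᵥ ![1, 0] = v`.  Then `X ∈ A0` iff `u⁻¹ X u = !![0, t; 0, 0]`,
`X ∈ A1` iff `u⁻¹ X u = !![s, t; 0, -s]`, and for `σ ∈ D_P`: `u⁻¹ r σ u = !![a z, b; 0, z]`.  (Or argue directly with vectors, see below.)
-/
import Fermat.Agent.S56.Lq.SOLine

set_option autoImplicit false

open ExtCitation Module Matrix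

noncomputable section

namespace Fermat.Agent.S56.Lq

open Fermat.Agent.PT
open Fermat.Agent.S53 (G M2)
open Fermat.Agent.S56.C (ad rm)
open Fermat.Agent.S56.B (Ad0 adFp mem_Ad0 coe_adFp)

variable {p : ℕ} [Fact p.Prime] {k : Type} [Field k] [Algebra (ZMod p) k]

omit [Fact p.Prime] [Algebra (ZMod p) k] in
/-- `w ∈ k v` iff `det (v, w) = 0`. -/
private theorem SOSub_mem_line {v : Fin 2 → k} (hv : v ≠ 0) (w : Fin 2 → k) :
    (∃ y : k, w = y • v) ↔ v 0 * w 1 - v 1 * w 0 = 0 := by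
  constructor
  · rintro ⟨y, rfl⟩
    simp only [Pi.smul_apply, smul_eq_mul]
    ring
  · intro h
    by_cases h0 : v 0 = 0
    · have h1 : v 1 ≠ 0 := by
        intro h1
        apply hv
        funext i
        fin_cases i
        · exact h0
        · exact h1
      rw [h0, zero_mul, zero_sub, neg_eq_zero, mul_eq_zero] at h
      have hw0 : w 0 = 0 := h.resolve_left h1
      refine ⟨w 1 / v 1, ?_⟩
      funext i
      fin_cases i
      · simp [h0, hw0]
      · simp [h1]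
    · refine ⟨w 0 / v 0, ?_⟩
      funext i
      fin_cases i
      · simp [h0]
      · simp only [Fin.mk_one, Fin.isValue, Pi.smul_apply, smul_eq_mul]
        field_simp
        linear_combination h

omit [Fact p.Prime] [Algebra (ZMod p) k] in
private theorem SOSub_finrank_Ad0 : finrank k (Ad0 k) = 3 := by
  have hne : (Matrix.traceLinearMap (Fin 2) k k) ≠ 0 := by
    intro h
    have := congrArg (fun f => f (Matrix.single 0 0 1)) h
    simp at this
  have := Module.Dual.finrank_ker_add_one_of_ne_zero (f := Matrix.traceLinearMap (Fin 2) k k) hne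
  rw [Module.finrank_matrix] at this
  simp only [Fintype.card_fin, Module.finrank_self] at this
  have h2 : finrank k (Ad0 k) + 1 = 4 := this
  omega

/-- the functional `X ↦ det (v, X v)`. -/
private def SOSub_phi (v : Fin 2 → k) : Ad0 k →ₗ[k] k where
  toFun X := v 0 * ((X : M2 k) *ᵥ v) 1 - v 1 * ((X : M2 k) *ᵥ v) 0
  map_add' X Y := by
    simp only [Submodule.coe_add, Matrix.add_mulVec, Pi.add_apply]
    ring
  map_smul' a X := by
    simp only [Submodule.coe_smul, Matrix.smul_mulVec, Pi.smul_apply, smul_eq_mul, RingHom.id_apply]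
    ring

theorem finrank_A0k {v : Fin 2 → k} (hv : v ≠ 0) : finrank k (A0k v) = 1 := by
  have htr : (!![-(v 0 * v 1), v 0 * v 0; -(v 1 * v 1), v 0 * v 1] : M2 k) ∈ Ad0 k := by
    rw [mem_Ad0, Matrix.trace_fin_two_of]
    ring
  have hmem : (⟨_, htr⟩ : Ad0 k) ∈ A0k v := by
    refine ⟨?_, fun w => ⟨-(v 1 * w 0) + v 0 * w 1, ?_⟩⟩
    · funext i
      fin_cases i
      · simp [Matrix.mulVec, dotProduct, Fin.sum_univ_two]; ring
      · simp [Matrix.mulVec, dotProduct, Fin.sum_univ_two]; ring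
    · funext i
      fin_cases i
      · simp [Matrix.mulVec, dotProduct, Fin.sum_univ_two]; ring
      · simp [Matrix.mulVec, dotProduct, Fin.sum_univ_two]; ring
  refine finrank_eq_one (⟨⟨_, htr⟩, hmem⟩ : A0k v) ?_ ?_
  · intro h
    have h' : (!![-(v 0 * v 1), v 0 * v 0; -(v 1 * v 1), v 0 * v 1] : M2 k) = 0 :=
      congrArg (fun z : A0k v => ((z : Ad0 k) : M2 k)) h
    have h01 := congrFun (congrFun h' 0) 1
    have h10 := congrFun (congrFun h' 1) 0
    simp at h01 h10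
    apply hv
    funext i
    fin_cases i
    · exact h01
    · exact h10
  · rintro ⟨X, hX0, hX⟩
    obtain ⟨y₁, hy₁⟩ := hX ![1, 0]
    obtain ⟨y₂, hy₂⟩ := hX ![0, 1]
    have e00 : (X : M2 k) 0 0 = y₁ * v 0 := by
      have := congrFun hy₁ 0
      simpa [Matrix.mulVec, dotProduct, Fin.sum_univ_two] using this
    have e10 : (X : M2 k) 1 0 = y₁ * v 1 := by
      have := congrFun hy₁ 1
      simpa [Matrix.mulVec, dotProduct, Fin.sum_univ_two] using this
    have e01 : (X : M2 k) 0 1 = y₂ * v 0 := by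
      have := congrFun hy₂ 0
      simpa [Matrix.mulVec, dotProduct, Fin.sum_univ_two] using this
    have e11 : (X : M2 k) 1 1 = y₂ * v 1 := by
      have := congrFun hy₂ 1
      simpa [Matrix.mulVec, dotProduct, Fin.sum_univ_two] using this
    have hrel : y₁ * v 0 + y₂ * v 1 = 0 := by
      have := mem_Ad0.1 X.2
      rw [Matrix.trace_fin_two, e00, e11] at this
      exact this
    -- `(y₁, y₂)` is a multiple of `(-v 1, v 0)`
    have hline : ∃ c : k, ![y₁, y₂] = c • ![-(v 1), v 0] := by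
      rw [SOSub_mem_line]
      · simp only [Matrix.cons_val_zero, Matrix.cons_val_one]
        linear_combination -hrel
      · intro h
        apply hv
        have h0 := congrFun h 0
        have h1 := congrFun h 1
        simp at h0 h1
        funext i
        fin_cases i
        · exact h1
        · exact h0
    obtain ⟨c, hc⟩ := hline
    have c1 : y₁ = c * -(v 1) := by simpa using congrFun hc 0
    have c2 : y₂ = c * v 0 := by simpa using congrFun hc 1
    refine ⟨c, ?_⟩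
    apply Subtype.ext
    apply Subtype.ext
    show c • (!![-(v 0 * v 1), v 0 * v 0; -(v 1 * v 1), v 0 * v 1] : M2 k) = (X : M2 k)
    ext i j
    fin_cases i <;> fin_cases j
    · simp [e00, c1]; ring
    · simp [e01, c2]; ring
    · simp [e10, c1]; ring
    · simp [e11, c2]; ring

theorem finrank_A1k {v : Fin 2 → k} (hv : v ≠ 0) : finrank k (A1k v) = 2 := by
  have hker : A1k v = LinearMap.ker (SOSub_phi v) := by
    ext X
    rw [LinearMap.mem_ker]
    exact SOSub_mem_line hv _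
  have hne : SOSub_phi v ≠ 0 := by
    intro h
    have t1 : (!![0, 0; 1, 0] : M2 k) ∈ Ad0 k := by
      rw [mem_Ad0, Matrix.trace_fin_two_of]; ring
    have t2 : (!![0, 1; 0, 0] : M2 k) ∈ Ad0 k := by
      rw [mem_Ad0, Matrix.trace_fin_two_of]; ring
    have h1 : SOSub_phi v ⟨_, t1⟩ = 0 := by rw [h]; rfl
    have h2 : SOSub_phi v ⟨_, t2⟩ = 0 := by rw [h]; rfl
    simp [SOSub_phi, Matrix.mulVec, dotProduct, Fin.sum_univ_two] at h1 h2
    apply hv
    funext i
    fin_cases i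
    · exact h1
    · exact h2
  have := Module.Dual.finrank_ker_add_one_of_ne_zero (f := SOSub_phi v) hne
  rw [SOSub_finrank_Ad0] at this
  rw [hker]
  omega

/-- (`Module.finrank_mul_finrank (ZMod p) k (A0k v)`; `↥(A0 p v)` and `↥(A0k v)` are the same type,
`Submodule.restrictScalarsEquiv`.) -/
theorem finrank_A0 [Module.Finite (ZMod p) k] {v : Fin 2 → k} (hv : v ≠ 0) :
    finrank (ZMod p) (A0 p v) = finrank (ZMod p) k := by
  have h1 : finrank (ZMod p) (A0 p v) = finrank (ZMod p) (A0k v) :=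
    LinearEquiv.finrank_eq
      ((Submodule.restrictScalarsEquiv (ZMod p) k (Ad0 k) (A0k v)).restrictScalars (ZMod p))
  have : Module.Free k (A0k v) := @Module.Free.of_divisionRing k (A0k v) _ _ _
  rw [h1, ← Module.finrank_mul_finrank (ZMod p) k (A0k v), finrank_A0k hv, mul_one]

theorem finrank_A1 [Module.Finite (ZMod p) k] {v : Fin 2 → k} (hv : v ≠ 0) :
    finrank (ZMod p) (A1 p v) = 2 * finrank (ZMod p) k := by
  have h1 : finrank (ZMod p) (A1 p v) = finrank (ZMod p) (A1k v) :=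
    LinearEquiv.finrank_eq
      ((Submodule.restrictScalarsEquiv (ZMod p) k (Ad0 k) (A1k v)).restrictScalars (ZMod p))
  have : Module.Free k (A1k v) := @Module.Free.of_divisionRing k (A1k v) _ _ _
  rw [h1, ← Module.finrank_mul_finrank (ZMod p) k (A1k v), finrank_A1k hv, mul_comm]

theorem A0_eq_of_smul {v : Fin 2 → k} {t : k} (ht : t ≠ 0) : A0 p (t • v) = A0 p v := by
  ext X
  rw [mem_A0, mem_A0, Matrix.mulVec_smul, smul_eq_zero_iff_right ht]
  refine and_congr Iff.rfl (forall_congr' fun w => ?_)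
  constructor
  · rintro ⟨y, hy⟩
    exact ⟨y * t, by rw [hy, smul_smul]⟩
  · rintro ⟨y, hy⟩
    exact ⟨y * t⁻¹, by rw [hy, smul_smul, mul_assoc, inv_mul_cancel₀ ht, mul_one]⟩

theorem SOSub_zmod_smul (x : ZMod p) (X : Ad0 k) : x • X = ((x.val : ℕ) : k) • X := by
  conv_lhs => rw [← ZMod.natCast_zmod_val x]
  rw [Nat.cast_smul_eq_nsmul, Nat.cast_smul_eq_nsmul]

/-- the linear form `u ↦ u ∧ v`, with kernel `k v`. -/
def SOSub_om (v u : Fin 2 → k) : k := u 0 * v 1 - u 1 * v 0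

theorem SOSub_om_smul_self (v : Fin 2 → k) (y : k) : SOSub_om v (y • v) = 0 := by
  simp only [SOSub_om, Pi.smul_apply, smul_eq_mul]
  ring

theorem SOSub_om_sub (v u u' : Fin 2 → k) : SOSub_om v (u - u') = SOSub_om v u - SOSub_om v u' := by
  simp only [SOSub_om, Pi.sub_apply]
  ring

theorem SOSub_om_smul (v u : Fin 2 → k) (c : k) : SOSub_om v (c • u) = c * SOSub_om v u := by
  simp only [SOSub_om, Pi.smul_apply, smul_eq_mul]
  ring

theorem SOSub_exists_of_om_eq_zero {v u : Fin 2 → k} (hv : v ≠ 0) (h : SOSub_om v u = 0) :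
    ∃ y : k, u = y • v := by
  have h' : u 0 * v 1 = u 1 * v 0 := sub_eq_zero.mp h
  by_cases h0 : v 0 = 0
  · have h1 : v 1 ≠ 0 := by
      intro h1
      apply hv
      funext i
      fin_cases i
      · exact h0
      · exact h1
    refine ⟨u 1 / v 1, ?_⟩
    funext i
    fin_cases i
    · show u 0 = u 1 / v 1 * v 0
      field_simp
      exact h'
    · show u 1 = u 1 / v 1 * v 1
      field_simp
  · refine ⟨u 0 / v 0, ?_⟩
    funext i
    fin_cases i
    · show u 0 = u 0 / v 0 * v 0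
      field_simp
    · show u 1 = u 0 / v 0 * v 1
      field_simp
      exact h'.symm

/-- if `M w ≡ z w mod k v` then `M w ∧ v = z (w ∧ v)`. -/
theorem SOSub_om_of_congr {v : Fin 2 → k} {M : M2 k} {z : k}
    (h : ∀ w : Fin 2 → k, ∃ y : k, M *ᵥ w - z • w = y • v) (w : Fin 2 → k) :
    SOSub_om v (M *ᵥ w) = z * SOSub_om v w := by
  obtain ⟨y, hy⟩ := h w
  have h1 := SOSub_om_smul_self v y
  rw [← hy, SOSub_om_sub, SOSub_om_smul] at h1
  exact sub_eq_zero.mp h1

/-- `X w ∧ v + w ∧ X v = tr X (w ∧ v)`. -/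
theorem SOSub_om_mulVec {v : Fin 2 → k} {X : M2 k} {s : k} (h : X *ᵥ v = s • v)
    (w : Fin 2 → k) : SOSub_om v (X *ᵥ w) = (X.trace - s) * SOSub_om v w := by
  have h0 : X 0 0 * v 0 + X 0 1 * v 1 = s * v 0 := by
    have := congrFun h 0
    simpa [Matrix.mulVec, dotProduct, Fin.sum_univ_two] using this
  have h1 : X 1 0 * v 0 + X 1 1 * v 1 = s * v 1 := by
    have := congrFun h 1
    simpa [Matrix.mulVec, dotProduct, Fin.sum_univ_two] using this
  simp only [SOSub_om, Matrix.mulVec, dotProduct, Fin.sum_univ_two, Matrix.trace,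
    Matrix.diag_apply]
  linear_combination (-(w 0)) * h1 + w 1 * h0

/-- `D_P` acts on `A0` through `χ`.  `g = r σ`, `g v = a z v`, `g w ≡ z w mod k v` (`SOLine.exists_eig`), `X w = λ(w) v`, `X v = 0`:
`g X w = λ(w) a z v` and `X g w = z λ(w) v`, so `g X = a X g`, `ad g X = a X`.
(`(x : ZMod p) • X = ((x.val : k)) • X`: `ZMod.natCast_zmod_val`, `Nat.cast_smul_eq_nsmul`.) -/
theorem adFp_A0 {r : G →* GL (Fin 2) k} {P : ValuationSubring (AlgebraicClosure ℚ)}
    {v : Fin 2 → k} (h : SOLine r P p v) {σ : G} (hσ : σ ∈ P.decompositionSubgroup ℚ) {X : Ad0 k}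
    (hX : X ∈ A0 p v) : adFp p r σ X = ((cycloChar p σ : (ZMod p)ˣ) : ZMod p) • X := by
  obtain ⟨z, -, hgv, hgw⟩ := h.exists_eig hσ
  obtain ⟨hXv, hXw⟩ := mem_A0.1 hX
  rw [SOSub_zmod_smul]
  apply Subtype.ext
  rw [coe_adFp, Submodule.coe_smul]
  have key : rm r σ * (X : M2 k) =
      ((((cycloChar p σ : (ZMod p)ˣ) : ZMod p).val : ℕ) : k) • ((X : M2 k) * rm r σ) := by
    apply Matrix.ext_of_mulVec_single
    intro i
    obtain ⟨y, hy⟩ := hXw (Pi.single i 1)
    obtain ⟨y', hy'⟩ := hgw (Pi.single i 1)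
    have h1 : rm r σ *ᵥ (Pi.single i 1) = z • (Pi.single i 1 : Fin 2 → k) + y' • v := by
      rw [← hy']
      abel
    rw [← Matrix.mulVec_mulVec, hy, Matrix.mulVec_smul, hgv, Matrix.smul_mulVec,
      ← Matrix.mulVec_mulVec, h1, Matrix.mulVec_add, Matrix.mulVec_smul, Matrix.mulVec_smul, hXv,
      hy, smul_zero, add_zero, smul_smul, smul_smul, smul_smul]
    congr 1
    ring
  have hinv : rm r σ * (((r σ)⁻¹ : GL (Fin 2) k) : M2 k) = 1 := (r σ).mul_inv
  show rm r σ * (X : M2 k) * (((r σ)⁻¹ : GL (Fin 2) k) : M2 k) = _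
  rw [key, Matrix.smul_mul, Matrix.mul_assoc, hinv, Matrix.mul_one]

/-- `D_P` acts trivially on `A1 / A0`. -/
theorem adFp_A1 {r : G →* GL (Fin 2) k} {P : ValuationSubring (AlgebraicClosure ℚ)}
    {v : Fin 2 → k} (h : SOLine r P p v) {σ : G} (hσ : σ ∈ P.decompositionSubgroup ℚ) {X : Ad0 k}
    (hX : X ∈ A1 p v) : adFp p r σ X - X ∈ A0 p v := by
  obtain ⟨z, hz, hgv, hgw⟩ := h.exists_eig hσ
  obtain ⟨s, hs⟩ := mem_A1.1 hX
  have hv : v ≠ 0 := h.1
  have hinv : rm r σ * (((r σ)⁻¹ : GL (Fin 2) k) : M2 k) = 1 := (r σ).mul_inv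
  have hinv' : (((r σ)⁻¹ : GL (Fin 2) k) : M2 k) * rm r σ = 1 := (r σ).inv_mul
  set c : k := ((((cycloChar p σ : (ZMod p)ˣ) : ZMod p).val : ℕ) : k) * z with hc
  have hgi : ∀ w : Fin 2 → k, (((r σ)⁻¹ : GL (Fin 2) k) : M2 k) *ᵥ (rm r σ *ᵥ w) = w := by
    intro w
    rw [Matrix.mulVec_mulVec, hinv', Matrix.one_mulVec]
  have hgi' : ∀ w : Fin 2 → k, rm r σ *ᵥ ((((r σ)⁻¹ : GL (Fin 2) k) : M2 k) *ᵥ w) = w := by
    intro w
    rw [Matrix.mulVec_mulVec, hinv, Matrix.one_mulVec]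
  have hc0 : c ≠ 0 := by
    intro h0
    apply hv
    have h1 := hgi v
    rw [hgv, h0, zero_smul, Matrix.mulVec_zero] at h1
    exact h1.symm
  have hgiv : (((r σ)⁻¹ : GL (Fin 2) k) : M2 k) *ᵥ v = c⁻¹ • v := by
    have h1 := hgi v
    rw [hgv, Matrix.mulVec_smul] at h1
    calc (((r σ)⁻¹ : GL (Fin 2) k) : M2 k) *ᵥ v
        = c⁻¹ • (c • ((((r σ)⁻¹ : GL (Fin 2) k) : M2 k) *ᵥ v)) := by
          rw [smul_smul, inv_mul_cancel₀ hc0, one_smul]
      _ = c⁻¹ • v := by rw [h1]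
  have hcoe : ((adFp p r σ X - X : Ad0 k) : M2 k) =
      rm r σ * (X : M2 k) * (((r σ)⁻¹ : GL (Fin 2) k) : M2 k) - (X : M2 k) := rfl
  have happ : ∀ w : Fin 2 → k, ((adFp p r σ X - X : Ad0 k) : M2 k) *ᵥ w =
      rm r σ *ᵥ ((X : M2 k) *ᵥ ((((r σ)⁻¹ : GL (Fin 2) k) : M2 k) *ᵥ w)) - (X : M2 k) *ᵥ w := by
    intro w
    rw [hcoe, Matrix.sub_mulVec, ← Matrix.mulVec_mulVec, ← Matrix.mulVec_mulVec]
  refine mem_A0.2 ⟨?_, fun w => ?_⟩
  · rw [happ, hgiv, Matrix.mulVec_smul, hs, Matrix.mulVec_smul, Matrix.mulVec_smul, hgv, smul_smul,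
      smul_smul, sub_eq_zero]
    congr 1
    field_simp
  · apply SOSub_exists_of_om_eq_zero hv
    have htr : (X : M2 k).trace = 0 := mem_Ad0.1 X.2
    have h1 : SOSub_om v ((((r σ)⁻¹ : GL (Fin 2) k) : M2 k) *ᵥ w) = z⁻¹ * SOSub_om v w := by
      have h2 := SOSub_om_of_congr hgw ((((r σ)⁻¹ : GL (Fin 2) k) : M2 k) *ᵥ w)
      rw [hgi'] at h2
      rw [h2, ← mul_assoc, inv_mul_cancel₀ hz, one_mul]
    rw [happ, SOSub_om_sub, SOSub_om_of_congr hgw, SOSub_om_mulVec hs, SOSub_om_mulVec hs, h1]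
    field_simp
    ring

end Fermat.Agent.S56.Lq
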