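/-
S56 block (Lq): MAIN EXPORTS, part 3 (E4): the strict ordinary local condition at `p`:  `dim L_p ≤ h⁰(D_p, ad⁰) + [k : 𝔽_p]`.
-/
import Fermat.Agent.S56.Lq.SOSub
import Fermat.Agent.S56.Lq.AbsVal
import Fermat.Agent.S56.Lq.Glue
import Fermat.Agent.S56.B.Local

set_option autoImplicit false

open ExtCitation Module Matrix

noncomputable section

namespace Fermat.Agent.S56.Lq

open Fermat.Agent.PT
open Fermat.Agent.S53 (G M2)
open Fermat.Agent.S56.C (ad rm)
open Fermat.Agent.S56.B (Ad0 adFp inhOf RSmooth mem_Ad0 coe_adFp)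

section abs

variable {R Γ A : Type*} [CommRing R] [Group Γ] [AddCommGroup A] [Module R A]
  {Λ : LevelSystem Γ} {ρ : Representation R Γ A}

theorem d01_mem_Z1 (hρ : IsSmoothRep Λ ρ) (a : A) : Inh.d01 ρ a ∈ Inh.Z1 Λ ρ := by
  rw [Inh.mem_Z1]
  obtain ⟨U, hU, h⟩ := hρ a
  refine ⟨⟨U, hU, fun g s hs => ?_⟩, fun g h => ?_⟩
  · simp only [Inh.d01_apply, map_mul, Module.End.mul_apply, h s hs]
  · simp only [Inh.d01_apply, map_mul, Module.End.mul_apply, map_sub]
    abel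

end abs

theorem mk_mem_LvalI_of {p : ℕ} [Fact p.Prime] {Γ A : Type*} [Group Γ] [AddCommGroup A]
    [Module (ZMod p) A] {Λ : LevelSystem Γ} {ρ : Representation (ZMod p) Γ A}
    (hρ : IsSmoothRep Λ ρ) {A₀ : Submodule (ZMod p) A} (c : Inh.Z1 Λ ρ) (a : A)
    (h : ∀ d, (c : Γ → A) d + (ρ d a - a) ∈ A₀) : Inh.H1mk Λ ρ c ∈ LvalI Λ ρ A₀ := by
  refine ⟨c + ⟨Inh.d01 ρ a, d01_mem_Z1 hρ a⟩, fun d => h d, ?_⟩
  rw [map_add, add_eq_left, Inh.H1mk_eq_zero_iff]
  exact ⟨a, rfl⟩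

/-- dimension of a pull back along the bridge. -/
theorem finrank_comap_toInhH {R G A : Type*} [Field R] [Group G] [AddCommGroup A] [Module R A]
    (L : LevelSystem G) (D : Subgroup G) (ρ : Representation R G A) (hρ : IsSmoothRep L ρ)
    (S : Submodule R (Inh.H1 (L.induced D) (resRep D ρ))) :
    (Module.Finite R S → Module.Finite R (S.comap (toInhH L D ρ))) ∧
      finrank R (S.comap (toInhH L D ρ)) = finrank R S := by
  let e : S.comap (toInhH L D ρ) ≃ₗ[R] S := LinearEquiv.ofSubmodule' (inhEquiv L D ρ hρ) S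
  exact ⟨fun _ => Module.Finite.equiv e.symm, e.finrank_eq⟩

variable {p : ℕ} [Fact p.Prime] {k : Type} [Field k] [Algebra (ZMod p) k]

theorem isSmoothRep_cycRep_Lall (p : ℕ) [Fact p.Prime] : IsSmoothRep Lall (cycRep p) := by
  intro a
  obtain ⟨U', hU', h⟩ := isSmoothRep_cycRep (p := p) (S := {pPrime p}) (Finset.mem_singleton_self _) a
  exact ⟨U', LS_le_Lall _ hU', h⟩

/-- **(E4)** -/
theorem exists_Lp (hp2 : p ≠ 2) [Finite k] (r : G →* GL (Fin 2) k) (hr : RSmooth r) :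
    ∃ Lp : Submodule (ZMod p) (H1 Lall (Dv (pPrime p)) (adFp p r)),
      Module.Finite (ZMod p) Lp ∧
      finrank (ZMod p) Lp ≤
        finrank (ZMod p) (invOf (Dl (pPrime p)) (adFp p r)) + finrank (ZMod p) k ∧
      ∀ z : Z1 Lall (Dv (pPrime p)) (adFp p r),
        SOBody r (primeLocalPlace (pPrime p)) p (inhOf z.1) →
          H1.mk Lall (Dv (pPrime p)) (adFp p r) z ∈ Lp := by
  have : CharP k p := charP_of_injective_algebraMap (algebraMap (ZMod p) k).injective p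
  have h2 : (2 : k) ≠ 0 := by
    intro h
    have h3 : ((2 : ℕ) : k) = 0 := by exact_mod_cast h
    rw [CharP.cast_eq_zero_iff k p] at h3
    exact hp2 ((Nat.prime_dvd_prime_iff_eq Fact.out Nat.prime_two).1 h3)
  have hkfin : Module.Finite (ZMod p) k := Module.Finite.of_finite
  set v := pPrime p with hv
  have hρ : IsSmoothRep Lall (adFp p r) := B.isSmoothRep_adFp_Lall p r hr
  by_cases hL : ∃ v₀, SOLine r (primeLocalPlace v) p v₀
  · obtain ⟨v₀, hv₀⟩ := hL
    have hmemD : ∀ d : Dv v, (d : GQ) ∈ (primeLocalPlace v).decompositionSubgroup ℚ := fun d => d.2.2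
    obtain ⟨hf1, hf2⟩ := finrank_H1_cyc_le hp2 (plcV v) rfl (Dv v) (Dv_eq v)
    have e := inhEquiv Lall (Dv v) (cycRep p) (isSmoothRep_cycRep_Lall p)
    have hf3 : Module.Finite (ZMod p) (Inh.H1 (Lall.induced (Dv v)) (resRep (Dv v) (cycRep p))) :=
      Module.Finite.equiv e
    have hf4 : finrank (ZMod p) (Inh.H1 (Lall.induced (Dv v)) (resRep (Dv v) (cycRep p))) ≤ 2 := by
      rw [← e.finrank_eq]
      exact hf2
    obtain ⟨hZ1, hZ2⟩ := finrank_Z1_le (Λ := Lall.induced (Dv v)) (resRep (Dv v) (cycRep p))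
    obtain ⟨hV1, hV2⟩ := finrank_LvalI_le (Λ := Lall.induced (Dv v)) (ρ := resRep (Dv v) (adFp p r))
      (resRep (Dv v) (cycRep p)) (A0 p v₀) (A1 p v₀) (isSmoothRep_induced hρ (Dv v))
      (fun d a ha => by
        have := adFp_A0 hv₀ (hmemD d) ha
        show adFp p r d a = cycRep p d 1 • a
        rw [this, cycRep_apply, mul_one])
      (fun d a ha => adFp_A1 hv₀ (hmemD d) ha)
    obtain ⟨hc1, hc2⟩ := finrank_comap_toInhH Lall (Dv v) (adFp p r) hρ
      (LvalI (Lall.induced (Dv v)) (resRep (Dv v) (adFp p r)) (A0 p v₀))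
    refine ⟨_, hc1 hV1, ?_, ?_⟩
    · rw [hc2]
      rw [finrank_A0 hv₀.1, finrank_A1 hv₀.1, invOf_top_resRep] at hV2
      have h3 : finrank (ZMod p) (Inh.Z1 (Lall.induced (Dv v)) (resRep (Dv v) (cycRep p))) *
          finrank (ZMod p) k ≤ 3 * finrank (ZMod p) k := Nat.mul_le_mul_right _ (by omega)
      omega
    · rintro z ⟨w, X, hw, c2, c3, c4⟩
      obtain ⟨t, rfl⟩ := SOLine.unique hp2 (plcV v) rfl hv₀ (⟨hw, c2, c3⟩ : SOLine r _ p w)
      have ht : t ≠ 0 := by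
        rintro rfl
        exact hw (zero_smul _ _)
      rw [Submodule.mem_comap, toInhH_mk]
      have hX' : (X - (X.trace / 2) • (1 : M2 k)).trace = 0 := by
        rw [Matrix.trace_sub, Matrix.trace_smul, Matrix.trace_one, Fintype.card_fin, smul_eq_mul]
        push_cast
        field_simp
        ring
      refine mk_mem_LvalI_of (isSmoothRep_induced hρ (Dv v)) _
        (⟨X - (X.trace / 2) • (1 : M2 k), mem_Ad0.2 hX'⟩ : Ad0 k) fun d => ?_
      rw [← A0_eq_of_smul (p := p) (v := v₀) ht, mem_A0]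
      have hcoe : (((toInhZ Lall (Dv v) (adFp p r) z : Dv v → Ad0 k) d +
          (resRep (Dv v) (adFp p r) d ⟨X - (X.trace / 2) • (1 : M2 k), mem_Ad0.2 hX'⟩ -
            ⟨X - (X.trace / 2) • (1 : M2 k), mem_Ad0.2 hX'⟩) : Ad0 k) : M2 k) =
          inhOf z.1 d + (ad (r d) X - X) := by
        have h5 : ad (r d) ((X.trace / 2) • (1 : M2 k)) = (X.trace / 2) • (1 : M2 k) := by
          rw [B.ad_smul]
          congr 1
          simp [ad]
        show (z.1 1 d : M2 k) + (ad (r d) (X - (X.trace / 2) • (1 : M2 k)) -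
          (X - (X.trace / 2) • (1 : M2 k))) = _
        rw [B.ad_sub, h5]
        simp only [B.inhOf_apply]
        abel
      rw [hcoe]
      exact c4 d (hmemD d)
  · refine ⟨⊥, inferInstance, by simp, ?_⟩
    rintro z ⟨w, X, hw, c2, c3, -⟩
    exact absurd ⟨w, hw, c2, c3⟩ hL

end Fermat.Agent.S56.Lq
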