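/-
S56 block (Lq), leaf L2-mat: `2 × 2` matrix algebra around a nilpotent matrix `N` (`tr N = 0`, `det N = 0`).
Everything can be done with entries (`Matrix.ext`, `Fin.forall_fin_two`, `Matrix.trace_fin_two`, `Matrix.det_fin_two`,
`Matrix.mul_apply`, `Fin.sum_univ_two`, then `linear_combination` / `field_simp`).
-/
import Mathlib

set_option autoImplicit false

open Matrix

namespace Fermat.Agent.S56.Lq

variable {k : Type*} [Field k]

local notation "M2" => Matrix (Fin 2) (Fin 2) k

/-- Cayley-Hamilton. -/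
theorem nilp_sq {N : M2} (ht : N.trace = 0) (hd : N.det = 0) : N * N = 0 := by
  rw [Matrix.trace_fin_two] at ht
  rw [Matrix.det_fin_two] at hd
  ext i j
  fin_cases i <;> fin_cases j <;>
    simp only [Matrix.mul_apply, Fin.sum_univ_two, Fin.zero_eta, Fin.mk_one, Matrix.zero_apply]
  · linear_combination N 0 0 * ht - hd
  · linear_combination N 0 1 * ht
  · linear_combination N 1 0 * ht
  · linear_combination N 1 1 * ht - hd

theorem trace_det_sub_one {g : M2} (ht : g.trace = 2) (hd : g.det = 1) :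
    (g - 1).trace = 0 ∧ (g - 1).det = 0 := by
  rw [Matrix.trace_fin_two] at ht
  rw [Matrix.det_fin_two] at hd
  rw [Matrix.trace_fin_two, Matrix.det_fin_two]
  simp only [Matrix.sub_apply, Matrix.one_apply_eq, Matrix.one_apply_ne (zero_ne_one' (Fin 2)),
    Matrix.one_apply_ne (zero_ne_one' (Fin 2)).symm]
  constructor
  · linear_combination ht
  · linear_combination hd - ht

/-- two nilpotent matrices with `tr (N₁ N) = 0` are proportional.
(`N₁ = (a b; c -a)`, `N = (x y; z -x)`: `a² + bc = 0`, `x² + yz = 0`, `2ax + bz + cy = 0`.  If `b ≠ 0`: multiply the last relation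
by `y`: `(bx - ay)² = 0`, so `x = (y/b) a`, and then `z = (y/b) c`.  If `b = 0` then `a = 0`, `c ≠ 0`, `y = 0`, `x = 0`.) -/
theorem exists_eq_smul_of_nilp {N₁ N : M2} (h1 : N₁ ≠ 0) (ht1 : N₁.trace = 0) (hd1 : N₁.det = 0)
    (ht : N.trace = 0) (hd : N.det = 0) (h : (N₁ * N).trace = 0) : ∃ b : k, N = b • N₁ := by
  rw [Matrix.trace_fin_two] at ht ht1 h
  rw [Matrix.det_fin_two] at hd hd1
  simp only [Matrix.mul_apply, Fin.sum_univ_two] at h
  have e1 : N₁ 1 1 = - N₁ 0 0 := by linear_combination ht1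
  have e2 : N 1 1 = - N 0 0 := by linear_combination ht
  rw [e1] at hd1 h
  rw [e2] at hd h
  by_cases hb : N₁ 0 1 = 0
  · have ha : N₁ 0 0 = 0 := by
      have : N₁ 0 0 * N₁ 0 0 = 0 := by rw [hb] at hd1; linear_combination -hd1
      exact mul_self_eq_zero.1 this
    have hc : N₁ 1 0 ≠ 0 := by
      intro hc
      apply h1
      ext i j
      fin_cases i <;> fin_cases j <;> simp [ha, hb, hc, e1]
    have hy : N 0 1 = 0 := by
      rw [ha, hb] at h
      have : N₁ 1 0 * N 0 1 = 0 := by linear_combination h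
      exact (mul_eq_zero.1 this).resolve_left hc
    have hx : N 0 0 = 0 := by
      have : N 0 0 * N 0 0 = 0 := by rw [hy] at hd; linear_combination -hd
      exact mul_self_eq_zero.1 this
    refine ⟨N 1 0 / N₁ 1 0, ?_⟩
    ext i j
    fin_cases i <;> fin_cases j <;> simp [ha, hb, hx, hy, e1, e2, hc]
  · have hsq : N₁ 0 1 * N 0 0 - N₁ 0 0 * N 0 1 = 0 := by
      have : (N₁ 0 1 * N 0 0 - N₁ 0 0 * N 0 1) * (N₁ 0 1 * N 0 0 - N₁ 0 0 * N 0 1) = 0 := by
        linear_combination (- N₁ 0 1 * N 0 1) * h - (N₁ 0 1 * N₁ 0 1) * hd - (N 0 1 * N 0 1) * hd1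
      exact mul_self_eq_zero.1 this
    have hx : N 0 0 = N 0 1 / N₁ 0 1 * N₁ 0 0 := by
      field_simp
      linear_combination hsq
    have hz : N 1 0 = N 0 1 / N₁ 0 1 * N₁ 1 0 := by
      have : N₁ 0 1 * (N₁ 0 1 * N 1 0 - N 0 1 * N₁ 1 0) = 0 := by
        linear_combination N₁ 0 1 * h - 2 * N₁ 0 0 * hsq + 2 * N 0 1 * hd1
      have h3 := (mul_eq_zero.1 this).resolve_left hb
      field_simp
      linear_combination h3
    refine ⟨N 0 1 / N₁ 0 1, ?_⟩
    ext i j
    fin_cases i <;> fin_cases j <;>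
      simp only [Fin.zero_eta, Fin.mk_one, Matrix.smul_apply, smul_eq_mul]
    · exact hx
    · field_simp
    · exact hz
    · rw [e1, e2, hx]; ring

theorem nilp_mul_mul {N : M2} (ht : N.trace = 0) (hd : N.det = 0) (X : M2) :
    N * X * N = (X * N).trace • N := by
  rw [Matrix.trace_fin_two] at ht
  rw [Matrix.det_fin_two] at hd
  have e2 : N 1 1 = - N 0 0 := by linear_combination ht
  rw [e2] at hd
  ext i j
  fin_cases i <;> fin_cases j <;>
    simp only [Matrix.mul_apply, Fin.sum_univ_two, Fin.zero_eta, Fin.mk_one, Matrix.smul_apply,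
      smul_eq_mul, Matrix.trace_fin_two, e2]
  · linear_combination (- X 1 1) * hd
  · linear_combination (X 0 1) * hd
  · linear_combination (X 1 0) * hd
  · linear_combination (- X 0 0) * hd

/-- `(1 + x N) X (1 - x N) = X + x (N X - X N)` if `tr (X N) = 0`. -/
theorem conj_one_add {N : M2} (ht : N.trace = 0) (hd : N.det = 0) {X : M2}
    (hX : (X * N).trace = 0) (x : k) :
    (1 + x • N) * X * (1 - x • N) = X + x • (N * X - X * N) := by
  have h1 : (1 + x • N) * X * (1 - x • N)
      = X + x • (N * X - X * N) - (x * x) • (N * X * N) := by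
    simp only [add_mul, mul_sub, one_mul, mul_one, smul_mul_assoc, mul_smul_comm, smul_sub,
      smul_add, smul_smul]
    abel
  rw [h1, nilp_mul_mul ht hd, hX, zero_smul, smul_zero, sub_zero]

/-- the norm of `1 + N` kills `X` (`∑_{j<p} j = p (p-1)/2 = 0` in `k`, `p` odd). -/
theorem sum_conj_eq_zero {p : ℕ} (hp : p.Prime) (hp2 : p ≠ 2) [CharP k p] {N : M2}
    (ht : N.trace = 0) (hd : N.det = 0) {X : M2} (hX : (X * N).trace = 0) :
    ∑ j ∈ Finset.range p, (1 + (j : k) • N) * X * (1 - (j : k) • N) = 0 := by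
  have h2 : (2 : k) ≠ 0 := by
    intro h
    have h' : ((2 : ℕ) : k) = 0 := by exact_mod_cast h
    rw [CharP.cast_eq_zero_iff k p 2] at h'
    exact hp2 ((Nat.prime_dvd_prime_iff_eq hp Nat.prime_two).1 h')
  have hs : (∑ j ∈ Finset.range p, (j : k)) = 0 := by
    have h3 : (∑ j ∈ Finset.range p, (j : k)) * 2 = 0 := by
      have := congrArg (Nat.cast : ℕ → k) (Finset.sum_range_id_mul_two p)
      rw [Nat.cast_mul, Nat.cast_mul, Nat.cast_sum, CharP.cast_eq_zero k p, zero_mul] at this
      exact_mod_cast this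
    exact (mul_eq_zero.1 h3).resolve_right h2
  simp only [conj_one_add ht hd hX]
  rw [Finset.sum_add_distrib, ← Finset.sum_smul, hs, zero_smul, add_zero, Finset.sum_const,
    Finset.card_range, ← Nat.cast_smul_eq_nsmul k, CharP.cast_eq_zero k p, zero_smul]

/-- `(Ad(1+N) - 1) ad⁰ = {X₀ | tr X₀ = 0 = tr (X₀ N)}`.
(Choose `w` with `N w ≠ 0`; in the basis `(N w, w)`: `N = E₁₂`, `X₀ = (a b; 0 -a)`, `X = (-(a+b)/2  0; a  (a+b)/2)`.
Or: pick `M` with `tr M = 0`, `tr (M N) = 1`, `H = N M - M N`; then `X₀ = a H + b N` and `X = a M - ((a+b)/2) H`.) -/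
theorem exists_conj_sub_eq (h2 : (2 : k) ≠ 0) {N : M2} (h0 : N ≠ 0) (ht : N.trace = 0)
    (hd : N.det = 0) {X₀ : M2} (hX : X₀.trace = 0) (hXN : (X₀ * N).trace = 0) :
    ∃ X : M2, X.trace = 0 ∧ (1 + N) * X * (1 - N) - X = X₀ := by
  rw [Matrix.trace_fin_two] at ht hX hXN
  rw [Matrix.det_fin_two] at hd
  simp only [Matrix.mul_apply, Fin.sum_univ_two] at hXN
  have e1 : X₀ 1 1 = - X₀ 0 0 := by linear_combination hX
  have e2 : N 1 1 = - N 0 0 := by linear_combination ht
  rw [e2] at hd hXN
  rw [e1] at hXN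
  have key : ∀ X : M2, (1 + N) * X * (1 - N) - X = N * X - X * N - N * X * N := by
    intro X
    simp only [add_mul, mul_sub, one_mul, mul_one]
    abel
  have hN : N = !![N 0 0, N 0 1; N 1 0, - N 0 0] := by
    conv_lhs => rw [Matrix.eta_fin_two N, e2]
  have hX0 : X₀ = !![X₀ 0 0, X₀ 0 1; X₀ 1 0, - X₀ 0 0] := by
    conv_lhs => rw [Matrix.eta_fin_two X₀, e1]
  generalize N 0 0 = a at *
  generalize N 0 1 = b at *
  generalize N 1 0 = c at *
  generalize X₀ 0 0 = x at *
  generalize X₀ 0 1 = y at *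
  generalize X₀ 1 0 = z at *
  by_cases hb0 : b = 0
  · subst hb0
    have ha0 : a = 0 := by
      have : a * a = 0 := by linear_combination -hd
      exact mul_self_eq_zero.1 this
    subst ha0
    have hc0 : c ≠ 0 := by
      intro hc0
      apply h0
      rw [hN, hc0]
      ext i j
      fin_cases i <;> fin_cases j <;> simp
    have hy0 : y = 0 := by
      have : y * c = 0 := by linear_combination hXN
      exact (mul_eq_zero.1 this).resolve_right hc0
    subst hy0
    refine ⟨!![-((x - z / c) / 2), -x / c; 0, (x - z / c) / 2], ?_, ?_⟩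
    · rw [Matrix.trace_fin_two]; simp
    · rw [key, hN, hX0]
      simp only [Matrix.mul_fin_two]
      ext i j
      fin_cases i <;> fin_cases j <;> simp <;> field_simp <;> ring
  · have hc' : c = - (a * a) / b := by
      field_simp
      linear_combination -hd
    have hz' : z = - (2 * a * x + c * y) / b := by
      field_simp
      linear_combination hXN
    refine ⟨!![-((x - a * y / b + y / b) / 2), 0;
        ((x - a * y / b) + 2 * a * ((x - a * y / b + y / b) / 2)) / b,
        (x - a * y / b + y / b) / 2], ?_, ?_⟩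
    · rw [Matrix.trace_fin_two]; simp
    · rw [key, hN, hX0, hz', hc']
      simp only [Matrix.mul_fin_two]
      ext i j
      fin_cases i <;> fin_cases j <;> simp <;> field_simp <;> ring

end Fermat.Agent.S56.Lq
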