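/-
S56 block (Lq), ABSTRACT PART 4 (leaves L2-a, L2-b): at a prime `q ≠ p` where `r` is ramified and unipotent on inertia, a cocycle
`c : Γ → ad⁰ r` with `tr (c τ r τ) = 0` on inertia (first order version of `tr = 2`) is a coboundary on inertia.
-/
import Fermat.Agent.S56.Lq.AbsTame
import Fermat.Agent.S56.Lq.UnipMat
import Fermat.Agent.S56.C.Defs

set_option autoImplicit false

open Matrix

namespace Fermat.Agent.S56.Lq

open Fermat.Agent.PT Fermat.Agent.S56.C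
open Fermat.Agent.S53 (M2)

variable {p : ℕ} [Fact p.Prime] {Γ : Type*} [Group Γ]
variable {Λ : LevelSystem Γ} {I : Subgroup Γ} {χ : Γ →* (ZMod p)ˣ} {κ : Γ → ZMod p} {τ₀ : Γ}
variable {k : Type} [Field k] [CharP k p]

/-- **(L2-a)** the structure of `r` on inertia: `r τ = 1 + κ(τ) N₀`, `N₀ = r τ₀ - 1 ≠ 0` nilpotent.

Pick `τ₁ ∈ I` with `N₁ := r τ₁ - 1 ≠ 0`.  For `τ ∈ I`, `N := r τ - 1`: `tr N = det N = 0` (`trace_det_sub_one`) and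
`2 = tr (r (τ₁ τ)) = 2 + tr (N₁ N)`, so `N = b N₁` (`exists_eq_smul_of_nilp`).  Hence `(r σ - 1)(r τ - 1) = 0` (`nilp_sq`) and
`τ ↦ r τ - 1` is additive on `I`; it is `LC1`.  `IsTame.univ_vec` (with `letI : Algebra (ZMod p) k := ZMod.algebra k p`) gives
`r τ - 1 = κ τ • (r τ₀ - 1)`; finally `x • N = (x.val : k) • N` for `x : ZMod p`. -/
theorem unip_structure (h : IsTame Λ I χ κ τ₀) (r : Γ →* GL (Fin 2) k) (hr : Inh.LC1 Λ r)
    (hunip : ∀ τ ∈ I, ((r τ : GL (Fin 2) k) : M2 k).trace = 2 ∧ ((r τ : GL (Fin 2) k) : M2 k).det = 1)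
    (hram : ∃ τ ∈ I, r τ ≠ 1) :
    ((r τ₀ : GL (Fin 2) k) : M2 k) - 1 ≠ 0 ∧
      ∀ τ ∈ I, ((r τ : GL (Fin 2) k) : M2 k) =
        1 + ((κ τ).val : k) • (((r τ₀ : GL (Fin 2) k) : M2 k) - 1) := by
  letI : Algebra (ZMod p) k := ZMod.algebra k p
  obtain ⟨τ₁, hτ₁, hne₁⟩ := hram
  have hmul : ∀ σ τ : Γ, ((r (σ * τ) : GL (Fin 2) k) : M2 k)
      = ((r σ : GL (Fin 2) k) : M2 k) * ((r τ : GL (Fin 2) k) : M2 k) := by
    intro σ τ
    rw [map_mul, Units.val_mul]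
  have hN₁ : ((r τ₁ : GL (Fin 2) k) : M2 k) - 1 ≠ 0 := by
    intro h0
    apply hne₁
    apply Units.ext
    rw [Units.val_one]
    exact sub_eq_zero.1 h0
  have hnil : ∀ τ ∈ I, (((r τ : GL (Fin 2) k) : M2 k) - 1).trace = 0 ∧
      (((r τ : GL (Fin 2) k) : M2 k) - 1).det = 0 := fun τ hτ =>
    trace_det_sub_one (hunip τ hτ).1 (hunip τ hτ).2
  have htr1 : (1 : M2 k).trace = 2 := by
    rw [Matrix.trace_one, Fintype.card_fin]
    norm_num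
  have hprop : ∀ τ ∈ I, ∃ b : k, ((r τ : GL (Fin 2) k) : M2 k) - 1
      = b • (((r τ₁ : GL (Fin 2) k) : M2 k) - 1) := by
    intro τ hτ
    refine exists_eq_smul_of_nilp hN₁ (hnil τ₁ hτ₁).1 (hnil τ₁ hτ₁).2 (hnil τ hτ).1 (hnil τ hτ).2 ?_
    have e1 : (((r τ₁ : GL (Fin 2) k) : M2 k) - 1) * (((r τ : GL (Fin 2) k) : M2 k) - 1)
        = ((r (τ₁ * τ) : GL (Fin 2) k) : M2 k) - ((r τ₁ : GL (Fin 2) k) : M2 k)
          - ((r τ : GL (Fin 2) k) : M2 k) + 1 := by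
      rw [hmul]
      noncomm_ring
    rw [e1, Matrix.trace_add, Matrix.trace_sub, Matrix.trace_sub,
      (hunip _ (I.mul_mem hτ₁ hτ)).1, (hunip _ hτ₁).1, (hunip _ hτ).1, htr1]
    ring
  have hzero : ∀ σ ∈ I, ∀ τ ∈ I, (((r σ : GL (Fin 2) k) : M2 k) - 1) *
      (((r τ : GL (Fin 2) k) : M2 k) - 1) = 0 := by
    intro σ hσ τ hτ
    obtain ⟨b, hb⟩ := hprop σ hσ
    obtain ⟨b', hb'⟩ := hprop τ hτ
    rw [hb, hb', smul_mul_smul_comm, nilp_sq (hnil τ₁ hτ₁).1 (hnil τ₁ hτ₁).2, smul_zero]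
  have hadd : ∀ σ ∈ I, ∀ τ ∈ I, ((r (σ * τ) : GL (Fin 2) k) : M2 k) - 1
      = (((r σ : GL (Fin 2) k) : M2 k) - 1) + (((r τ : GL (Fin 2) k) : M2 k) - 1) := by
    intro σ hσ τ hτ
    have e1 : ((r (σ * τ) : GL (Fin 2) k) : M2 k) - 1
        = (((r σ : GL (Fin 2) k) : M2 k) - 1) + (((r τ : GL (Fin 2) k) : M2 k) - 1)
          + (((r σ : GL (Fin 2) k) : M2 k) - 1) * (((r τ : GL (Fin 2) k) : M2 k) - 1) := by
      rw [hmul]
      noncomm_ring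
    rw [e1, hzero σ hσ τ hτ, add_zero]
  have hLC : Inh.LC1 Λ (fun τ : Γ => ((r τ : GL (Fin 2) k) : M2 k) - 1) := by
    obtain ⟨U, hU, hUs⟩ := hr
    exact ⟨U, hU, fun g s hs => by
      show ((r (g * s) : GL (Fin 2) k) : M2 k) - 1 = ((r g : GL (Fin 2) k) : M2 k) - 1
      rw [hUs g s hs]⟩
  have huniv : ∀ τ ∈ I, ((r τ : GL (Fin 2) k) : M2 k) - 1
      = κ τ • (((r τ₀ : GL (Fin 2) k) : M2 k) - 1) := fun τ hτ =>
    h.univ_vec (fun τ : Γ => ((r τ : GL (Fin 2) k) : M2 k) - 1) hLC hadd hτ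
  have hsm : ∀ (x : ZMod p) (N : M2 k), x • N = ((x.val : ℕ) : k) • N := by
    intro x N
    ext i j
    rw [Matrix.smul_apply, Matrix.smul_apply, Algebra.smul_def, smul_eq_mul, ZMod.natCast_val]
    rfl
  refine ⟨fun h0 => hN₁ ?_, fun τ hτ => ?_⟩
  · rw [huniv τ₁ hτ₁, h0, smul_zero]
  · rw [← hsm, ← huniv τ hτ]
    abel

end Fermat.Agent.S56.Lq
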