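/-
S56 block (Lq), ABSTRACT PART 4 (leaves L2-a, L2-b): at a prime `q ≠ p` where `r` is ramified and unipotent on inertia, a cocycle
`c : Γ → ad⁰ r` with `tr (c τ r τ) = 0` on inertia (first order version of `tr = 2`) is a coboundary on inertia.
-/
import Fermat.Agent.S56.Lq.AbsUnip

set_option autoImplicit false

open Matrix

namespace Fermat.Agent.S56.Lq

open Fermat.Agent.PT Fermat.Agent.S56.C
open Fermat.Agent.S53 (M2)

variable {p : ℕ} [Fact p.Prime] {Γ : Type*} [Group Γ]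
variable {Λ : LevelSystem Γ} {I : Subgroup Γ} {χ : Γ →* (ZMod p)ˣ} {κ : Γ → ZMod p} {τ₀ : Γ}
variable {k : Type} [Field k] [CharP k p]

theorem AbsUnipCob_ad_one (X : M2 k) : ad (1 : GL (Fin 2) k) X = X := by simp [ad]

theorem AbsUnipCob_ad_mul (g h : GL (Fin 2) k) (X : M2 k) : ad (g * h) X = ad g (ad h X) := by
  simp only [ad, _root_.mul_inv_rev, Units.val_mul, Matrix.mul_assoc]

theorem AbsUnipCob_ad_sub (g : GL (Fin 2) k) (X Y : M2 k) : ad g (X - Y) = ad g X - ad g Y := by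
  simp only [ad, Matrix.mul_sub, Matrix.sub_mul]

theorem AbsUnipCob_ad_zero (g : GL (Fin 2) k) : ad g (0 : M2 k) = 0 := by simp [ad]

theorem AbsUnipCob_ad_eq {N : M2 k} (hN : N * N = 0) (g : GL (Fin 2) k) (x : k)
    (hg : (g : M2 k) = 1 + x • N) (Y : M2 k) : ad g Y = (1 + x • N) * Y * (1 - x • N) := by
  have hinv : ((g⁻¹ : GL (Fin 2) k) : M2 k) = 1 - x • N := by
    apply Units.inv_eq_of_mul_eq_one_right
    rw [hg]
    rw [add_mul, one_mul, mul_sub, mul_one, smul_mul_smul_comm, hN, smul_zero, sub_zero,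
      sub_add_cancel]
  rw [ad, hg, hinv]

/-- **(L2-b)**  With `N₀ = r τ₀ - 1`, `X₀ = c τ₀`: `tr X₀ = 0`, `tr (X₀ N₀) = tr (X₀ r τ₀) - tr X₀ = 0`.
1. `c (τ₀ ^ p) = ∑_{j<p} ad (r τ₀ ^ j) X₀ = ∑_j (1 + j N₀) X₀ (1 - j N₀) = 0` (`sum_conj_eq_zero`; `(1 + j N₀)⁻¹ = 1 - j N₀`).
2. On `I₁ = {τ ∈ I | κ τ = 0}`: `r τ = 1`, so `c` is additive there; `IsTame.step_vec` gives `c = 0` on `I₁`.
3. `exists_conj_sub_eq` gives `X` with `tr X = 0`, `ad (r τ₀) X - X = X₀`.  `c' τ := c τ - (ad (r τ) X - X)` satisfies the cocycle relation,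
   `c' τ₀ = 0`, `c' = 0` on `I₁`; so `c' (τ₀ ^ j) = 0` and `c' (τ₀ ^ j τ') = 0` (`IsTame.exists_eq_pow_mul`). -/
theorem unip_cob (hp2 : p ≠ 2) (h : IsTame Λ I χ κ τ₀) (r : Γ →* GL (Fin 2) k) (hr : Inh.LC1 Λ r)
    (hunip : ∀ τ ∈ I, ((r τ : GL (Fin 2) k) : M2 k).trace = 2 ∧ ((r τ : GL (Fin 2) k) : M2 k).det = 1)
    (hram : ∃ τ ∈ I, r τ ≠ 1) (c : Γ → M2 k) (hc : ∀ g h, c (g * h) = c g + ad (r g) (c h))
    (hs : Inh.LC1 Λ c) (htr : ∀ g, (c g).trace = 0)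
    (hu : ∀ τ ∈ I, (c τ * ((r τ : GL (Fin 2) k) : M2 k)).trace = 0) :
    ∃ X : M2 k, X.trace = 0 ∧ ∀ τ ∈ I, c τ = ad (r τ) X - X := by
  classical
  have hp : p.Prime := Fact.out
  have h2 : (2 : k) ≠ 0 := by
    intro h0
    have h1 : ((2 : ℕ) : k) = 0 := by exact_mod_cast h0
    rw [CharP.cast_eq_zero_iff k p] at h1
    exact hp2 ((Nat.prime_dvd_prime_iff_eq hp Nat.prime_two).1 h1)
  obtain ⟨hN0, hstr⟩ := unip_structure h r hr hunip hram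
  obtain ⟨htN, hdN⟩ := trace_det_sub_one (hunip τ₀ h.mem).1 (hunip τ₀ h.mem).2
  obtain ⟨N₀, hN₀⟩ : ∃ N₀ : M2 k, N₀ = ((r τ₀ : GL (Fin 2) k) : M2 k) - 1 := ⟨_, rfl⟩
  rw [← hN₀] at hN0 htN hdN
  simp only [← hN₀] at hstr
  have hNN : N₀ * N₀ = 0 := nilp_sq htN hdN
  have had : ∀ τ ∈ I, ∀ Y, ad (r τ) Y =
      (1 + ((κ τ).val : k) • N₀) * Y * (1 - ((κ τ).val : k) • N₀) :=
    fun τ hτ Y => AbsUnipCob_ad_eq hNN (r τ) _ (hstr τ hτ) Y
  have hX0N : (c τ₀ * N₀).trace = 0 := by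
    rw [hN₀, mul_sub, mul_one, trace_sub, hu τ₀ h.mem, htr, sub_zero]
  have hc1 : c 1 = 0 := by
    have h1 := hc 1 1
    rw [mul_one, map_one, AbsUnipCob_ad_one] at h1
    exact left_eq_add.mp h1
  have hval : ∀ j : ℕ, (((κ (τ₀ ^ j)).val : ℕ) : k) = (j : k) := by
    intro j
    rw [h.kap_pow, ZMod.val_natCast, ← CharP.cast_eq_mod]
  -- Step 1
  have hpow : ∀ j : ℕ, c (τ₀ ^ j) =
      ∑ i ∈ Finset.range j, (1 + (i : k) • N₀) * c τ₀ * (1 - (i : k) • N₀) := by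
    intro j
    induction j with
    | zero => simp [hc1]
    | succ j ih =>
      rw [pow_succ, hc, ih, Finset.sum_range_succ, had _ (I.pow_mem h.mem j), hval]
  have hcp : c (τ₀ ^ p) = 0 := by
    rw [hpow]
    exact sum_conj_eq_zero hp hp2 htN hdN hX0N
  -- Step 2
  let _ : Algebra (ZMod p) k := ZMod.algebra k p
  have hr1 : ∀ τ ∈ I, κ τ = 0 → r τ = 1 := by
    intro τ hτ hκ
    apply Units.ext
    rw [hstr τ hτ, hκ]
    simp
  have hI1 : ∀ τ ∈ I, κ τ = 0 → c τ = 0 := fun τ hτ hκ =>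
    h.step_vec c hs (fun σ hσ τ _ h1 _ => by rw [hc, hr1 σ hσ h1, AbsUnipCob_ad_one]) hcp hτ hκ
  -- Step 3
  obtain ⟨X, hXtr, hX⟩ := exists_conj_sub_eq h2 hN0 htN hdN (htr τ₀) hX0N
  refine ⟨X, hXtr, ?_⟩
  obtain ⟨c', hc'⟩ : ∃ c' : Γ → M2 k, ∀ g, c' g = c g - (ad (r g) X - X) := ⟨_, fun _ => rfl⟩
  have hcoc : ∀ g g', c' (g * g') = c' g + ad (r g) (c' g') := by
    intro g g'
    simp only [hc', hc, map_mul, AbsUnipCob_ad_mul, AbsUnipCob_ad_sub]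
    abel
  have h0 : c' τ₀ = 0 := by
    have h1 : ad (r τ₀) X = (1 + N₀) * X * (1 - N₀) := by
      have h3 := AbsUnipCob_ad_eq hNN (r τ₀) 1 (by rw [one_smul, hN₀]; abel) X
      simpa using h3
    rw [hc', h1, hX, sub_self]
  have hpow' : ∀ j : ℕ, c' (τ₀ ^ j) = 0 := by
    intro j
    induction j with
    | zero =>
      rw [pow_zero, hc', hc1, map_one, AbsUnipCob_ad_one]
      simp
    | succ j ih => rw [pow_succ, hcoc, ih, h0, AbsUnipCob_ad_zero, add_zero]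
  intro τ hτ
  obtain ⟨τ', hτ', hκ', heq⟩ := h.exists_eq_pow_mul hτ
  have h3 : c' τ' = 0 := by
    rw [hc', hI1 τ' hτ' hκ', hr1 τ' hτ' hκ', AbsUnipCob_ad_one]
    simp
  have h4 : c' τ = 0 := by
    rw [heq, hcoc, hpow', h3, AbsUnipCob_ad_zero, add_zero]
  rw [hc', sub_eq_zero] at h4
  exact h4

end Fermat.Agent.S56.Lq
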