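/-
S56 block (Lq), ABSTRACT PART 1 (leaf U-b).  See `AbsUr.lean` for the set-up.
-/
import Fermat.Agent.S56.Lq.AbsUr

set_option autoImplicit false

namespace Fermat.Agent.S56.Lq

open Fermat.Agent.PT

variable {p : ℕ} [Fact p.Prime] {Γ A : Type*} [Group Γ] [AddCommGroup A] [Module (ZMod p) A]
variable {Λ : LevelSystem Γ} {I : Subgroup Γ} {ρ : Representation (ZMod p) Γ A}

/-! ### leaf U-b : existence of unramified cocycles -/

theorem AbsUrEx_exists_level [Finite A] (hρ : IsSmoothRep Λ ρ) :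
    ∃ U ∈ Λ, ∀ u ∈ U, ∀ b : A, ρ u b = b := by
  classical
  have : Fintype A := Fintype.ofFinite A
  have key : ∀ s : Finset A, ∃ U ∈ Λ, ∀ u ∈ U, ∀ b ∈ s, ρ u b = b := by
    intro s
    induction s using Finset.induction_on with
    | empty =>
      obtain ⟨U, hU⟩ := Λ.nonempty'
      exact ⟨U, hU, fun _ _ b hb => absurd hb (Finset.notMem_empty b)⟩
    | insert x s hx ih =>
      obtain ⟨U, hU, h1⟩ := ih
      obtain ⟨U', hU', h2⟩ := hρ x
      obtain ⟨W, hW, hWU, hWU'⟩ := Λ.directed' U hU U' hU'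
      refine ⟨W, hW, fun u hu b hb => ?_⟩
      rcases Finset.mem_insert.1 hb with rfl | hb
      · exact h2 u (hWU' hu)
      · exact h1 u (hWU hu) b hb
  obtain ⟨U, hU, h⟩ := key Finset.univ
  exact ⟨U, hU, fun u hu b => h u hu b (Finset.mem_univ b)⟩

/-- `N x = ∑_{i < x} T^i a`. -/
def AbsUrEx_N (T : Module.End (ZMod p) A) (a : A) (x : ℕ) : A :=
  ∑ i ∈ Finset.range x, (T ^ i) a

theorem AbsUrEx_N_add (T : Module.End (ZMod p) A) (a : A) (x y : ℕ) :
    AbsUrEx_N T a (x + y) = AbsUrEx_N T a x + (T ^ x) (AbsUrEx_N T a y) := by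
  unfold AbsUrEx_N
  rw [Finset.sum_range_add, map_sum]
  congr 1
  refine Finset.sum_congr rfl fun i _ => ?_
  rw [pow_add]
  rfl

theorem AbsUrEx_N_mul (T : Module.End (ZMod p) A) (a : A) {n : ℕ} (hT : T ^ n = 1) (j : ℕ) :
    AbsUrEx_N T a (n * j) = j • AbsUrEx_N T a n := by
  induction j with
  | zero => simp [AbsUrEx_N]
  | succ j ih =>
    rw [Nat.mul_succ, AbsUrEx_N_add, ih, pow_mul, hT, one_pow, succ_nsmul]
    rfl

theorem AbsUrEx_N_mod (T : Module.End (ZMod p) A) (a : A) {n : ℕ} (hT : T ^ n = 1) (x : ℕ) :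
    AbsUrEx_N T a (x % (n * p)) = AbsUrEx_N T a x := by
  conv_rhs => rw [← Nat.div_add_mod x (n * p)]
  rw [AbsUrEx_N_add, mul_assoc, AbsUrEx_N_mul T a hT, pow_mul, hT, one_pow,
    ← Nat.cast_smul_eq_nsmul (ZMod p), Nat.cast_mul, ZMod.natCast_self, zero_mul, zero_smul,
    zero_add]
  rfl

/-- Let `n > 0` with `ρ φ ^ n = 1` (`A` is finite), `m = n * p`, `t : Γ → ZMod m` the unramified character (`cyc`).
Put `c d = ∑ i ∈ range (t d).val, (ρ φ ^ i) a`.  For `a' ∈ A^I`: `ρ d a' = (ρ φ) ^ (t d).val a'` (write `d = φ^j τ u` with `u` in a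
level fixing `A` pointwise on which `t` vanishes; `t d = j`; `ρ φ ^ j` only depends on `j mod n`).  With
`N x = ∑ i ∈ range x, (ρ φ)^i a`: `N (x + y) = N x + (ρ φ)^x (N y)` and `N m = p • N n = 0`, so `c` is a cocycle. -/
theorem exists_ZnrI [Finite A] {φ : Γ} (h : IsFrobGen Λ I φ) (hρ : IsSmoothRep Λ ρ) {a : A}
    (ha : a ∈ invOf I ρ) : ∃ c ∈ ZnrI Λ I ρ, (c : Γ → A) φ = a := by
  classical
  have hp : p.Prime := Fact.out
  obtain ⟨U, hU, hUA⟩ := AbsUrEx_exists_level (Λ := Λ) (ρ := ρ) hρ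
  have hUn : U.Normal := Λ.normal' U hU
  have hUf : U.FiniteIndex := Λ.finiteIndex' U hU
  set n : ℕ := U.index with hn
  have hn0 : 0 < n := Nat.pos_of_ne_zero hUf.index_ne_zero
  set T : Module.End (ZMod p) A := ρ φ with hT
  have hTpow : ∀ j : ℕ, T ^ j = ρ (φ ^ j) := fun j => (map_pow ρ φ j).symm
  have hTn : T ^ n = 1 := by
    rw [hTpow]
    ext b
    exact hUA _ (Subgroup.pow_index_mem U φ) b
  have hm0 : 0 < n * p := Nat.mul_pos hn0 hp.pos
  have hm1 : 1 < n * p := lt_of_lt_of_le hp.one_lt (Nat.le_mul_of_pos_left p hn0)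
  have : NeZero (n * p) := ⟨hm0.ne'⟩
  have : Fact (1 < n * p) := ⟨hm1⟩
  have hTm : T ^ (n * p) = 1 := by rw [pow_mul, hTn, one_pow]
  obtain ⟨t, ⟨Ut, hUt, htlc⟩, htadd, htI, htφ⟩ := h.cyc (n * p) hm0
  have ht1 : t 1 = 0 := by
    have := htadd 1 1
    rw [mul_one] at this
    exact left_eq_add.mp this
  have htU : ∀ s ∈ Ut, t s = 0 := by
    intro s hs
    have := htlc 1 s hs
    rwa [one_mul, ht1] at this
  have htpow : ∀ j : ℕ, t (φ ^ j) = (j : ZMod (n * p)) := by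
    intro j
    induction j with
    | zero => simpa using ht1
    | succ j ih => rw [pow_succ, htadd, ih, htφ, Nat.cast_succ]
  -- `T` preserves the `I`-invariants
  have hTinv : ∀ b ∈ invOf I ρ, T b ∈ invOf I ρ := by
    intro b hb τ hτ
    have h1 : τ * φ = φ * (φ⁻¹ * τ * φ) := by group
    have h2 : φ⁻¹ * τ * φ ∈ I := by
      have := h.normal.conj_mem τ hτ φ⁻¹
      simpa using this
    rw [hT, ← Module.End.mul_apply, ← map_mul, h1, map_mul, Module.End.mul_apply, hb _ h2]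
  have hTpowinv : ∀ (j : ℕ), ∀ b ∈ invOf I ρ, (T ^ j) b ∈ invOf I ρ := by
    intro j
    induction j with
    | zero => intro b hb; simpa using hb
    | succ j ih =>
      intro b hb
      rw [pow_succ', Module.End.mul_apply]
      exact hTinv _ (ih b hb)
  have hNinv : ∀ x : ℕ, AbsUrEx_N T a x ∈ invOf I ρ := fun x =>
    Submodule.sum_mem _ fun i _ => hTpowinv i a ha
  -- the action on the invariants
  have hact : ∀ (d : Γ), ∀ b ∈ invOf I ρ, ρ d b = (T ^ (t d).val) b := by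
    intro d b hb
    obtain ⟨W, hW, hWU, hWUt⟩ := Λ.directed' U hU Ut hUt
    obtain ⟨j, τ, hτ, u, hu, rfl⟩ := h.gen W hW d
    have h1 : t (φ ^ j * τ * u) = (j : ZMod (n * p)) := by
      rw [htadd, htadd, htpow, htI τ hτ, htU u (hWUt hu), add_zero, add_zero]
    rw [h1, ZMod.val_natCast, ← pow_eq_pow_mod j hTm, map_mul, map_mul, Module.End.mul_apply,
      Module.End.mul_apply, hUA u (hWU hu), hb τ hτ, hTpow]
  refine ⟨⟨fun d => AbsUrEx_N T a (t d).val, Inh.mem_Z1.2 ⟨⟨Ut, hUt, fun g s hs => ?_⟩,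
    fun g g' => ?_⟩⟩, fun τ hτ => ?_, ?_⟩
  · show AbsUrEx_N T a (t (g * s)).val = AbsUrEx_N T a (t g).val
    rw [htlc g s hs]
  · show AbsUrEx_N T a (t (g * g')).val
      = ρ g (AbsUrEx_N T a (t g').val) + AbsUrEx_N T a (t g).val
    rw [htadd, ZMod.val_add, AbsUrEx_N_mod T a hTn, AbsUrEx_N_add, hact g _ (hNinv _), add_comm]
  · show AbsUrEx_N T a (t τ).val = 0
    rw [htI τ hτ, ZMod.val_zero]
    rfl
  · show AbsUrEx_N T a (t φ).val = a
    rw [htφ, ZMod.val_one]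
    simp [AbsUrEx_N]

end Fermat.Agent.S56.Lq
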