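/-
S56 block (Lq), ABSTRACT PART 1 (leaf U-c).  See `AbsUr.lean` for the set-up.
-/
import Fermat.Agent.S56.Lq.AbsUrEx

set_option autoImplicit false

namespace Fermat.Agent.S56.Lq

open Fermat.Agent.PT

variable {p : ℕ} [Fact p.Prime] {Γ A : Type*} [Group Γ] [AddCommGroup A] [Module (ZMod p) A]
variable {Λ : LevelSystem Γ} {I : Subgroup Γ} {ρ : Representation (ZMod p) Γ A}

/-! ### leaf U-c : the dimension -/

theorem AbsUrDim_d01_mem (hρ : IsSmoothRep Λ ρ) (a : A) : Inh.d01 ρ a ∈ Inh.Z1 Λ ρ := by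
  rw [Inh.mem_Z1]
  obtain ⟨U, hU, hUa⟩ := hρ a
  refine ⟨⟨U, hU, fun g s hs => ?_⟩, fun g h => ?_⟩
  · rw [Inh.d01_apply, Inh.d01_apply, map_mul, Module.End.mul_apply, hUa s hs]
  · rw [Inh.d01_apply, Inh.d01_apply, Inh.d01_apply, map_mul, Module.End.mul_apply, map_sub]
    abel

/-- evaluation at `φ`. -/
def AbsUrDim_ev (hn : I.Normal) (φ : Γ) : ZnrI Λ I ρ →ₗ[ZMod p] invOf I ρ where
  toFun c := ⟨(c.1 : Γ → A) φ, ZnrI_apply_mem hn c.2 φ⟩
  map_add' _ _ := rfl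
  map_smul' _ _ := rfl

/-- the class of a cocycle vanishing on `I`. -/
def AbsUrDim_pi : ZnrI Λ I ρ →ₗ[ZMod p] LurI Λ I ρ where
  toFun c := ⟨Inh.H1mk Λ ρ c.1, (mk_mem_LurI_iff c.1).2 ⟨0, fun τ hτ => by
    rw [c.2 τ hτ, map_zero, sub_zero]⟩⟩
  map_add' _ _ := rfl
  map_smul' _ _ := rfl

/-- `ρ φ - 1` on `A^I`. -/
def AbsUrDim_T (hn : I.Normal) (φ : Γ) : invOf I ρ →ₗ[ZMod p] invOf I ρ where
  toFun a := ⟨ρ φ a.1 - a.1, fun τ hτ => by
    have h1 : φ⁻¹ * τ * φ ∈ I := by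
      have := hn.conj_mem τ hτ φ⁻¹
      rwa [inv_inv] at this
    have h2 : τ * φ = φ * (φ⁻¹ * τ * φ) := by group
    rw [map_sub, a.2 τ hτ, ← Module.End.mul_apply, ← map_mul, h2, map_mul, Module.End.mul_apply,
      a.2 _ h1]⟩
  map_add' a b := by
    apply Subtype.ext
    show ρ φ (a.1 + b.1) - (a.1 + b.1) = (ρ φ a.1 - a.1) + (ρ φ b.1 - b.1)
    rw [map_add]
    abel
  map_smul' x a := by
    apply Subtype.ext
    show ρ φ (x • a.1) - x • a.1 = x • (ρ φ a.1 - a.1)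
    rw [map_smul, smul_sub]

/-- **`dim LurI = dim H⁰`.**  `ev : ZnrI → A^I`, `c ↦ c φ` is a linear bijection (`ZnrI_apply_mem`, `ZnrI_eq_zero`,
`exists_ZnrI`); `ZnrI → LurI` is onto (`exists_ZnrI_of_mem_LurI`) with kernel `ZnrI ∩ B1 = {d01 ρ a | a ∈ A^I}`, which `ev` maps onto
`(ρ φ - 1) A^I`.  So `dim LurI = dim A^I - dim (ρ φ - 1) A^I = dim ker (ρ φ - 1 | A^I) = dim A^Γ` (`mem_invOf_top_iff`,
rank-nullity for the endomorphism `ρ φ - 1` of `A^I`; `ρ φ` preserves `A^I` since `I` is normal). -/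
theorem finrank_LurI [Module.Finite (ZMod p) A] {φ : Γ} (h : IsFrobGen Λ I φ)
    (hρ : IsSmoothRep Λ ρ) :
    Module.Finite (ZMod p) (LurI Λ I ρ) ∧
      Module.finrank (ZMod p) (LurI Λ I ρ) = Module.finrank (ZMod p) (invOf (⊤ : Subgroup Γ) ρ) := by
  have hfinA : Finite A := Module.finite_of_finite (ZMod p)
  have hn := h.normal
  have hevbij : Function.Bijective (AbsUrDim_ev (Λ := Λ) (ρ := ρ) hn φ) := by
    constructor
    · rw [injective_iff_map_eq_zero]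
      intro c hc
      apply Subtype.ext
      exact ZnrI_eq_zero h c.2 (congrArg Subtype.val hc)
    · intro a
      obtain ⟨c, hc, hca⟩ := exists_ZnrI h hρ a.2
      exact ⟨⟨c, hc⟩, Subtype.ext hca⟩
  set evE := LinearEquiv.ofBijective (AbsUrDim_ev (Λ := Λ) (ρ := ρ) hn φ) hevbij with hevE
  set Ψ : invOf I ρ →ₗ[ZMod p] LurI Λ I ρ :=
    (AbsUrDim_pi (Λ := Λ) (I := I) (ρ := ρ)).comp evE.symm.toLinearMap with hΨ
  set T := AbsUrDim_T (ρ := ρ) hn φ with hT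
  have hsurj : Function.Surjective Ψ := by
    intro x
    obtain ⟨c, hc, hcx⟩ := exists_ZnrI_of_mem_LurI hρ x.2
    refine ⟨evE ⟨c, hc⟩, ?_⟩
    rw [hΨ, LinearMap.comp_apply, LinearEquiv.coe_coe, LinearEquiv.symm_apply_apply]
    exact Subtype.ext hcx
  have hker : LinearMap.ker Ψ = LinearMap.range T := by
    ext a
    rw [LinearMap.mem_ker, LinearMap.mem_range]
    constructor
    · intro ha
      set c := evE.symm a with hc
      have h1 : Inh.H1mk Λ ρ c.1 = 0 := congrArg Subtype.val ha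
      rw [Inh.H1mk_eq_zero_iff, Inh.mem_B1] at h1
      obtain ⟨b, hb⟩ := h1
      have hbI : b ∈ invOf I ρ := by
        intro τ hτ
        have h2 := hb τ
        rw [c.2 τ hτ] at h2
        exact (sub_eq_zero.1 h2.symm)
      refine ⟨⟨b, hbI⟩, ?_⟩
      have h3 : evE c = a := evE.apply_symm_apply a
      rw [← h3]
      apply Subtype.ext
      exact (hb φ).symm
    · rintro ⟨b, rfl⟩
      have hvan : (⟨Inh.d01 ρ b.1, AbsUrDim_d01_mem hρ b.1⟩ : Inh.Z1 Λ ρ) ∈ ZnrI Λ I ρ := by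
        intro τ hτ
        show ρ τ b.1 - b.1 = 0
        rw [b.2 τ hτ, sub_self]
      have h1 : evE.symm (T b) = ⟨⟨Inh.d01 ρ b.1, AbsUrDim_d01_mem hρ b.1⟩, hvan⟩ := by
        rw [LinearEquiv.symm_apply_eq]
        rfl
      rw [hΨ, LinearMap.comp_apply, LinearEquiv.coe_coe, h1]
      apply Subtype.ext
      show Inh.H1mk Λ ρ ⟨Inh.d01 ρ b.1, AbsUrDim_d01_mem hρ b.1⟩ = 0
      rw [Inh.H1mk_eq_zero_iff, Inh.mem_B1]
      exact ⟨b.1, fun g => rfl⟩
  have hfin : Module.Finite (ZMod p) (LurI Λ I ρ) := Module.Finite.of_surjective Ψ hsurj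
  refine ⟨hfin, ?_⟩
  have h1 := LinearMap.finrank_range_add_finrank_ker Ψ
  have h2 := LinearMap.finrank_range_add_finrank_ker T
  rw [LinearMap.range_eq_top.2 hsurj, finrank_top, hker] at h1
  have h3 : Module.finrank (ZMod p) (LinearMap.ker T) =
      Module.finrank (ZMod p) (invOf (⊤ : Subgroup Γ) ρ) := by
    have hmap : (LinearMap.ker T).map (invOf I ρ).subtype = invOf (⊤ : Subgroup Γ) ρ := by
      ext a
      rw [mem_invOf_top_iff h hρ, Submodule.mem_map]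
      constructor
      · rintro ⟨b, hb, rfl⟩
        refine ⟨b.2, ?_⟩
        have h4 : ρ φ b.1 - b.1 = 0 := congrArg Subtype.val (LinearMap.mem_ker.1 hb)
        exact sub_eq_zero.1 h4
      · rintro ⟨haI, haφ⟩
        refine ⟨⟨a, haI⟩, ?_, rfl⟩
        rw [LinearMap.mem_ker]
        apply Subtype.ext
        show ρ φ a - a = 0
        rw [haφ, sub_self]
    rw [← Submodule.finrank_map_subtype_eq (invOf I ρ) (LinearMap.ker T), hmap]
  omega

end Fermat.Agent.S56.Lq
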