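/-
S56 block (Lq), ABSTRACT PART 2 (leaf L1-abs): `H¹(Γ, A) / LurI ≅ H⁰(Γ, A(-1))` for an UNRAMIFIED module `A`, `v ∤ p`.
-/
import Fermat.Agent.S56.Lq.AbsTame
import Fermat.Agent.S56.Lq.AbsUrDim

set_option autoImplicit false

namespace Fermat.Agent.S56.Lq

open Fermat.Agent.PT

variable {p : ℕ} [Fact p.Prime] {Γ A : Type*} [Group Γ] [AddCommGroup A] [Module (ZMod p) A]
variable {Λ : LevelSystem Γ} {I : Subgroup Γ} {χ : Γ →* (ZMod p)ˣ} {κ : Γ → ZMod p} {τ₀ : Γ}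
  {ρ : Representation (ZMod p) Γ A}

private theorem AbsL1_kap (h : IsTame Λ I χ κ τ₀) (hI : ∀ τ ∈ I, ρ τ = 1) (c : Inh.Z1 Λ ρ) {τ : Γ}
    (hτ : τ ∈ I) : (c : Γ → A) τ = κ τ • (c : Γ → A) τ₀ := by
  obtain ⟨hLC, hZ⟩ := Inh.mem_Z1.1 c.2
  refine h.univ_vec (c : Γ → A) hLC (fun σ hσ τ _ => ?_) hτ
  rw [hZ, hI σ hσ, Module.End.one_apply, add_comm]

/-- for a cocycle `c` and `I` acting trivially: `c (d τ d⁻¹) = ρ d (c τ)`, `c` is additive on `I`, so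
`c τ = κ τ • c τ₀` (`univ_vec`) and `ρ d (c τ₀) = c (d τ₀ d⁻¹) = κ (d τ₀ d⁻¹) • c τ₀ = χ d • c τ₀` (`conj`). -/
theorem apply_tau_mem_eigOf (h : IsTame Λ I χ κ τ₀) (hn : I.Normal) (hI : ∀ τ ∈ I, ρ τ = 1)
    (c : Inh.Z1 Λ ρ) : (c : Γ → A) τ₀ ∈ eigOf χ ρ := by
  intro d
  obtain ⟨-, hZ⟩ := Inh.mem_Z1.1 c.2
  have h1 : (c : Γ → A) 1 = 0 := by
    have := hZ 1 1
    rw [mul_one, map_one, Module.End.one_apply] at this
    exact left_eq_add.1 this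
  have h2 : ρ d ((c : Γ → A) d⁻¹) + (c : Γ → A) d = 0 := by
    rw [← hZ, mul_inv_cancel, h1]
  have h3 : (c : Γ → A) (d * τ₀ * d⁻¹) = ρ d ((c : Γ → A) τ₀) := by
    rw [hZ, hZ d τ₀, map_mul, hI τ₀ h.mem, mul_one, add_comm (ρ d ((c : Γ → A) τ₀)), ← add_assoc,
      h2, zero_add]
  rw [← h3, AbsL1_kap h hI c (hn.conj_mem τ₀ h.mem d), h.conj d h.mem, h.one, mul_one]

theorem apply_eq_kap_smul (h : IsTame Λ I χ κ τ₀) (hI : ∀ τ ∈ I, ρ τ = 1) (c : Inh.Z1 Λ ρ) {τ : Γ}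
    (hτ : τ ∈ I) : (c : Γ → A) τ = κ τ • (c : Γ → A) τ₀ :=
  AbsL1_kap h hI c hτ

/-- the ramified cocycle `d ↦ κ d • a`, `a ∈ eigOf χ ρ`. -/
theorem kap_smul_mem_Z1 (h : IsTame Λ I χ κ τ₀) {a : A} (ha : a ∈ eigOf χ ρ) :
    (fun d => κ d • a) ∈ Inh.Z1 Λ ρ := by
  rw [Inh.mem_Z1]
  obtain ⟨U, hU, hκ⟩ := h.smooth
  refine ⟨⟨U, hU, fun g s hs => ?_⟩, fun g g' => ?_⟩
  · show κ (g * s) • a = κ g • a
    rw [hκ g s hs]
  · show κ (g * g') • a = ρ g (κ g' • a) + κ g • a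
    rw [h.coc, map_smul, ha g, add_smul, smul_smul, mul_comm, add_comm]

/-- **(L1-abs)**  The linear map `Z¹ → eigOf χ ρ`, `c ↦ c τ₀` has kernel `{c | c = 0 on I}` whose image in `H¹` is `LurI`
(`I` acts trivially, so coboundaries vanish on `I` and `ZurI = ZnrI`).  Hence `H¹ / LurI ↪ eigOf χ ρ`. -/
theorem finrank_quot_LurI_le [Module.Finite (ZMod p) A] (h : IsTame Λ I χ κ τ₀) (hn : I.Normal)
    (hI : ∀ τ ∈ I, ρ τ = 1) :
    Module.Finite (ZMod p) (Inh.H1 Λ ρ ⧸ LurI Λ I ρ) ∧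
      Module.finrank (ZMod p) (Inh.H1 Λ ρ ⧸ LurI Λ I ρ) ≤ Module.finrank (ZMod p) (eigOf χ ρ) := by
  -- evaluation at `τ₀`
  let ev : Inh.Z1 Λ ρ →ₗ[ZMod p] eigOf χ ρ :=
    { toFun := fun c => ⟨(c : Γ → A) τ₀, apply_tau_mem_eigOf h hn hI c⟩
      map_add' := fun c c' => rfl
      map_smul' := fun x c => rfl }
  have hB : (Inh.B1 ρ).comap (Inh.Z1 Λ ρ).subtype ≤ LinearMap.ker ev := by
    intro c hc
    obtain ⟨a, ha⟩ := Inh.mem_B1.1 (show (c : Γ → A) ∈ Inh.B1 ρ from hc)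
    rw [LinearMap.mem_ker]
    apply Subtype.ext
    show (c : Γ → A) τ₀ = 0
    rw [ha, hI τ₀ h.mem, Module.End.one_apply, sub_self]
  let f : Inh.H1 Λ ρ →ₗ[ZMod p] eigOf χ ρ := Submodule.liftQ _ ev hB
  have hf : ∀ c : Inh.Z1 Λ ρ, f (Inh.H1mk Λ ρ c) = ev c := fun c => Submodule.liftQ_apply _ _ _
  have hker : LinearMap.ker f = LurI Λ I ρ := by
    ext x
    obtain ⟨c, rfl⟩ := Inh.H1mk_surjective x
    rw [LinearMap.mem_ker, hf, mk_mem_LurI_iff]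
    constructor
    · intro h0
      have h0' : (c : Γ → A) τ₀ = 0 := congrArg Subtype.val h0
      refine ⟨0, fun τ hτ => ?_⟩
      rw [AbsL1_kap h hI c hτ, h0', smul_zero, map_zero, sub_zero]
    · rintro ⟨a, ha⟩
      apply Subtype.ext
      show (c : Γ → A) τ₀ = 0
      rw [ha τ₀ h.mem, hI τ₀ h.mem, Module.End.one_apply, sub_self]
  let g : (Inh.H1 Λ ρ ⧸ LurI Λ I ρ) →ₗ[ZMod p] eigOf χ ρ :=
    Submodule.liftQ _ f hker.ge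
  have hg : Function.Injective g := by
    rw [← LinearMap.ker_eq_bot, Submodule.ker_liftQ, hker, Submodule.mkQ_map_self]
  exact ⟨Module.Finite.of_injective g hg, LinearMap.finrank_le_finrank_of_injective hg⟩

/-- **(L1-abs')**  `h¹ ≤ h⁰(A) + h⁰(A(-1))`  (`finrank_LurI`, `finrank_quot_LurI_le`,
`Submodule.finrank_quotient_add_finrank`, `Module.Finite.of_submodule_quotient`). -/
theorem finrank_H1_le [Module.Finite (ZMod p) A] {φ : Γ} (hF : IsFrobGen Λ I φ)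
    (h : IsTame Λ I χ κ τ₀) (hρ : IsSmoothRep Λ ρ) (hI : ∀ τ ∈ I, ρ τ = 1) :
    Module.Finite (ZMod p) (Inh.H1 Λ ρ) ∧
      Module.finrank (ZMod p) (Inh.H1 Λ ρ) ≤
        Module.finrank (ZMod p) (invOf (⊤ : Subgroup Γ) ρ) + Module.finrank (ZMod p) (eigOf χ ρ) := by
  obtain ⟨hfin1, hrk1⟩ := finrank_LurI (I := I) hF hρ
  obtain ⟨hfin2, hrk2⟩ := finrank_quot_LurI_le h hF.normal hI
  have hfin : Module.Finite (ZMod p) (Inh.H1 Λ ρ) := Module.Finite.of_submodule_quotient (LurI Λ I ρ)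
  refine ⟨hfin, ?_⟩
  rw [← Submodule.finrank_quotient_add_finrank (LurI Λ I ρ), hrk1, add_comm]
  exact Nat.add_le_add_left hrk2 _

end Fermat.Agent.S56.Lq
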