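/-
S56 block (Lq), arithmetic part, leaf A-frob: a decomposition group is topologically generated by inertia and a Frobenius, `D / I ≅ \hat ℤ`.
-/
import Fermat.Agent.S56.Lq.AbsUr
import Fermat.Agent.S36R.K0.BlockL
import Fermat.Agent.PT.Gal.Setup

set_option autoImplicit false

namespace Fermat.Agent.S56.Lq

open Fermat.Agent.PT
open Fermat.Agent.PT.Local (Qb Plc li lg lf IsUnif Fld unr)
open Fermat.Agent.S36R.K0L (li_bot lg_bot)

theorem FrobGenQ_exists_normal (F : Fld) (hF : FiniteDimensional ℚ F) :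
    ∃ F' : Fld, F ≤ F' ∧ FiniteDimensional ℚ F' ∧ F'.fixingSubgroup.Normal := by
  have := hF
  refine ⟨_, F.le_normalClosure, normalClosure.is_finiteDimensional _ _ _, ?_⟩
  have := IsGalois.normalClosure ℚ F (AlgebraicClosure ℚ)
  exact IsGalois.fixingSubgroup_normal_of_isGalois _

/-- integral powers of the generator of a cyclic quotient. -/
theorem FrobGenQ_zpow_mem_iff {m : ℕ} {V V' : Subgroup GQ} {σ : GQ} (h : Local.IsCyc m V V' σ)
    (n : ℤ) : σ ^ n ∈ V' ↔ (m : ℤ) ∣ n := by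
  obtain ⟨k, rfl | rfl⟩ := n.eq_nat_or_neg
  · rw [zpow_natCast, h.pow_mem_iff, Int.natCast_dvd_natCast]
  · rw [zpow_neg, zpow_natCast, inv_mem_iff, h.pow_mem_iff, dvd_neg, Int.natCast_dvd_natCast]

/-- the character `V → V / V' = ℤ / m` of a cyclic quotient. -/
theorem FrobGenQ_exists_char {m : ℕ} {V V' : Subgroup GQ} {σ : GQ} (h : Local.IsCyc m V V' σ) :
    ∃ t : V → ZMod m, (∀ d e, t (d * e) = t d + t e) ∧ (∀ d : V, (d : GQ) ∈ V' → t d = 0) ∧
      t ⟨σ, h.mem⟩ = 1 := by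
  classical
  let t : V → ZMod m := fun d => (((h.gen d d.2).choose : ℕ) : ZMod m)
  have ht : ∀ (d : V) (j : ℕ), (σ ^ j)⁻¹ * (d : GQ) ∈ V' → t d = (j : ZMod m) := by
    intro d j hj
    have h0 := (h.gen d d.2).choose_spec.2
    set j0 := (h.gen d d.2).choose with hj0
    have h1 : σ ^ ((j0 : ℤ) - (j : ℤ)) ∈ V' := by
      have h2 := V'.mul_mem hj (V'.inv_mem h0)
      have h3 : (σ ^ j)⁻¹ * (d : GQ) * ((σ ^ j0)⁻¹ * (d : GQ))⁻¹ = σ ^ ((j0 : ℤ) - (j : ℤ)) := by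
        rw [zpow_sub, zpow_natCast, zpow_natCast, mul_inv_rev, inv_inv]
        have hc : Commute (σ ^ j0) (σ ^ j)⁻¹ := ((Commute.refl σ).pow_pow j0 j).inv_right
        rw [hc.eq]
        group
      rwa [h3] at h2
    rw [FrobGenQ_zpow_mem_iff h] at h1
    have h4 := (ZMod.intCast_eq_intCast_iff_dvd_sub (j : ℤ) (j0 : ℤ) m).2 h1
    show ((j0 : ℕ) : ZMod m) = _
    exact_mod_cast h4.symm
  have hspec : ∀ d : V, ∃ j : ℕ, (σ ^ j)⁻¹ * (d : GQ) ∈ V' ∧ t d = (j : ZMod m) := fun d =>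
    ⟨_, (h.gen d d.2).choose_spec.2, rfl⟩
  refine ⟨t, ?_, ?_, ?_⟩
  · intro d e
    obtain ⟨jd, hd, hd'⟩ := hspec d
    obtain ⟨je, he, he'⟩ := hspec e
    rw [hd', he', ← Nat.cast_add]
    apply ht
    have h1 := h.normal (e : GQ)⁻¹ (V.inv_mem e.2) _ hd
    have h2 := V'.mul_mem he h1
    have h3 : (σ ^ je)⁻¹ * (e : GQ) * ((e : GQ)⁻¹ * ((σ ^ jd)⁻¹ * (d : GQ)) * ((e : GQ)⁻¹)⁻¹) =
        (σ ^ (jd + je))⁻¹ * ((d * e : V) : GQ) := by
      rw [pow_add, Subgroup.coe_mul]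
      group
    rwa [h3] at h2
  · intro d hd
    have := ht d 0 (by simpa using hd)
    simpa using this
  · have := ht ⟨σ, h.mem⟩ 1 (by simp)
    simpa using this

/-- `φ` from `Local.exists_frob P ⊥` (`lg_bot`, `li_bot`).
* `normal`: `Local.ine_normal`.
* `gen`: a level of `Lall.induced D` is `U.comap D.subtype`, `U = N.fixingSubgroup`, `N` a number field: `Local.frob_gen P ⊥ hφ hF N`.
* `cyc`: `h := Local.isCyc_unr P ⊥ hm hφ hF : IsCyc m (lg P ⊥) (lg P (unr P ⊥ m)) φ`.  For `d ∈ D` let `t d = (j : ZMod m)` with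
  `(φ ^ j)⁻¹ * d ∈ lg P (unr P ⊥ m)` (`h.gen`); it is well defined by `h.pow_mem_iff`, additive by `h.normal`; it vanishes on inertia
  (`Local.li_le_unr`), `t φ = 1`, and it is right invariant under the level of a normal number field containing `unr P ⊥ m`
  (`exists_normal_level_all`, see `PT/B/Galois.lean : exists_level_fixing`). -/
theorem exists_isFrobGen (P : Plc) (D : Subgroup GQ) (hD : D = P.dec) :
    ∃ φ : D, IsFrobGen (Lall.induced D) (P.ine.subgroupOf D) φ := by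
  subst hD
  obtain ⟨φ, hφ, hF⟩ := Local.exists_frob P ⊥
  have hφD : φ ∈ P.dec := by rwa [lg_bot] at hφ
  refine ⟨⟨φ, hφD⟩, ⟨⟨fun n hn g => ?_⟩, ?_, ?_⟩⟩
  · rw [Subgroup.mem_subgroupOf] at hn ⊢
    exact Local.ine_normal P g.2 hn
  · rintro U ⟨U0, ⟨hn, N, hN, rfl⟩, rfl⟩ d
    have := hN
    obtain ⟨j, τ, hτ, u, hu, hd⟩ := Local.frob_gen P ⊥ hφ hF N (σ := (d : GQ))
      (by rw [lg_bot]; exact d.2)
    rw [li_bot] at hτ
    have hu' := (Local.mem_lg_iff P _ u).1 hu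
    refine ⟨j, ⟨τ, Local.ine_le_dec P hτ⟩, ?_, ⟨u, hu'.1⟩, ?_, ?_⟩
    · rw [Subgroup.mem_subgroupOf]
      exact hτ
    · rw [Subgroup.mem_comap, IntermediateField.mem_fixingSubgroup_iff]
      exact fun x hx => hu'.2 x (le_sup_right (a := (⊥ : Fld)) hx)
    · exact Subtype.ext hd
  · intro m hm
    have h := Local.isCyc_unr P ⊥ hm hφ hF
    obtain ⟨t, hadd, hzero, hone⟩ := FrobGenQ_exists_char h
    have hle : ∀ d : P.dec, (d : GQ) ∈ lg P ⊥ := fun d => by rw [lg_bot]; exact d.2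
    let t' : P.dec → ZMod m := fun d => t ⟨d, hle d⟩
    have hadd' : ∀ d e, t' (d * e) = t' d + t' e := fun d e => hadd ⟨d, hle d⟩ ⟨e, hle e⟩
    refine ⟨t', ?_, hadd', ?_, hone⟩
    · obtain ⟨F', hF', hfd, hnor⟩ := FrobGenQ_exists_normal (unr P ⊥ m) inferInstance
      refine ⟨F'.fixingSubgroup.comap P.dec.subtype, ⟨_, ⟨hnor, F', hfd, rfl⟩, rfl⟩,
        fun g s hs => ?_⟩
      rw [hadd']
      have : t' s = 0 := by
        apply hzero
        rw [Subgroup.mem_comap, IntermediateField.mem_fixingSubgroup_iff] at hs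
        exact (Local.mem_lg_iff P _ _).2 ⟨s.2, fun x hx => hs x (hF' hx)⟩
      rw [this, add_zero]
    · intro τ hτ
      apply hzero
      rw [Subgroup.mem_subgroupOf] at hτ
      exact Local.li_le_unr P ⊥ m (by rw [li_bot]; exact hτ)

end Fermat.Agent.S56.Lq
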