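/-
S56 block (Lq), arithmetic part, leaf T-step: the tamely ramified extension `K₁ = K(β)`, `β ^ p = π`.
-/
import Fermat.Agent.S56.Lq.TameGen
import Fermat.Agent.PT.Local.Ram

set_option autoImplicit false

open ExtCitation

namespace Fermat.Agent.S56.Lq

open Fermat.Agent.PT
open Fermat.Agent.PT.Local (Qb Plc li lg lf IsUnif Fld)

variable {p : ℕ} [Fact p.Prime] (P : Plc) (K : Fld) [FiniteDimensional ℚ K]

/-- `K(β)`. -/
noncomputable def adj (K : Fld) (β : Qb) : Fld := K ⊔ IntermediateField.adjoin ℚ {β}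

instance instFiniteDimensionalAdj (β : Qb) : FiniteDimensional ℚ (adj K β) := by
  have : FiniteDimensional ℚ (IntermediateField.adjoin ℚ {β}) :=
    IntermediateField.adjoin.finiteDimensional (Algebra.IsAlgebraic.isAlgebraic β).isIntegral
  exact IntermediateField.finiteDimensional_sup _ _

theorem TameStep_mem_fix_adjoin (β : Qb) (τ : GQ) :
    τ ∈ (IntermediateField.adjoin ℚ {β}).fixingSubgroup ↔ τ β = β := by
  constructor
  · intro h
    exact (IntermediateField.mem_fixingSubgroup_iff _ τ).1 h β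
      (IntermediateField.mem_adjoin_simple_self ℚ β)
  · intro h
    have h1 : Subgroup.zpowers τ ≤ (IntermediateField.adjoin ℚ {β}).fixingSubgroup := by
      rw [← IntermediateField.le_iff_le, IntermediateField.adjoin_simple_le_iff,
        IntermediateField.mem_fixedField_iff]
      have h2 : Subgroup.zpowers τ ≤ MulAction.stabilizer GQ β :=
        Subgroup.zpowers_le.2 h
      intro g hg
      exact h2 hg
    exact h1 (Subgroup.mem_zpowers τ)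

theorem TameStep_mem_fix_adj (β : Qb) (τ : GQ) :
    τ ∈ (adj K β).fixingSubgroup ↔ τ ∈ K.fixingSubgroup ∧ τ β = β := by
  rw [adj, IntermediateField.fixingSubgroup_sup, Subgroup.mem_inf, TameStep_mem_fix_adjoin]

theorem mem_li_adj_iff (β : Qb) (τ : GQ) : τ ∈ li P (adj K β) ↔ τ ∈ li P K ∧ τ β = β := by
  rw [li, li, Subgroup.mem_inf, Subgroup.mem_inf, TameStep_mem_fix_adj, and_assoc]

theorem mem_lg_adj_iff (β : Qb) (τ : GQ) : τ ∈ lg P (adj K β) ↔ τ ∈ lg P K ∧ τ β = β := by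
  rw [lg, lg, Subgroup.mem_inf, Subgroup.mem_inf, TameStep_mem_fix_adj, and_assoc]

theorem TameStep_kapR_one {β : Qb} (hβ : β ≠ 0) : kapR p β 1 = 0 :=
  (kapR_eq_zero_iff hβ rfl).2 rfl

theorem TameStep_pow_fix {x : Qb} {τ : GQ} (h : τ x = x) (j : ℕ) : (τ ^ j) x = x := by
  induction j with
  | zero => rfl
  | succ j ih => rw [pow_succ, AlgEquiv.mul_apply, h, ih]

theorem TameStep_kapR_pow {β : Qb} (hβ : β ≠ 0) {τ : GQ} (hτ : τ (β ^ p) = β ^ p)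
    (hχ : cycloChar p τ = 1) (j : ℕ) : kapR p β (τ ^ j) = (j : ZMod p) * kapR p β τ := by
  induction j with
  | zero => simp [TameStep_kapR_one hβ]
  | succ j ih =>
    rw [pow_succ', kapR_mul hβ hτ (TameStep_pow_fix hτ j), hχ, ih]
    push_cast
    ring

/-- **(TE)** inertia moves `β`: otherwise `v β = v π ^ n` (`v_eq_zpow_of_fixed`), `v π = v π ^ (p n)`, `1 = p n`
(`Local.v_zpow_injective`).  So `kapR p β τ = a ≠ 0` for some `τ`; take `τ₀ = τ ^ (a⁻¹).val` (`kapR_mul`, `χ = 1` on inertia). -/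
theorem exists_kapR_eq_one (hℓ : P.ℓ ≠ p) {π β : Qb} (hπ : IsUnif P K π) (hβ : β ^ p = π) :
    ∃ τ₀ ∈ li P K, kapR p β τ₀ = 1 := by
  have hpp : p.Prime := Fact.out
  have hπ0 : π ≠ 0 := hπ.ne_zero
  have hβ0 : β ≠ 0 := by
    rintro rfl
    rw [zero_pow hpp.ne_zero] at hβ
    exact hπ0 hβ.symm
  have hfixπ : ∀ τ ∈ li P K, τ (β ^ p) = β ^ p := by
    intro τ hτ
    rw [hβ]
    exact (Local.mem_lf_iff P K π).1 hπ.1 τ (Local.li_le_lg P K hτ)
  obtain ⟨τ, hτ, hne⟩ : ∃ τ ∈ li P K, τ β ≠ β := by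
    by_contra hcon
    push Not at hcon
    obtain ⟨n, hn⟩ := v_eq_zpow_of_fixed P K hπ hβ0 hcon
    have h1 : P.v π ^ (1 : ℤ) = P.v π ^ (n * (p : ℤ)) := by
      rw [zpow_one, zpow_mul, ← hn, zpow_natCast, ← map_pow, hβ]
    have h2 := Local.v_zpow_injective P hπ0 hπ.2.1 h1
    have h3 : (p : ℤ) ∣ 1 := ⟨n, by rw [h2]; ring⟩
    have h4 : p ∣ 1 := Int.natCast_dvd_natCast.1 (by simpa using h3)
    exact hpp.one_lt.ne' (Nat.dvd_one.1 h4)
  have ha : kapR p β τ ≠ 0 := fun h => hne ((kapR_eq_zero_iff hβ0 (hfixπ τ hτ)).1 h)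
  have hχ : cycloChar p τ = 1 :=
    cycloChar_eq_one_of_mem_ine P hℓ ((Local.mem_li_iff P K τ).1 hτ).1
  refine ⟨τ ^ ((kapR p β τ)⁻¹).val, Subgroup.pow_mem _ hτ _, ?_⟩
  have : NeZero p := ⟨hpp.ne_zero⟩
  rw [TameStep_kapR_pow hβ0 (hfixπ τ hτ) hχ, ZMod.natCast_zmod_val, inv_mul_cancel₀ ha]

/-- **(TS)** `β` is a uniformiser of `K(β)`.  `σ := τ₀` of `exists_kapR_eq_one`.  `IsCyc p (lg P K) (lg P (adj K β)) σ`: open (`N = adj K β`);
normal and `gen`, `pow_mem_iff` from `kapR_mul` (`χ = 1` on `lg P K` because `ζ ∈ K`), `kapR_eq_zero_iff`, `mem_lg_adj_iff`.  Ramified since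
`σ ∈ li P K`, `σ β ≠ β`.  `Local.ram_exists_unif` gives `π₁` with `v π₁ ^ p = v π = v β ^ p`, so `v π₁ = v β` and `IsUnif.of_v_eq`. -/
theorem isUnif_adj (hℓ : P.ℓ ≠ p) (hζ : ((zetaP p : Qbarˣ) : Qbar) ∈ K) {π β : Qb}
    (hπ : IsUnif P K π) (hβ : β ^ p = π) : IsUnif P (adj K β) β := by
  have hpp : p.Prime := Fact.out
  have : NeZero p := ⟨hpp.ne_zero⟩
  have hπ0 : π ≠ 0 := hπ.ne_zero
  have hβ0 : β ≠ 0 := by
    rintro rfl
    rw [zero_pow hpp.ne_zero] at hβ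
    exact hπ0 hβ.symm
  have hfix : ∀ g ∈ lg P K, g (β ^ p) = β ^ p := by
    intro g hg
    rw [hβ]
    exact (Local.mem_lf_iff P K π).1 hπ.1 g hg
  have hχ : ∀ g ∈ lg P K, cycloChar p g = 1 := by
    have h1 : lg P K ≤ G1 p := (le_G1_iff p).2 fun v hv => ((Local.mem_lg_iff P K v).1 hv).2 _ hζ
    exact fun g hg => h1 hg
  have hmul : ∀ g ∈ lg P K, ∀ h ∈ lg P K, kapR p β (g * h) = kapR p β g + kapR p β h := by
    intro g hg h hh
    rw [kapR_mul hβ0 (hfix g hg) (hfix h hh), hχ g hg, Units.val_one, one_mul]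
  have hinv : ∀ g ∈ lg P K, kapR p β g⁻¹ = - kapR p β g := by
    intro g hg
    have h1 := hmul g hg g⁻¹ (inv_mem hg)
    rw [mul_inv_cancel, TameStep_kapR_one hβ0] at h1
    exact eq_neg_of_add_eq_zero_right h1.symm
  have hmem : ∀ g, g ∈ lg P (adj K β) ↔ g ∈ lg P K ∧ kapR p β g = 0 := by
    intro g
    rw [mem_lg_adj_iff]
    constructor
    · rintro ⟨h1, h2⟩
      exact ⟨h1, (kapR_eq_zero_iff hβ0 (hfix g h1)).2 h2⟩
    · rintro ⟨h1, h2⟩
      exact ⟨h1, (kapR_eq_zero_iff hβ0 (hfix g h1)).1 h2⟩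
  obtain ⟨σ, hσ, hσ1⟩ := exists_kapR_eq_one P K hℓ hπ hβ
  have hσg : σ ∈ lg P K := Local.li_le_lg P K hσ
  have hpow : ∀ j : ℕ, kapR p β (σ ^ j) = (j : ZMod p) := by
    intro j
    rw [TameStep_kapR_pow hβ0 (hfix σ hσg) (hχ σ hσg), hσ1, mul_one]
  have hcyc : Local.IsCyc p (lg P K) (lg P (adj K β)) σ := by
    refine ⟨⟨fun g hg => ((hmem g).1 hg).1, adj K β, inferInstance, ?_⟩, ?_, hσg, ?_, ?_⟩
    · intro g hg
      rw [Subgroup.mem_inf] at hg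
      rw [lg, Subgroup.mem_inf]
      exact ⟨Local.lg_le_dec P K hg.1, hg.2⟩
    · intro g hg h hh
      obtain ⟨hh1, hh2⟩ := (hmem h).1 hh
      rw [hmem]
      refine ⟨mul_mem (mul_mem hg hh1) (inv_mem hg), ?_⟩
      rw [hmul _ (mul_mem hg hh1) _ (inv_mem hg), hmul g hg h hh1, hh2, hinv g hg]
      ring
    · intro g hg
      refine ⟨(kapR p β g).val, ZMod.val_lt _, ?_⟩
      rw [hmem]
      refine ⟨mul_mem (inv_mem (pow_mem hσg _)) hg, ?_⟩
      rw [hmul _ (inv_mem (pow_mem hσg _)) g hg, hinv _ (pow_mem hσg _), hpow,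
        ZMod.natCast_zmod_val]
      ring
    · intro j
      rw [hmem, hpow, ZMod.natCast_eq_zero_iff]
      exact ⟨fun h => h.2, fun h => ⟨pow_mem hσg _, h⟩⟩
  have hram : ¬ li P K ≤ lg P (adj K β) := by
    intro hle
    have h1 := ((hmem σ).1 (hle hσ)).2
    rw [hσ1] at h1
    have : Fact (1 < p) := ⟨hpp.one_lt⟩
    exact one_ne_zero h1
  obtain ⟨π₁, hπ₁, hv⟩ := Local.ram_exists_unif P K (adj K β) hpp hcyc hram hπ
  have hβmem : β ∈ lf P (adj K β) :=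
    Local.le_lf P _ ((le_sup_right : _ ≤ adj K β) (IntermediateField.mem_adjoin_simple_self ℚ β))
  refine hπ₁.of_v_eq hβmem ?_
  have h1 : P.v β ^ p = P.v π₁ ^ p := by rw [hv, ← map_pow, hβ]
  exact (pow_left_inj₀ zero_le zero_le hpp.ne_zero).1 h1

/-- **(TP)** `τ β₂ = ξ β₂` with `ξ ^ p = τ β / β = ζ ^ a`; `ξ ^ (p ^ 2) = 1` so `τ ξ = ξ` (inertia fixes the roots of unity of order prime to `ℓ`:
`Levels_inertia_fix_root` as in `Ine_le_G1_of_ne`).  Hence `τ ^ j β₂ = ξ ^ j β₂` and `τ ^ p β₂ = ζ ^ a β₂`. -/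
theorem kapR_pow_p (hℓ : P.ℓ ≠ p) {β β₂ : Qb} (hβ0 : β ≠ 0) (h₂ : β₂ ^ p = β) {τ : GQ}
    (hτ : τ ∈ P.ine) (hfix : τ (β ^ p) = β ^ p) : kapR p β₂ (τ ^ p) = kapR p β τ := by
  have hpp : p.Prime := Fact.out
  have hβ₂0 : β₂ ≠ 0 := by
    rintro rfl
    rw [zero_pow hpp.ne_zero] at h₂
    exact hβ0 h₂.symm
  have hspec := kapR_spec hβ0 hfix
  obtain ⟨ξ, hξ⟩ : ∃ ξ : Qb, ξ = τ β₂ / β₂ := ⟨_, rfl⟩
  have hτβ₂ : τ β₂ = ξ * β₂ := by rw [hξ]; field_simp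
  have hξp : ξ ^ p = ((zetaP p : Qbarˣ) : Qbar) ^ (kapR p β τ).val := by
    rw [hξ, div_pow, ← map_pow, h₂, hspec]
    field_simp
  have hζp : ((zetaP p : Qbarˣ) : Qbar) ^ p = 1 := by
    rw [← Units.val_pow_eq_pow_val, (zetaP_spec p).pow_eq_one, Units.val_one]
  have hξpp : ξ ^ (p * p) = 1 := by
    rw [pow_mul, hξp, ← pow_mul, mul_comm, pow_mul, hζp, one_pow]
  have hτξ : τ ξ = ξ :=
    Levels_inertia_fix_root P.A (mul_ne_zero hpp.ne_zero hpp.ne_zero)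
      (Nat.Coprime.mul_left ((Nat.coprime_primes hpp P.prime).2 (Ne.symm hℓ))
        ((Nat.coprime_primes hpp P.prime).2 (Ne.symm hℓ))) P.liesOver hτ hξpp
  have hpow : ∀ j : ℕ, (τ ^ j) β₂ = ξ ^ j * β₂ := by
    intro j
    induction j with
    | zero => simp
    | succ j ih =>
      rw [pow_succ', AlgEquiv.mul_apply, ih, map_mul, map_pow, hτξ, hτβ₂]
      ring
  apply kapR_eq_of hβ₂0
  rw [hpow, hξp]

end Fermat.Agent.S56.Lq
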