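/-
S56 block (Lq), arithmetic part: ASSEMBLY of the tame structure of the inertia group at `ℓ ≠ p`.
-/
import Fermat.Agent.S56.Lq.TameStep
import Fermat.Agent.S56.Lq.AbsTame

set_option autoImplicit false

open ExtCitation

namespace Fermat.Agent.S56.Lq

open Fermat.Agent.PT
open Fermat.Agent.PT.Local (Qb Plc li lg lf IsUnif Fld unr)
open Fermat.Agent.S36R.K0L (isUnif_ell li_bot lg_bot)

variable {p : ℕ} [Fact p.Prime]

open Classical in
/-- extension by zero of a function on a subgroup. -/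
noncomputable def extZ {G X : Type*} [Group G] [Zero X] (D : Subgroup G) (c : D → X) : G → X :=
  fun g => if h : g ∈ D then c ⟨g, h⟩ else 0

theorem extZ_apply {G X : Type*} [Group G] [Zero X] (D : Subgroup G) (c : D → X) {g : G}
    (h : g ∈ D) : extZ D c g = c ⟨g, h⟩ := dif_pos h

theorem extZ_smoothOn {G X : Type*} [Group G] [Zero X] {L : LevelSystem G} {D V : Subgroup G}
    (hV : V ≤ D) {c : D → X} (hs : Inh.LC1 (L.induced D) c) : SmoothOn1 L V (extZ D c) := by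
  obtain ⟨_, ⟨U, hU, rfl⟩, h⟩ := hs
  refine ⟨U, hU, fun v hv u hu huU => ?_⟩
  rw [extZ_apply D c (D.mul_mem (hV hv) (hV hu)), extZ_apply D c (hV hv)]
  exact h ⟨v, hV hv⟩ ⟨u, hV hu⟩ huU

/-- `ζ_p` lies in the unramified extension of degree `p - 1` (`p ∣ ℓ ^ (p - 1) - 1`, `rq P ⊥ = ℓ ^ f`). -/
theorem zetaP_mem_unr (P : Plc) (hℓ : P.ℓ ≠ p) :
    ((zetaP p : Qbarˣ) : Qbar) ∈ unr P ⊥ (p - 1) := by
  have hp : p.Prime := Fact.out
  obtain ⟨f, -, hrq⟩ := Local.exists_rq_eq P ⊥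
  have hcop : Nat.Coprime (Local.rq P ⊥) p := by
    rw [hrq]
    exact Nat.Coprime.pow_left f ((Nat.coprime_primes P.prime hp).2 hℓ)
  have hgt : 1 < Local.rq P ⊥ ^ (p - 1) :=
    Nat.one_lt_pow (Nat.sub_pos_of_lt hp.one_lt).ne' (Local.one_lt_rq P ⊥)
  have hdvd : p ∣ Local.rq P ⊥ ^ (p - 1) - 1 := by
    have h1 := Nat.ModEq.pow_totient hcop
    rw [Nat.totient_prime hp] at h1
    exact (Nat.modEq_iff_dvd' hgt.le).mp h1.symm
  have hpow : ((zetaP p : Qbarˣ) : Qbar) ^ (Local.rq P ⊥ ^ (p - 1) - 1) = 1 := by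
    obtain ⟨t, ht⟩ := hdvd
    have h1 : ((zetaP p : Qbarˣ) : Qbar) ^ p = 1 := by
      rw [← Units.val_pow_eq_pow_val, (zetaP_spec p).pow_eq_one, Units.val_one]
    rw [ht, pow_mul, h1, one_pow]
  have hmem : ((zetaP p : Qbarˣ) : Qbar) ∈
      ((Polynomial.nthRootsFinset (Local.rq P ⊥ ^ (p - 1) - 1) (1 : Qb) : Finset Qb) : Set Qb) :=
    Finset.mem_coe.mpr ((Polynomial.mem_nthRootsFinset (Nat.sub_pos_of_lt hgt) _).mpr hpow)
  exact (le_sup_right : _ ≤ unr P ⊥ (p - 1)) (IntermediateField.subset_adjoin _ _ hmem)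

theorem exists_isTame (P : Plc) (hℓ : P.ℓ ≠ p) (D : Subgroup GQ) (hD : D = P.dec) :
    ∃ (κ : D → ZMod p) (τ₀ : D), IsTame (Lall.induced D) (P.ine.subgroupOf D)
      ((cycloChar p).comp D.subtype) κ τ₀ := by
  subst hD
  have hp : p.Prime := Fact.out
  have hπ := isUnif_ell P
  obtain ⟨β, hβ⟩ := IsAlgClosed.exists_pow_nat_eq (P.ℓ : Qb) hp.pos
  obtain ⟨β₂, hβ₂⟩ := IsAlgClosed.exists_pow_nat_eq β hp.pos
  have hβ0 : β ≠ 0 := by
    rintro rfl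
    rw [zero_pow hp.ne_zero] at hβ
    exact P.prime.ne_zero (by exact_mod_cast hβ.symm)
  have hfix : ∀ g : GQ, g (β ^ p) = β ^ p := fun g => by rw [hβ, map_natCast]
  obtain ⟨τ₀, hτ₀, h1⟩ := exists_kapR_eq_one P ⊥ hℓ hπ hβ
  rw [li_bot] at hτ₀
  have hle : P.ine ≤ P.dec := Local.ine_le_dec P
  -- the second layer
  have hpos : 0 < p - 1 := Nat.sub_pos_of_lt hp.one_lt
  have hπ' : IsUnif P (unr P ⊥ (p - 1)) (P.ℓ : Qb) := Local.isUnif_unr P ⊥ hpos hπ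
  have hπ₁ : IsUnif P (adj (unr P ⊥ (p - 1)) β) β :=
    isUnif_adj P _ hℓ (zetaP_mem_unr P hℓ) hπ' hβ
  have hli : ∀ τ : GQ, τ ∈ li P (adj (unr P ⊥ (p - 1)) β) ↔ τ ∈ P.ine ∧ kapR p β τ = 0 := by
    intro τ
    rw [mem_li_adj_iff, Local.li_unr, li_bot, kapR_eq_zero_iff hβ0 (hfix τ)]
  refine ⟨fun d => kapR p β d, ⟨τ₀, hle hτ₀⟩, ?_⟩
  refine ⟨hτ₀, h1, ?_, ?_, ?_, ?_, ?_⟩
  · intro τ hτ
    exact cycloChar_eq_one_of_mem_ine P hℓ hτ
  · intro d e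
    exact kapR_mul hβ0 (hfix d) (hfix e)
  · obtain ⟨U, hU, h⟩ := kapR_smooth (p := p) β
    exact ⟨_, ⟨U, hU, rfl⟩, fun g s hs => h g s hs⟩
  · intro c hs hc τ hτ
    have hτ' : (τ : GQ) ∈ P.ine := hτ
    obtain ⟨i, hi⟩ := tame_gen P ⊥ hℓ hπ hβ (extZ P.dec c)
      (extZ_smoothOn (by rw [li_bot]; exact hle) hs) (by
        intro σ hσ τ hτ
        rw [li_bot] at hσ hτ
        rw [extZ_apply _ c (P.dec.mul_mem (hle hσ) (hle hτ)), extZ_apply _ c (hle hσ),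
          extZ_apply _ c (hle hτ)]
        exact hc ⟨σ, hle hσ⟩ hσ ⟨τ, hle hτ⟩ hτ)
    have e1 := hi τ (by rw [li_bot]; exact hτ')
    have e2 := hi τ₀ (by rw [li_bot]; exact hτ₀)
    rw [extZ_apply _ c τ.2] at e1
    rw [extZ_apply _ c (hle hτ₀), h1, mul_one] at e2
    rw [e2]
    show c τ = kapR p β τ * i
    rw [mul_comm]
    exact e1
  · intro c hs hc h0 τ hτ hκ
    have hτ' : (τ : GQ) ∈ P.ine := hτ
    have hle₁ : li P (adj (unr P ⊥ (p - 1)) β) ≤ P.dec := fun x hx => hle ((hli x).1 hx).1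
    obtain ⟨i, hi⟩ := tame_gen P (adj (unr P ⊥ (p - 1)) β) hℓ hπ₁ hβ₂ (extZ P.dec c)
      (extZ_smoothOn hle₁ hs) (by
        intro σ hσ τ hτ
        obtain ⟨hσ1, hσ2⟩ := (hli σ).1 hσ
        obtain ⟨hτ1, hτ2⟩ := (hli τ).1 hτ
        rw [extZ_apply _ c (P.dec.mul_mem (hle hσ1) (hle hτ1)), extZ_apply _ c (hle hσ1),
          extZ_apply _ c (hle hτ1)]
        exact hc ⟨σ, hle hσ1⟩ hσ1 ⟨τ, hle hτ1⟩ hτ1 hσ2 hτ2)
    have hpow : kapR p β (τ₀ ^ p) = 0 := by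
      have : ∀ j : ℕ, kapR p β (τ₀ ^ j) = j := by
        intro j
        induction j with
        | zero =>
          rw [pow_zero, Nat.cast_zero, kapR_eq_zero_iff hβ0 (hfix 1)]
          rfl
        | succ j ih =>
          rw [pow_succ, kapR_mul hβ0 (hfix _) (hfix _), ih, h1,
            cycloChar_eq_one_of_mem_ine P hℓ (P.ine.pow_mem hτ₀ j)]
          push_cast
          ring
      rw [this, ZMod.natCast_self]
    have e2 := hi (τ₀ ^ p) ((hli _).2 ⟨P.ine.pow_mem hτ₀ p, hpow⟩)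
    rw [kapR_pow_p P hℓ hβ0 hβ₂ hτ₀ (hfix τ₀), h1, mul_one,
      extZ_apply _ c (P.dec.pow_mem (hle hτ₀) p)] at e2
    have e3 : i = 0 := by
      rw [← e2]
      exact h0
    have e1 := hi τ ((hli _).2 ⟨hτ', hκ⟩)
    rw [extZ_apply _ c τ.2, e3, zero_mul] at e1
    exact e1

end Fermat.Agent.S56.Lq
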