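/-
S56 block (Lq): MAIN EXPORTS, part 1: the contracts `UrBoundStatement`, `TameBoundStatement` of `S56/GW/Local.lean`
(and the stronger `finrank_Lur`, valid for ramified `ρ` and for `v = p` as well).
-/
import Fermat.Agent.S56.Lq.Glue
import Fermat.Agent.S56.Lq.AbsL1
import Fermat.Agent.S56.Lq.TameMain
import Fermat.Agent.S56.Lq.FrobGenQ

set_option autoImplicit false

open ExtCitation Module

noncomputable section

namespace Fermat.Agent.S56.Lq

open Fermat.Agent.PT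

variable {p : ℕ} [Fact p.Prime]

/-- **(E1)** `dim H¹_ur(D_v, ρ) = h⁰(D_v, ρ)` for every prime `v` and every finite smooth `ρ` (ramified or not). -/
theorem finrank_Lur {A : Type} [AddCommGroup A] [Module (ZMod p) A] [Module.Finite (ZMod p) A]
    (ρ : Representation (ZMod p) GQ A) (hρ : IsSmoothRep Lall ρ) (v : Nat.Primes) :
    Module.Finite (ZMod p) (GW.Lur ρ v) ∧
      finrank (ZMod p) (GW.Lur ρ v) = finrank (ZMod p) (invOf (Dl v) ρ) := by
  obtain ⟨φ, hφ⟩ := exists_isFrobGen (plcV v) (Dv v) (Dv_eq v)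
  obtain ⟨h1, h2⟩ := finrank_LurI (ρ := resRep (Dv v) ρ) hφ (isSmoothRep_induced hρ (Dv v))
  obtain ⟨h3, h4⟩ := finrank_Lur_eq_LurI ρ v hρ
  exact ⟨h3 h1, by rw [h4, h2, invOf_top_resRep]⟩

theorem urBound (p : ℕ) [Fact p.Prime] : GW.UrBoundStatement p := by
  intro A _ _ _ ρ hρ v _
  obtain ⟨h1, h2⟩ := finrank_Lur ρ hρ v
  exact ⟨h1, h2.le⟩

theorem tameBound (p : ℕ) [Fact p.Prime] : GW.TameBoundStatement p := by
  intro A _ _ _ ρ hρ v hv hun
  have hℓ : (plcV v).ℓ ≠ p := fun h => hv (Subtype.ext h)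
  obtain ⟨φ, hφ⟩ := exists_isFrobGen (plcV v) (Dv v) (Dv_eq v)
  obtain ⟨κ, τ₀, hT⟩ := exists_isTame (p := p) (plcV v) hℓ (Dv v) (Dv_eq v)
  obtain ⟨h1, h2⟩ := finrank_quot_LurI_le (ρ := resRep (Dv v) ρ) hT hφ.normal
    (fun τ hτ => hun τ hτ)
  obtain ⟨h3, h4⟩ := finrank_quot_Lur_eq ρ v hρ
  exact ⟨h3 h1, by rw [h4, ← eigOf_resRep]; exact h2⟩

end Fermat.Agent.S56.Lq
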