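/-
S56 block (Lq): MAIN EXPORTS, part 2 (E3): at `q ∈ Smin`, `q ≠ p` the Selmer condition `UnipAt` forces the class to be unramified.
-/
import Fermat.Agent.S56.Lq.Main
import Fermat.Agent.S56.Lq.AbsUnipCob
import Fermat.Agent.S56.B.Local

set_option autoImplicit false

open ExtCitation Module Matrix

noncomputable section

namespace Fermat.Agent.S56.Lq

open Fermat.Agent.PT
open Fermat.Agent.S53 (G M2)
open Fermat.Agent.S56.C (ad rm)
open Fermat.Agent.S56.B (Ad0 adFp inhOf RSmooth mem_Ad0 coe_adFp)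

variable {p : ℕ} [Fact p.Prime] {k : Type} [Field k] [Algebra (ZMod p) k]

/-- `r` restricted to a subgroup is level constant. -/
theorem lc1_comp_subtype {r : G →* GL (Fin 2) k} (hr : RSmooth r) (D : Subgroup GQ) :
    Inh.LC1 (Lall.induced D) (r.comp D.subtype) := by
  obtain ⟨F, hF, h⟩ := hr
  have hK : r.ker ∈ Lall := B.mem_Lall_of_normal _ inferInstance ⟨F, hF, fun s hs => h s hs⟩
  refine ⟨_, ⟨r.ker, hK, rfl⟩, fun g s hs => ?_⟩
  have hs' : r (s : GQ) = 1 := hs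
  show r ((g * s : D) : GQ) = r (g : GQ)
  rw [Subgroup.coe_mul, map_mul, hs', mul_one]

/-- **(E3)**  `v ≠ p`, `r` unipotent on the inertia group at `primeLocalPlace v` and ramified there.  A cocycle `z` of `D_v` with values in
`ad⁰ r` such that `tr (z(τ) r(τ)) = 0` on inertia is unramified. -/
theorem mk_mem_Lur_of_unip (hp2 : p ≠ 2) (r : G →* GL (Fin 2) k) (hr : RSmooth r) (v : Nat.Primes)
    (hv : v ≠ pPrime p)
    (hunip : ∀ τ ∈ Ine (primeLocalPlace v), (rm r τ).trace = 2 ∧ (rm r τ).det = 1)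
    (hram : ∃ τ ∈ Ine (primeLocalPlace v), r τ ≠ 1) (z : Z1 Lall (Dv v) (adFp p r))
    (hu : ∀ τ ∈ Ine (primeLocalPlace v), (inhOf z.1 τ * rm r τ).trace = 0) :
    H1.mk Lall (Dv v) (adFp p r) z ∈ GW.Lur (adFp p r) v := by
  have : CharP k p := charP_of_injective_algebraMap (algebraMap (ZMod p) k).injective p
  have hℓ : (plcV v).ℓ ≠ p := fun h => hv (Subtype.ext h)
  have hle : (plcV v).ine ≤ Dv v := by
    rw [Dv_eq]
    exact Local.ine_le_dec _
  obtain ⟨κ, τ₀, hT⟩ := exists_isTame (p := p) (plcV v) hℓ (Dv v) (Dv_eq v)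
  obtain ⟨X, hX, hXe⟩ := unip_cob hp2 hT (r.comp (Dv v).subtype) (lc1_comp_subtype hr _)
    (fun τ hτ => hunip τ hτ)
    (by
      obtain ⟨τ, hτ, h1⟩ := hram
      exact ⟨⟨τ, hle hτ⟩, hτ, h1⟩)
    (fun d => inhOf z.1 d)
    (fun g h => by
      have h1 := congrArg Subtype.val (inh1_cocycle z.2 g g.2 h)
      simp only [Submodule.coe_add, coe_adFp] at h1
      show ((z.1 1 ((g * h : Dv v) : GQ) : Ad0 k) : M2 k) = _
      rw [Subgroup.coe_mul, h1, add_comm]
      rfl)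
    (by
      obtain ⟨U, hU, h⟩ := dictV_LC1 (inh1_smoothOn z.2.1)
      exact ⟨U, hU, fun g s hs => congrArg Subtype.val (h g s hs)⟩)
    (fun g => mem_Ad0.1 (z.1 1 g).2)
    (fun τ hτ => hu τ hτ)
  rw [mk_mem_Lur_iff]
  refine ⟨⟨X, mem_Ad0.2 hX⟩, fun τ hτ => Subtype.ext ?_⟩
  exact hXe ⟨τ, hle hτ⟩ hτ

end Fermat.Agent.S56.Lq
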