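/-
S56 block (Lq): DELIVERY of the contracts of `S56/B/Contracts.lean`:  `B.UnipContract p`, `B.SOContract p`
(`GW.UrBoundStatement p`, `GW.TameBoundStatement p` are `Lq.urBound p`, `Lq.tameBound p` in `Lq/Main.lean`).
-/
import Fermat.Agent.S56.Lq.Unip
import Fermat.Agent.S56.Lq.SOMain
import Fermat.Agent.S56.B.Contracts
import Fermat.Agent.PT.Bridge.Levels
import Fermat.Agent.PT.Global.PlaceSystem

set_option autoImplicit false

open ExtCitation Module Matrix
open scoped Pointwise

noncomputable section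

namespace Fermat.Agent.S56.Lq

open Fermat.Agent.PT
open Fermat.Agent.S53 (G M2)
open Fermat.Agent.S56.C (ad rm)
open Fermat.Agent.S56.B (Ad0 adFp inhOf RSmooth RUnramAt mem_Ad0 coe_adFp)

variable {p : ℕ} [Fact p.Prime]

/-- ramification at some place over `v` implies ramification at the base place (all places over `v` are conjugate). -/
theorem exists_ram_of_not_unram {k : Type} [Field k] {r : G →* GL (Fin 2) k} {v : Nat.Primes}
    (h : ¬ RUnramAt r v) : ∃ τ ∈ Ine (primeLocalPlace v), r τ ≠ 1 := by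
  unfold RUnramAt at h
  push Not at h
  obtain ⟨P, hP, σ, hσ, hne⟩ := h
  obtain ⟨g, hg⟩ := exists_smul_eq_of_liesOverPrime v.2 P (primeLocalPlace v) hP
    (LocDual.primeLocalPlace_liesOver v)
  refine ⟨g * σ * g⁻¹, ?_, fun h1 => hne ?_⟩
  · have := Levels_conj_mem_inertiaSubgroupIn (K := ℚ) P g σ hσ
    rw [hg] at this
    exact this
  · rw [map_mul, map_mul, map_inv, mul_inv_eq_one] at h1
    exact mul_left_cancel (h1.trans (mul_one _).symm)

theorem unipContract (hp2 : p ≠ 2) : B.UnipContract p := by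
  intro k _ _ _ r hr v hv hram hunip
  have hρ : IsSmoothRep Lall (adFp p r) := B.isSmoothRep_adFp_Lall p r hr
  have hkfin : Module.Finite (ZMod p) k := Module.Finite.of_finite
  obtain ⟨h1, h2⟩ := finrank_Lur (adFp p r) hρ v
  refine ⟨GW.Lur (adFp p r) v, h1, by rw [h2]; omega, ?_⟩
  rintro z ⟨-, -, -, hu⟩
  have hP := LocDual.primeLocalPlace_liesOver v
  exact mk_mem_Lur_of_unip hp2 r hr v (fun h => hv (congrArg Subtype.val h))
    (fun τ hτ => hunip _ hP τ hτ) (exists_ram_of_not_unram hram) z (fun τ hτ => hu _ hP τ hτ)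

theorem soContract (hp2 : p ≠ 2) : B.SOContract p := by
  intro k _ _ _ r hr _
  obtain ⟨Lp, h1, h2, h3⟩ := exists_Lp hp2 r hr
  refine ⟨Lp, h1, by rw [one_mul]; exact h2, ?_⟩
  rintro z ⟨-, -, -, hso⟩
  exact h3 z (hso _ (LocDual.primeLocalPlace_liesOver (pPrime p)))

end Fermat.Agent.S56.Lq
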